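import Fermat.Agent.Reduction.Level.HeckeLift
import Fermat.Agent.GalRep.DatumJZero

/-!
# Eichler–Shimura specialisation of `J₀(N)`

The reduced classes give, at each prime `ℓ ∤ N p`, the inertia invariance of `p`-power torsion and
the congruence relation; the largest Hecke stable quotient they factor through is the special
fibre of `SpecializationExists`.
-/

set_option autoImplicit false

noncomputable section

open AlgebraicCurve ModularCurve

namespace Fermat.Agent.Reduction

local notation "Qb" => AlgebraicClosure ℚ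
local notation "Γℚ" => AlgebraicClosure ℚ ≃ₐ[ℚ] AlgebraicClosure ℚ

variable (N p : ℕ) [NeZero N]

/-- The reduced class is injective on `p`-power torsion. -/
theorem spBar_eq_zero_imp {ℓ : ℕ} [hℓ : Fact ℓ.Prime] (hℓN : ¬ ℓ ∣ N * p)
    (A : ValuationSubring Qb) (hA : A.LiesOverPrime ℓ) (x : JZero N)
    (hx : ∃ n : ℕ, p ^ n • x = 0)
    (h : Level.spBar A hA N (fun h => hℓN (h.mul_right p)) x = 0) : x = 0 := by
  obtain ⟨n, hn⟩ := hx
  exact Level.spBar_injective_torsion A hA N _
    (fun h' => hℓN ((hℓ.out.dvd_of_dvd_pow h').mul_left N)) hn h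

/-- Inertia invariance and the congruence relation on `p`-power torsion. -/
theorem torsionReduction : GalRep.TorsionReduction N p := by
  intro ℓ hℓ hℓN A hA
  have : Fact ℓ.Prime := ⟨hℓ⟩
  refine ⟨fun σ hσ x hx => sub_eq_zero.mp (spBar_eq_zero_imp N p hℓN A hA _ ?_ ?_),
    fun σ hσ x hx => spBar_eq_zero_imp N p hℓN A hA _ ?_
      (Level.spBar_relation A hA N _ (Level.heckeFrobLift A hA N _) hσ x)⟩
  · obtain ⟨n, hn⟩ := hx
    exact ⟨n, by rw [nsmul_sub, ← GalRep.galois_nsmul N σ, hn, GalRep.galois_zero, sub_zero]⟩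
  · rw [map_sub, Level.spBar_inertia A hA N _ hσ, sub_self]
  · obtain ⟨n, hn⟩ := hx
    refine ⟨n, ?_⟩
    have h1 : p ^ n • (σ • x) = 0 := by rw [← GalRep.galois_nsmul N σ, hn, GalRep.galois_zero]
    have h2 : p ^ n • (σ • σ • x) = 0 := by rw [← GalRep.galois_nsmul N σ, h1, GalRep.galois_zero]
    have h3 : p ^ n • ℓ • x = 0 := by rw [smul_comm, hn, smul_zero]
    rw [nsmul_add, nsmul_sub, ← map_nsmul, h1, h2, h3, map_zero, sub_zero, add_zero]

section Quotient

variable {M P : Type*} [AddCommGroup M] [Module HeckeAlg M] [AddCommGroup P]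

/-- The largest Hecke stable subgroup killed by `s`. -/
def heckeKer (s : M →+ P) : Submodule HeckeAlg M where
  carrier := {x | ∀ t : HeckeAlg, s (t • x) = 0}
  zero_mem' t := by rw [smul_zero, map_zero]
  add_mem' ha hb t := by rw [smul_add, map_add, ha t, hb t, add_zero]
  smul_mem' c x hx t := by rw [smul_smul]; exact hx _

theorem mkQ_eq_zero_iff (s : M →+ P) (x : M) :
    (heckeKer s).mkQ x = 0 ↔ ∀ t : HeckeAlg, s (t • x) = 0 :=
  Submodule.Quotient.mk_eq_zero _

/-- A Hecke linear map with `s`-compatible action descends to the quotient. -/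
def descendHeckeKer (s : M →+ P) (g : M →ₗ[HeckeAlg] M) (F : P →+ P)
    (h : ∀ x, s (g x) = F (s x)) : M ⧸ heckeKer s →ₗ[HeckeAlg] M ⧸ heckeKer s :=
  (heckeKer s).mapQ (heckeKer s) g fun x hx t => by
    show s (t • g x) = 0
    rw [← map_smul, h, hx t, map_zero]

end Quotient

/-- **Specialisation of `J₀(N)`**: at every prime `ℓ ∤ N p` the largest Hecke stable quotient
through which the reduced class factors is a specialisation satisfying Eichler–Shimura. -/
theorem specializationExists_JZero (hcomm : HeckeOperatorsCommuteBar N) :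
    letI := heckeModuleBar N
    ∀ (_ : SMulCommClass Γℚ HeckeAlg (JZero N)),
      SpecializationExists (K := ℚ) (L := Qb) N p (JZero N) := by
  let := heckeModuleBar N
  intro hsmul ℓ hℓ hℓN A hA
  have : Fact ℓ.Prime := ⟨hℓ⟩
  have hN : ¬ ℓ ∣ N := fun h => hℓN (h.mul_right p)
  set s : JZero N →+ _ := Level.spBar A hA N hN with hs
  let g : Γℚ → JZero N →ₗ[HeckeAlg] JZero N := fun σ =>
    { toFun := fun x => σ • x
      map_add' := fun x y => smul_add σ x y
      map_smul' := fun t x => smul_comm σ t x }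
  let F := descendHeckeKer s (g (Level.frobAt A hA))
    (Level.frobSymm A hA N hN).picMap
    fun x => Level.spBar_frobenius A hA N hN (Level.isFrobeniusAt_frobAt A hA) x
  refine ⟨JZero N ⧸ heckeKer s, inferInstance, inferInstance,
    (heckeKer s).mkQ.toAddMonoidHom, F.toAddMonoidHom, ⟨fun t x => map_smul (heckeKer s).mkQ t x,
        ?_, ?_, ?_⟩, ?_⟩
  · intro σ hσ x
    refine sub_eq_zero.mp ?_
    show (heckeKer s).mkQ (σ • x) - (heckeKer s).mkQ x = 0
    rw [← map_sub, mkQ_eq_zero_iff]
    intro t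
    rw [smul_sub, ← smul_comm σ t, map_sub, hs, Level.spBar_inertia A hA N hN hσ, sub_self]
  · intro σ hσ x
    refine sub_eq_zero.mp ?_
    show (heckeKer s).mkQ (σ • x) - (heckeKer s).mkQ (Level.frobAt A hA • x) = 0
    rw [← map_sub, mkQ_eq_zero_iff]
    intro t
    rw [smul_sub, ← smul_comm σ t, ← smul_comm (Level.frobAt A hA) t, map_sub, hs,
      Level.spBar_frobenius A hA N hN hσ,
      Level.spBar_frobenius A hA N hN (Level.isFrobeniusAt_frobAt A hA), sub_self]
  · intro x hx h
    refine spBar_eq_zero_imp N p hℓN A hA x hx ?_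
    have h1 := (mkQ_eq_zero_iff s x).mp h 1
    rwa [one_smul] at h1
  · intro y
    obtain ⟨x, rfl⟩ := (heckeKer s).mkQ_surjective y
    set σ := Level.frobAt A hA with hσdef
    show (heckeKer s).mkQ (σ • σ • x) - heckeGen (⟨ℓ, hℓ⟩ : Nat.Primes) • (heckeKer s).mkQ (σ • x) +
      ℓ • (heckeKer s).mkQ x = 0
    rw [← map_smul, ← map_sub, ← map_nsmul, ← map_add, mkQ_eq_zero_iff]
    intro t
    have e : t • (heckeGen (⟨ℓ, hℓ⟩ : Nat.Primes) • (σ • x)) =
        heckeOperatorBar N (⟨ℓ, hℓ⟩ : Nat.Primes) (σ • t • x) := by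
      rw [smul_smul, mul_comm, ← smul_smul]
      refine (heckeModuleBar_heckeGen_smul hcomm ⟨ℓ, hℓ⟩ (t • σ • x)).trans ?_
      rw [smul_comm σ t]
    rw [smul_add, smul_sub, e, ← smul_comm σ t, ← smul_comm σ t, smul_comm t ℓ x, hs]
    exact Level.spBar_relation A hA N hN (Level.heckeFrobLift A hA N hN)
      (Level.isFrobeniusAt_frobAt A hA) (t • x)

end Fermat.Agent.Reduction
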