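import Mathlib
import Fermat.Prelude.Def_ModularCurve_LaurentCoeff

/-!
# Reduction of Laurent series along a residue map

`Red A π y x` says that all coefficients of `y : LaurentSeries K` lie in the valuation ring `A`
and that `x` is the coefficientwise image of `y` under `π : A →+* k`.
-/

set_option autoImplicit false

noncomputable section

namespace Fermat.Agent.Reduction

open HahnSeries ModularCurve

variable {K k : Type*} [Field K] [Field k] {A : ValuationSubring K} {π : A →+* k}

variable (A π) in
/-- `x` is the coefficientwise reduction of the `A`-integral series `y`. -/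
def Red (y : LaurentSeries K) (x : LaurentSeries k) : Prop :=
  ∀ i : ℤ, ∃ h : y.coeff i ∈ A, π ⟨y.coeff i, h⟩ = x.coeff i

theorem red_iff_exists {y : LaurentSeries K} {x : LaurentSeries k} :
    Red A π y x ↔ ∃ z : LaurentSeries A, coeffMap A.subtype z = y ∧ coeffMap π z = x := by
  constructor
  · intro h
    let z : LaurentSeries A :=
      ⟨fun i => ⟨y.coeff i, (h i).choose⟩, y.isPWO_support.mono fun i hi => by
        simp only [Function.mem_support, ne_eq] at hi
        rw [HahnSeries.mem_support]
        exact fun h0 => hi (Subtype.ext h0)⟩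
    exact ⟨z, HahnSeries.ext (funext fun i => rfl),
      HahnSeries.ext (funext fun i => (h i).choose_spec)⟩
  · rintro ⟨z, rfl, rfl⟩ i
    exact ⟨(z.coeff i).2, rfl⟩

theorem Red.coeff_mem {y : LaurentSeries K} {x : LaurentSeries k} (h : Red A π y x) (i : ℤ) :
    y.coeff i ∈ A := (h i).1

theorem Red.unique {y : LaurentSeries K} {x x' : LaurentSeries k} (h : Red A π y x)
    (h' : Red A π y x') : x = x' := by
  ext i
  obtain ⟨_, h1⟩ := h i
  obtain ⟨_, h2⟩ := h' i
  exact h1.symm.trans h2

theorem red_zero : Red A π 0 0 :=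
  red_iff_exists.mpr ⟨0, map_zero _, map_zero _⟩

theorem red_one : Red A π 1 1 :=
  red_iff_exists.mpr ⟨1, map_one _, map_one _⟩

theorem red_natCast (n : ℕ) : Red A π (n : LaurentSeries K) (n : LaurentSeries k) :=
  red_iff_exists.mpr ⟨n, map_natCast _ n, map_natCast _ n⟩

theorem red_single (i : ℤ) (a : A) :
    Red A π (HahnSeries.single i (a : K)) (HahnSeries.single i (π a)) :=
  red_iff_exists.mpr ⟨HahnSeries.single i a, coeffMap_single _ i a, coeffMap_single _ i a⟩

theorem red_algebraMap (a : A) :
    Red A π (algebraMap K (LaurentSeries K) a) (algebraMap k (LaurentSeries k) (π a)) := by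
  rw [algebraMap_laurentSeries_eq_single, algebraMap_laurentSeries_eq_single]
  exact red_single 0 a

theorem Red.add {y y' : LaurentSeries K} {x x' : LaurentSeries k} (h : Red A π y x)
    (h' : Red A π y' x') : Red A π (y + y') (x + x') := by
  obtain ⟨z, rfl, rfl⟩ := red_iff_exists.mp h
  obtain ⟨z', rfl, rfl⟩ := red_iff_exists.mp h'
  exact red_iff_exists.mpr ⟨z + z', map_add _ _ _, map_add _ _ _⟩

theorem Red.neg {y : LaurentSeries K} {x : LaurentSeries k} (h : Red A π y x) :
    Red A π (-y) (-x) := by
  obtain ⟨z, rfl, rfl⟩ := red_iff_exists.mp h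
  exact red_iff_exists.mpr ⟨-z, map_neg _ _, map_neg _ _⟩

theorem Red.sub {y y' : LaurentSeries K} {x x' : LaurentSeries k} (h : Red A π y x)
    (h' : Red A π y' x') : Red A π (y - y') (x - x') := by
  rw [sub_eq_add_neg, sub_eq_add_neg]
  exact h.add h'.neg

theorem Red.mul {y y' : LaurentSeries K} {x x' : LaurentSeries k} (h : Red A π y x)
    (h' : Red A π y' x') : Red A π (y * y') (x * x') := by
  obtain ⟨z, rfl, rfl⟩ := red_iff_exists.mp h
  obtain ⟨z', rfl, rfl⟩ := red_iff_exists.mp h'
  exact red_iff_exists.mpr ⟨z * z', map_mul _ _ _, map_mul _ _ _⟩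

theorem Red.pow {y : LaurentSeries K} {x : LaurentSeries k} (h : Red A π y x) (n : ℕ) :
    Red A π (y ^ n) (x ^ n) := by
  obtain ⟨z, rfl, rfl⟩ := red_iff_exists.mp h
  exact red_iff_exists.mpr ⟨z ^ n, map_pow _ _ _, map_pow _ _ _⟩

theorem Red.sum {ι : Type*} (s : Finset ι) {y : ι → LaurentSeries K} {x : ι → LaurentSeries k}
    (h : ∀ i ∈ s, Red A π (y i) (x i)) : Red A π (∑ i ∈ s, y i) (∑ i ∈ s, x i) := by
  classical
  induction s using Finset.induction with
  | empty => simpa using red_zero
  | insert a s ha ih =>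
    rw [Finset.sum_insert ha, Finset.sum_insert ha]
    exact (h a (Finset.mem_insert_self a s)).add (ih fun i hi => h i (Finset.mem_insert_of_mem hi))

theorem Red.prod {ι : Type*} (s : Finset ι) {y : ι → LaurentSeries K} {x : ι → LaurentSeries k}
    (h : ∀ i ∈ s, Red A π (y i) (x i)) : Red A π (∏ i ∈ s, y i) (∏ i ∈ s, x i) := by
  classical
  induction s using Finset.induction with
  | empty => simpa using red_one
  | insert a s ha ih =>
    rw [Finset.prod_insert ha, Finset.prod_insert ha]
    exact (h a (Finset.mem_insert_self a s)).mul (ih fun i hi => h i (Finset.mem_insert_of_mem hi))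

theorem coeff_algebraMap_mul (c : K) (y : LaurentSeries K) (i : ℤ) :
    (algebraMap K (LaurentSeries K) c * y).coeff i = c * y.coeff i := by
  rw [algebraMap_laurentSeries_eq_single, HahnSeries.coeff_single_mul, sub_zero]

theorem coeff_smulC (c : K) (y : LaurentSeries K) (i : ℤ) : (c • y).coeff i = c * y.coeff i := by
  rw [HahnSeries.coeff_smul, smul_eq_mul]

/-- The coefficientwise scalar action agrees with multiplication by constants (the two `K`-module
structures on `LaurentSeries K` are not definitionally equal). -/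
theorem smul_eq_algebraMap_mul (c : K) (y : LaurentSeries K) :
    c • y = algebraMap K (LaurentSeries K) c * y := by
  ext i
  rw [coeff_algebraMap_mul, coeff_smulC]

/-- Inclusion of an intermediate field, linear for the coefficientwise module structure. -/
def inclLin (F : IntermediateField K (LaurentSeries K)) : F →ₗ[K] LaurentSeries K where
  toFun z := (z : LaurentSeries K)
  map_add' _ _ := rfl
  map_smul' c z := by
    simp only [RingHom.id_apply, Algebra.smul_def, smul_eq_algebraMap_mul]
    rfl

@[simp]
theorem inclLin_apply (F : IntermediateField K (LaurentSeries K)) (z : F) :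
    inclLin F z = (z : LaurentSeries K) := rfl

theorem inclLin_injective (F : IntermediateField K (LaurentSeries K)) :
    Function.Injective (inclLin F) := Subtype.val_injective

theorem Red.smul {y : LaurentSeries K} {x : LaurentSeries k} (h : Red A π y x) (a : A) :
    Red A π ((a : K) • y) (π a • x) := by
  intro i
  obtain ⟨hi, hπi⟩ := h i
  refine ⟨by rw [coeff_smulC]; exact mul_mem a.2 hi, ?_⟩
  conv_rhs => rw [coeff_smulC, ← hπi, ← map_mul π]
  exact congrArg π (Subtype.ext (coeff_smulC _ _ _))

/-- The residue map is zero exactly on elements of valuation `< 1`. -/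
theorem residue_eq_zero_iff (hπ : Function.Surjective π) (a : A) :
    π a = 0 ↔ A.valuation a < 1 := by
  rw [← ValuationSubring.valuation_lt_one_iff,
    ← IsLocalRing.eq_maximalIdeal (RingHom.ker_isMaximal_of_surjective π hπ), RingHom.mem_ker]

theorem residue_ne_zero_iff (hπ : Function.Surjective π) (a : A) :
    π a ≠ 0 ↔ A.valuation a = 1 := by
  rw [ne_eq, residue_eq_zero_iff hπ]
  rcases A.valuation_lt_one_or_eq_one a with h | h
  · simp [h, h.ne]
  · simp [h]

theorem Red.eq_zero_iff (hπ : Function.Surjective π) {y : LaurentSeries K} {x : LaurentSeries k}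
    (h : Red A π y x) : x = 0 ↔ ∀ i, A.valuation (y.coeff i) < 1 := by
  constructor
  · intro hx i
    obtain ⟨hi, hπi⟩ := h i
    rw [hx] at hπi
    exact (residue_eq_zero_iff hπ ⟨y.coeff i, hi⟩).mp hπi
  · intro hy
    ext i
    obtain ⟨hi, hπi⟩ := h i
    rw [← hπi]
    exact (residue_eq_zero_iff hπ ⟨y.coeff i, hi⟩).mpr (hy i)

theorem Red.coeff_valuation_eq_one (hπ : Function.Surjective π) {y : LaurentSeries K}
    {x : LaurentSeries k} (h : Red A π y x) {i : ℤ} (hx : x.coeff i ≠ 0) :
    A.valuation (y.coeff i) = 1 := by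
  obtain ⟨hi, hπi⟩ := h i
  rw [← hπi] at hx
  exact (residue_ne_zero_iff hπ ⟨y.coeff i, hi⟩).mp hx

theorem exists_red_of_coeff_mem (π : A →+* k) {y : LaurentSeries K} (h : ∀ i, y.coeff i ∈ A) :
    ∃ x, Red A π y x := by
  let z : LaurentSeries A :=
    ⟨fun i => ⟨y.coeff i, h i⟩, y.isPWO_support.mono fun i hi => by
      simp only [Function.mem_support, ne_eq] at hi
      rw [HahnSeries.mem_support]
      exact fun h0 => hi (Subtype.ext h0)⟩
  exact ⟨coeffMap π z,
    red_iff_exists.mpr ⟨z, HahnSeries.ext (funext fun i => rfl), rfl⟩⟩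

/-- An element that can be normalised and whose product with an integral series of nonzero
reduction is integral is itself integral; its reduction is the quotient. -/
theorem red_of_mul (hπ : Function.Surjective π) {y z : LaurentSeries K}
    {w t : LaurentSeries k} {c : K} (hc : c ≠ 0) {x : LaurentSeries k} (hx : x ≠ 0)
    (hy : Red A π (c • y) x) (hz : Red A π z t) (ht : t ≠ 0) (hyz : Red A π (y * z) w) :
    ∃ x' : LaurentSeries k, Red A π y x' ∧ x' * t = w := by
  have h1 : Red A π (c • (y * z)) (x * t) := by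
    rw [smul_eq_algebraMap_mul, ← mul_assoc, ← smul_eq_algebraMap_mul]
    exact hy.mul hz
  have hcA : c⁻¹ ∈ A := by
    obtain ⟨i, hi⟩ : ∃ i, (x * t).coeff i ≠ 0 := by
      by_contra hall
      push Not at hall
      exact mul_ne_zero hx ht (HahnSeries.ext (funext hall))
    have h2 := h1.coeff_valuation_eq_one hπ hi
    rw [coeff_smulC, map_mul, mul_comm] at h2
    rw [← ValuationSubring.valuation_le_one_iff, map_inv₀, ← eq_inv_of_mul_eq_one_left h2]
    exact (ValuationSubring.valuation_le_one_iff _ _).mpr (hyz.coeff_mem i)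
  have h3 := hy.smul (⟨c⁻¹, hcA⟩ : A)
  rw [show (((⟨c⁻¹, hcA⟩ : A) : K)) • (c • y) = y by
    rw [smul_smul]; exact (congrArg (· • y) (inv_mul_cancel₀ hc)).trans (one_smul K y)] at h3
  exact ⟨_, h3, (h3.mul hz).unique hyz⟩

/-! ### Bounded poles -/

/-- All coefficients in degree `< -n` vanish. -/
def PoleLE {R : Type*} [Zero R] (n : ℤ) (y : LaurentSeries R) : Prop :=
  ∀ i : ℤ, i < -n → y.coeff i = 0

theorem PoleLE.mono {R : Type*} [Zero R] {n m : ℤ} (h : n ≤ m) {y : LaurentSeries R}
    (hy : PoleLE n y) : PoleLE m y := fun i hi => hy i (lt_of_lt_of_le hi (by omega))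

theorem Red.poleLE {n : ℤ} {y : LaurentSeries K} {x : LaurentSeries k} (h : Red A π y x)
    (hy : PoleLE n y) : PoleLE n x := by
  intro i hi
  obtain ⟨hi', hπi⟩ := h i
  rw [← hπi]
  have : (⟨y.coeff i, hi'⟩ : A) = 0 := Subtype.ext (hy i hi)
  rw [this, map_zero]

theorem poleLE_neg_order {R : Type*} [Zero R] (y : LaurentSeries R) : PoleLE (-y.order) y := by
  intro i hi
  exact HahnSeries.coeff_eq_zero_of_lt_order (by omega)

theorem poleLE_iff_order {R : Type*} [Zero R] {n : ℤ} {y : LaurentSeries R} (hy : y ≠ 0) :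
    PoleLE n y ↔ -n ≤ y.order := by
  constructor
  · intro h
    by_contra hc
    exact hy (HahnSeries.coeff_order_eq_zero.mp (h _ (not_le.mp hc)))
  · intro h i hi
    exact HahnSeries.coeff_eq_zero_of_lt_order (lt_of_lt_of_le hi h)

/-- Series with bounded pole as a submodule. -/
def poleLESubmodule (R : Type*) [Field R] (n : ℤ) : Submodule R (LaurentSeries R) where
  carrier := {y | PoleLE n y}
  zero_mem' := fun i _ => rfl
  add_mem' := fun {a b} ha hb i hi => by
    rw [HahnSeries.coeff_add, ha i hi, hb i hi, add_zero]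
  smul_mem' := fun c y hy i hi => by
    rw [HahnSeries.coeff_smul, hy i hi, smul_zero]

@[simp]
theorem mem_poleLESubmodule {R : Type*} [Field R] {n : ℤ} {y : LaurentSeries R} :
    y ∈ poleLESubmodule R n ↔ PoleLE n y := Iff.rfl

theorem PoleLE.mul {R : Type*} [Field R] {n m : ℤ} {y z : LaurentSeries R} (hy : PoleLE n y)
    (hz : PoleLE m z) : PoleLE (n + m) (y * z) := by
  intro i hi
  rcases eq_or_ne y 0 with rfl | hy0
  · simp
  rcases eq_or_ne z 0 with rfl | hz0
  · simp
  apply HahnSeries.coeff_eq_zero_of_lt_order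
  rw [HahnSeries.order_mul hy0 hz0]
  have h1 := (poleLE_iff_order hy0).mp hy
  have h2 := (poleLE_iff_order hz0).mp hz
  omega

theorem PoleLE.pow {R : Type*} [Field R] {n : ℤ} {y : LaurentSeries R} (hy : PoleLE n y) (m : ℕ) :
    PoleLE (m * n) (y ^ m) := by
  induction m with
  | zero =>
    intro i hi
    rw [pow_zero, HahnSeries.coeff_one, if_neg]
    intro h0
    omega
  | succ m ih =>
    rw [pow_succ]
    exact (ih.mul hy).mono (by push_cast; linarith)

end Fermat.Agent.Reduction
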