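import Fermat.Agent.Reduction.Hauptmodul.Identities
import Fermat.Agent.Cosets.Psi

/-!
# Hauptmoduln of levels four and nine and their relation with `j`

`exists_levelThree`, `exists_levelFour` and `exists_levelNine` construct integral series
`t = q⁻¹ + …` in the function fields of levels 3, 4, 9 with explicit relations to `j`;
`exists_hauptmodul` packages levels 4 and 9 as `j = P(t)/Q(t)` for use in normal lifting.
-/

set_option autoImplicit false

noncomputable section

open ModularCurve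

namespace Fermat.Agent.Reduction.Hauptmodul

open Fermat.Agent.Igusa

local notation "J₁" => jqModC ℤ

/-- The coefficients below `n` vanish and the `n`-th is `c`. -/
def LeadsWith (c : ℤ) (n : ℤ) (s : LaurentSeries ℤ) : Prop := OrdGE n s ∧ s.coeff n = c

theorem LeadsWith.mul {a b n m : ℤ} {s t : LaurentSeries ℤ} (hs : LeadsWith a n s)
    (ht : LeadsWith b m t) : LeadsWith (a * b) (n + m) (s * t) := by
  refine ⟨hs.1.mul ht.1, ?_⟩
  rw [HahnSeries.coeff_mul, Finset.sum_eq_single (n, m)]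
  · show s.coeff n * t.coeff m = a * b
    rw [hs.2, ht.2]
  · intro x hx hne
    have h := (Finset.mem_antidiagonal.mp hx).2.2
    by_cases h1 : x.1 < n
    · rw [hs.1 _ h1, zero_mul]
    · rcases lt_or_ge x.2 m with h2 | h2
      · rw [ht.1 _ h2, mul_zero]
      · exact absurd (Prod.ext (by simp; omega) (by simp; omega)) hne
  · intro h
    simp only [Finset.mem_antidiagonal, HahnSeries.mem_support, and_true, not_and_or, not_ne_iff]
      at h
    rcases h with h | h
    · simp [h]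
    · simp [h]

theorem LeadsWith.add {a b n : ℤ} {s t : LaurentSeries ℤ} (hs : LeadsWith a n s)
    (ht : LeadsWith b n t) : LeadsWith (a + b) n (s + t) :=
  ⟨hs.1.add ht.1, by rw [HahnSeries.coeff_add, hs.2, ht.2]⟩

theorem LeadsWith.neg {a n : ℤ} {s : LaurentSeries ℤ} (hs : LeadsWith a n s) :
    LeadsWith (-a) n (-s) :=
  ⟨hs.1.neg, by rw [HahnSeries.coeff_neg, hs.2]⟩

theorem LeadsWith.add_higher {a n m : ℤ} {s t : LaurentSeries ℤ} (hs : LeadsWith a n s)
    (ht : OrdGE m t) (hm : n < m) : LeadsWith a n (s + t) :=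
  ⟨hs.1.add (ht.mono hm.le), by rw [HahnSeries.coeff_add, hs.2, ht n hm, add_zero]⟩

theorem LeadsWith.sub_higher {a n m : ℤ} {s t : LaurentSeries ℤ} (hs : LeadsWith a n s)
    (ht : OrdGE m t) (hm : n < m) : LeadsWith a n (s - t) := by
  rw [sub_eq_add_neg]
  exact hs.add_higher ht.neg hm

theorem LeadsWith.ne_zero {a n : ℤ} {s : LaurentSeries ℤ} (hs : LeadsWith a n s) (ha : a ≠ 0) :
    s ≠ 0 := fun h => ha (by rw [← hs.2, h, HahnSeries.coeff_zero])

theorem LeadsWith.qExpand {a n : ℤ} {s : LaurentSeries ℤ} (hs : LeadsWith a n s) (m : ℕ)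
    [NeZero m] :
    LeadsWith a (m * n) (ModularCurve.qExpand ℤ m s) :=
  ⟨hs.1.qExpand m, by rw [qExpand_coeff_mul]; exact hs.2⟩

theorem leadsWith_ofPS (n : ℕ) (f : PowerSeries ℤ) :
    LeadsWith (f.constantCoeff) (-(n : ℤ)) (qInv ^ n * ofPS f) := by
  refine ⟨by simpa using ordGE_qInv_pow (n := n) (k := 0) (F := f) (by simp), ?_⟩
  rw [qInv_pow, HahnSeries.coeff_single_mul, one_mul, sub_neg_eq_add, neg_add_cancel,
    show (0 : ℤ) = ((0 : ℕ) : ℤ) from rfl, HahnSeries.ofPowerSeries_apply_coeff,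
    PowerSeries.coeff_zero_eq_constantCoeff]

/-- A series with leading coefficient `1` has an inverse with leading coefficient `1`. -/
theorem LeadsWith.exists_inv {n : ℤ} {s : LaurentSeries ℤ} (hs : LeadsWith 1 n s) :
    ∃ t, s * t = 1 ∧ LeadsWith 1 (-n) t := by
  set f : PowerSeries ℤ := PowerSeries.mk fun k => s.coeff (n + k)
  have hf : s = HahnSeries.single n 1 * ofPS f := by
    ext k
    rw [HahnSeries.coeff_single_mul, one_mul]
    rcases lt_or_ge k n with hk | hk
    · rw [hs.1 k hk, ofPowerSeries_coeff_of_neg _ (by omega)]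
    · obtain ⟨l, rfl⟩ := Int.le.dest hk
      rw [add_sub_cancel_left, HahnSeries.ofPowerSeries_apply_coeff, PowerSeries.coeff_mk]
  have hf0 : f.constantCoeff = 1 := by
    rw [← PowerSeries.coeff_zero_eq_constantCoeff, PowerSeries.coeff_mk]
    simpa using hs.2
  have hinv : f * f.invOfUnit 1 = 1 := PowerSeries.mul_invOfUnit f 1 (by rw [hf0]; rfl)
  refine ⟨HahnSeries.single (-n) 1 * ofPS (f.invOfUnit 1), ?_, ?_, ?_⟩
  · rw [hf, mul_mul_mul_comm, HahnSeries.single_mul_single, ← map_mul, hinv, map_one]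
    simp
  · simpa using (ordGE_single (-n) (1 : ℤ)).mul (ordGE_ofPowerSeries (f.invOfUnit 1))
  · rw [HahnSeries.coeff_single_mul, one_mul, sub_self,
      show (0 : ℤ) = ((0 : ℕ) : ℤ) from rfl, HahnSeries.ofPowerSeries_apply_coeff,
      PowerSeries.coeff_zero_eq_constantCoeff, PowerSeries.constantCoeff_invOfUnit]
    rfl

theorem leadsWith_j : LeadsWith 1 (-1) J₁ := by
  have h := leadsWith_ofPS 1 jNum
  rwa [constantCoeff_jNum, pow_one, ← jqModC_int] at h

theorem leadsWith_wSer (m k : ℕ) [NeZero m] (hk : k + 1 = m) :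
    LeadsWith 1 (-(k : ℤ)) (wSer m ℤ) := by
  have h := leadsWith_ofPS k (wPS m)
  rwa [← wSer_int m k hk, show (wPS m).constantCoeff = 1 by
    rw [wPS, map_mul, constantCoeff_dedekindEtaUnit, PowerSeries.constantCoeff_expand,
      constantCoeff_dedekindEtaUnitInv, one_mul]] at h

/-- Coefficientwise map to `ℚ`. -/
abbrev toRat : LaurentSeries ℤ →+* LaurentSeries ℚ := coeffMap (Int.castRingHom ℚ)

theorem toRat_injective : Function.Injective toRat := fun s t h => by
  ext k
  have := congrArg (fun u : LaurentSeries ℚ => u.coeff k) h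
  simpa using this

/-- Series whose image lies in the function field of level `M`. -/
def fieldSeries (M : ℕ) : Subring (LaurentSeries ℤ) :=
  (modularFunctionFieldFull M).toSubfield.toSubring.comap toRat

theorem mem_fieldSeries {M : ℕ} {s : LaurentSeries ℤ} :
    s ∈ fieldSeries M ↔ toRat s ∈ modularFunctionFieldFull M := Iff.rfl

theorem natCast_mem_fieldSeries (M n : ℕ) : (n : LaurentSeries ℤ) ∈ fieldSeries M :=
  natCast_mem _ n

theorem ofNat_mem_fieldSeries (M n : ℕ) [n.AtLeastTwo] :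
    (OfNat.ofNat n : LaurentSeries ℤ) ∈ fieldSeries M := ofNat_mem _ n

theorem mem_fieldSeries_of_mul_eq {M : ℕ} {x a b : LaurentSeries ℤ} (h : x * a = b)
    (ha0 : a ≠ 0) (ha : a ∈ fieldSeries M) (hb : b ∈ fieldSeries M) : x ∈ fieldSeries M := by
  rw [mem_fieldSeries] at *
  have h1 : toRat x = toRat b / toRat a := by
    rw [eq_div_iff fun h0 => ha0 (toRat_injective (by rw [h0, map_zero])), ← map_mul, h]
  rw [h1]
  exact div_mem hb ha

theorem jqModC_mem_fieldSeries (M : ℕ) : J₁ ∈ fieldSeries M := by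
  rw [mem_fieldSeries, coeffMap_jqModC, jqModC_rat]
  have h := jqd_mem_full M (one_dvd M)
  rwa [qExpand_one_apply] at h

theorem qExpand_jqModC_mem_fieldSeries (M : ℕ) [NeZero M] :
    qExpand ℤ M J₁ ∈ fieldSeries M := by
  rw [mem_fieldSeries, coeffMap_qExpand, coeffMap_jqModC, jqModC_rat]
  exact jqd_mem_full M dvd_rfl

theorem fieldSeries_mono {N M : ℕ} [NeZero N] [NeZero M] (h : N ∣ M) :
    fieldSeries N ≤ fieldSeries M := fun _ hs => full_degeneracy_le h hs

theorem qExpand_mem_fieldSeries {N l : ℕ} [NeZero N] [NeZero l] {s : LaurentSeries ℤ}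
    (hs : s ∈ fieldSeries N) : qExpand ℤ l s ∈ fieldSeries (N * l) := by
  rw [mem_fieldSeries, coeffMap_qExpand]
  exact full_degeneracy_map_le N l ⟨_, hs, rfl⟩

theorem wSer_two_mem : wSer 2 ℤ ∈ fieldSeries 2 := by
  set x := wSer 2 ℤ
  set j2 := qExpand ℤ 2 J₁
  have hj := jqModC_mem_fieldSeries 2
  have hj2 : j2 ∈ fieldSeries 2 := qExpand_jqModC_mem_fieldSeries 2
  have hn : ∀ n : ℕ, (n : LaurentSeries ℤ) ∈ fieldSeries 2 := natCast_mem_fieldSeries 2
  set a := ((720 : ℕ) : LaurentSeries ℤ) - J₁ with ha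
  set b := ((195840 : ℕ) : LaurentSeries ℤ) + j2 with hb
  set c := ((16773120 : ℕ) : LaurentSeries ℤ) with hc
  set e := ((48 : ℕ) : LaurentSeries ℤ) * a - b with he
  set f := a * (((768 : ℕ) : LaurentSeries ℤ) - j2) - c with hf
  have hquad : a * x ^ 2 + b * x + c = 0 := by
    rw [ha, hb, hc]
    push_cast
    linear_combination jTwo_mul_wSer_two - j_mul_wSer_two_sq
  have hcub : x ^ 3 + 48 * x ^ 2 + (768 - j2) * x + 4096 = 0 := by
    linear_combination -jTwo_mul_wSer_two
  have hlin : x * (a * f - e * b) = -(((4096 : ℕ) : LaurentSeries ℤ) * a ^ 2 - e * c) := by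
    rw [hf, he]
    push_cast
    linear_combination a ^ 2 * hcub - (a * x + (48 * a - b)) * hquad
  have hN : LeadsWith 16777216 (-2)
      (((4096 : ℕ) : LaurentSeries ℤ) * a ^ 2 - e * c) := by
    have hj2L : LeadsWith 1 (-2) j2 := by simpa using leadsWith_j.qExpand 2
    have hjj : LeadsWith 1 (-2) (J₁ * J₁) := by simpa using leadsWith_j.mul leadsWith_j
    have hnum : ∀ n : ℕ, LeadsWith n 0 (n : LaurentSeries ℤ) := fun n =>
      ⟨ordGE_natCast n, by rw [← map_natCast (HahnSeries.C : ℤ →+* LaurentSeries ℤ),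
          HahnSeries.C_apply, HahnSeries.coeff_single_same]⟩
    have h1 : LeadsWith 16777216 (-2)
        ((16773120 : ℕ) * j2 + (4096 : ℕ) * (J₁ * J₁)) := by
      simpa using ((hnum 16773120).mul hj2L).add ((hnum 4096).mul hjj)
    have hjo := leadsWith_j.1
    have h2 : OrdGE (-1) (((4096 * 720 * 720 + 195840 * 16773120 : ℕ) : LaurentSeries ℤ) -
        ((4096 * 1440 : ℕ) : LaurentSeries ℤ) * J₁ -
        ((48 * 16773120 * 720 : ℕ) : LaurentSeries ℤ) +
        ((48 * 16773120 : ℕ) : LaurentSeries ℤ) * J₁) := by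
      have h3 : ∀ n : ℕ, OrdGE (-1) ((n : LaurentSeries ℤ) * J₁) := fun n => by
        simpa using (ordGE_natCast (R := ℤ) n).mul hjo
      have h4 : ∀ n : ℕ, OrdGE (-1) (n : LaurentSeries ℤ) := fun n =>
        (ordGE_natCast n).mono (by norm_num)
      exact (((h4 _).sub (h3 _)).sub (h4 _)).add (h3 _)
    convert h1.add_higher h2 (by norm_num) using 1
    rw [he, ha, hb, hc]
    push_cast
    ring
  refine mem_fieldSeries_of_mul_eq hlin (fun h0 => hN.ne_zero (by norm_num) ?_) ?_ ?_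
  · rw [h0, mul_zero] at hlin
    exact neg_eq_zero.mp hlin.symm
  · exact sub_mem (mul_mem (sub_mem (hn _) hj) (sub_mem (mul_mem (sub_mem (hn _) hj)
      (sub_mem (hn _) hj2)) (hn _))) (mul_mem (sub_mem (mul_mem (hn _) (sub_mem (hn _) hj))
      (add_mem (hn _) hj2)) (add_mem (hn _) hj2))
  · exact neg_mem (sub_mem (mul_mem (hn _) (pow_mem (sub_mem (hn _) hj) 2))
      (mul_mem (sub_mem (mul_mem (hn _) (sub_mem (hn _) hj)) (add_mem (hn _) hj2)) (hn _)))

/-- The square root `s` of `Δ(τ)/Δ(3τ)` and its two relations. -/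
theorem exists_levelThree : ∃ s : LaurentSeries ℤ, LeadsWith 1 (-1) s ∧
    (s + 27) * (s + 243) ^ 3 = J₁ * s ^ 3 ∧
    (s + 27) * (s + 3) ^ 3 = qExpand ℤ 3 J₁ * s ∧ s ∈ fieldSeries 3 := by
  set w := wSer 3 ℤ
  set j3 := qExpand ℤ 3 J₁
  set E := w ^ 2 + 196830 * w + 387420489 with hE
  set d := J₁ * w - 756 * w - 19131876 with hd
  have hw : LeadsWith 1 (-2) w := by simpa using leadsWith_wSer 3 2 rfl
  have hjw : LeadsWith 1 (-3) (J₁ * w) := by simpa using leadsWith_j.mul hw
  have hww : LeadsWith 1 (-4) (w ^ 2) := by simpa [sq] using hw.mul hw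
  have hEL : LeadsWith 1 (-4) E :=
    (hww.add_higher ((ordGE_ofNat 196830).mul hw.1) (by norm_num)).add_higher
      (ordGE_ofNat 387420489) (by norm_num)
  have hdL : LeadsWith 1 (-3) d :=
    (hjw.sub_higher ((ordGE_ofNat 756).mul hw.1) (by norm_num)).sub_higher
      (ordGE_ofNat 19131876) (by norm_num)
  obtain ⟨di, hdi, hdiL⟩ := hdL.exists_inv
  have hd0 : d ≠ 0 := hdL.ne_zero one_ne_zero
  set s := E * di
  have hsd : s * d = E := by rw [mul_assoc, mul_comm di, hdi, mul_one]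
  have hs : LeadsWith 1 (-1) s := by simpa using hEL.mul hdiL
  have hsq : s ^ 2 = w := by
    refine mul_right_cancel₀ (pow_ne_zero 2 hd0) ?_
    linear_combination (s * d + E) * hsd + three_identity
  have h1 : (s + 27) * (s + 243) ^ 3 = J₁ * s ^ 3 := by
    rw [hd] at hsd
    rw [hE] at hsd
    linear_combination -hsd + (s ^ 2 + w + 756 * s + 196830 - J₁ * s) * hsq
  have h2 : (s + 27) * (s + 3) ^ 3 = j3 * s := by
    have h3 : w ^ 2 + 270 * w + 729 = s * (j3 - 36 * w - 756) := by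
      refine mul_right_cancel₀ hd0 ?_
      linear_combination three_identity' - (j3 - 36 * w - 756) * hsd
    linear_combination h3 + (s ^ 2 + w + 36 * s + 270) * hsq
  refine ⟨s, hs, h1, h2, ?_⟩
  -- `w` is rational in `j` and `j(3τ)`, then so is `s`
  have hj := jqModC_mem_fieldSeries 3
  have hj3 : j3 ∈ fieldSeries 3 := qExpand_jqModC_mem_fieldSeries 3
  have hn : ∀ n : ℕ, (n : LaurentSeries ℤ) ∈ fieldSeries 3 := natCast_mem_fieldSeries 3
  have hnum : ∀ n : ℕ, LeadsWith n 0 (n : LaurentSeries ℤ) := fun n =>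
    ⟨ordGE_natCast n, by rw [← map_natCast (HahnSeries.C : ℤ →+* LaurentSeries ℤ),
        HahnSeries.C_apply, HahnSeries.coeff_single_same]⟩
  set a := ((720 : ℕ) : LaurentSeries ℤ) - J₁ with ha
  set b := ((196560 : ℕ) : LaurentSeries ℤ) with hb
  set c := ((19131120 : ℕ) : LaurentSeries ℤ) + j3 with hc
  set e := ((387419760 : ℕ) : LaurentSeries ℤ) with he
  set m := ((36 : ℕ) : LaurentSeries ℤ) * a - b with hm
  set A := a * (((270 : ℕ) : LaurentSeries ℤ) * a - c) - m * b with hA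
  set B := a * (a * (((756 : ℕ) : LaurentSeries ℤ) - j3) - e) - m * c with hB
  set C := ((729 : ℕ) : LaurentSeries ℤ) * a ^ 2 - m * e with hC
  have hcube : a * s ^ 3 + b * s ^ 2 + c * s + e = 0 := by
    rw [ha, hb, hc, he]
    push_cast
    linear_combination h1 - h2
  have hquad : A * s ^ 2 + B * s + C = 0 := by
    rw [hA, hB, hC, hm]
    push_cast
    linear_combination a ^ 2 * h2 - (a * s + (36 * a - b)) * hcube
  have hlin : s * (A * (c * A - a * C) - (b * A - a * B) * B) =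
      -(e * A ^ 2 - (b * A - a * B) * C) := by
    linear_combination A ^ 2 * hcube - (A * a * s + (b * A - a * B)) * hquad
  have hj3L : LeadsWith 1 (-3) j3 := by simpa using leadsWith_j.qExpand 3
  have haL : LeadsWith (-1) (-1) a := by
    rw [ha, sub_eq_add_neg, add_comm]
    exact leadsWith_j.neg.add_higher (ordGE_natCast 720) (by norm_num)
  have hcL : LeadsWith 1 (-3) c := by
    rw [hc, add_comm]
    exact hj3L.add_higher (ordGE_natCast _) (by norm_num)
  have hm1 : OrdGE (-1) m := (((ordGE_natCast 36).mul haL.1).mono (by norm_num)).sub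
    ((ordGE_natCast _).mono (by norm_num))
  have hAL : LeadsWith 1 (-4) A := by
    have h : LeadsWith (-1) (-3) (((270 : ℕ) : LaurentSeries ℤ) * a - c) := by
      rw [sub_eq_add_neg, add_comm]
      exact hcL.neg.add_higher ((ordGE_natCast 270).mul haL.1) (by norm_num)
    have h' : LeadsWith 1 (-4) (a * (((270 : ℕ) : LaurentSeries ℤ) * a - c)) := by
      simpa using haL.mul h
    exact h'.sub_higher (hm1.mul (ordGE_natCast _)) (by norm_num)
  have hBL : LeadsWith (-1) (-5) B := by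
    have h : LeadsWith (-1) (-3) (((756 : ℕ) : LaurentSeries ℤ) - j3) := by
      rw [sub_eq_add_neg, add_comm]
      exact hj3L.neg.add_higher (ordGE_natCast _) (by norm_num)
    have h' : LeadsWith 1 (-4) (a * (((756 : ℕ) : LaurentSeries ℤ) - j3) - e) := by
      have := (haL.mul h).sub_higher (ordGE_natCast (R := ℤ) 387419760) (by norm_num)
      rw [← he] at this
      simpa only [neg_mul_neg, one_mul, show (-1 : ℤ) + -3 = -4 by norm_num] using this
    have h'' : LeadsWith (-1) (-5) (a * (a * (((756 : ℕ) : LaurentSeries ℤ) - j3) - e)) := by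
      simpa using haL.mul h'
    exact h''.sub_higher (hm1.mul hcL.1) (by norm_num)
  have hCL : LeadsWith 729 (-2) C := by
    have h : LeadsWith 729 (-2) (((729 : ℕ) : LaurentSeries ℤ) * a ^ 2) := by
      simpa [sq] using (hnum 729).mul (haL.mul haL)
    exact h.sub_higher (hm1.mul (ordGE_natCast _)) (by norm_num)
  have hNL : LeadsWith 387420489 (-8) (e * A ^ 2 - (b * A - a * B) * C) := by
    have h : LeadsWith (-1) (-6) (b * A - a * B) := by
      rw [sub_eq_add_neg, add_comm]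
      have := (haL.mul hBL).neg.add_higher ((ordGE_natCast (R := ℤ) 196560).mul hAL.1) (by norm_num)
      rw [← hb] at this
      simpa only [neg_mul_neg, one_mul, show (-1 : ℤ) + -5 = -6 by norm_num] using this
    rw [sub_eq_add_neg, sq]
    have h' := ((hnum 387419760).mul (hAL.mul hAL)).add (h.mul hCL).neg
    rw [← he] at h'
    norm_num at h'
    exact h'
  have ha_mem : a ∈ fieldSeries 3 := sub_mem (hn _) hj
  have hc_mem : c ∈ fieldSeries 3 := add_mem (hn _) hj3
  have hm_mem : m ∈ fieldSeries 3 := sub_mem (mul_mem (hn _) ha_mem) (hn _)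
  have hA_mem : A ∈ fieldSeries 3 :=
    sub_mem (mul_mem ha_mem (sub_mem (mul_mem (hn _) ha_mem) hc_mem)) (mul_mem hm_mem (hn _))
  have hB_mem : B ∈ fieldSeries 3 :=
    sub_mem (mul_mem ha_mem (sub_mem (mul_mem ha_mem (sub_mem (hn _) hj3)) (hn _)))
      (mul_mem hm_mem hc_mem)
  have hC_mem : C ∈ fieldSeries 3 :=
    sub_mem (mul_mem (hn _) (pow_mem ha_mem 2)) (mul_mem hm_mem (hn _))
  have hK_mem : b * A - a * B ∈ fieldSeries 3 :=
    sub_mem (mul_mem (hn _) hA_mem) (mul_mem ha_mem hB_mem)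
  refine mem_fieldSeries_of_mul_eq hlin (fun h0 => hNL.ne_zero (by norm_num) ?_) ?_ ?_
  · rw [h0, mul_zero] at hlin
    exact neg_eq_zero.mp hlin.symm
  · exact sub_mem (mul_mem hA_mem (sub_mem (mul_mem hc_mem hA_mem) (mul_mem ha_mem hC_mem)))
      (mul_mem hK_mem hB_mem)
  · exact neg_mem (sub_mem (mul_mem (hn _) (pow_mem hA_mem 2)) (mul_mem hK_mem hC_mem))

/-- The Hauptmodul of level four. -/
theorem exists_levelFour : ∃ t : LaurentSeries ℤ, LeadsWith 1 (-1) t ∧
    t ∈ fieldSeries 4 ∧ J₁ * (t ^ 4 * (t + 16)) = (t ^ 2 + 256 * t + 4096) ^ 3 := by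
  set x := wSer 2 ℤ
  set v := qExpand ℤ 2 x
  have hx : LeadsWith 1 (-1) x := by simpa using leadsWith_wSer 2 1 rfl
  have hv : LeadsWith 1 (-2) v := by simpa using hx.qExpand 2
  have hrel : x ^ 2 * v + 48 * x * v + 4096 * x - v ^ 2 = 0 := by
    have h2 := congrArg (qExpand ℤ 2) j_mul_wSer_two_sq
    simp only [map_mul, map_pow, map_add, map_ofNat] at h2
    have h3 : (x * v - 4096) * (x ^ 2 * v + 48 * x * v + 4096 * x - v ^ 2) = 0 := by
      linear_combination x * h2 - v ^ 2 * jTwo_mul_wSer_two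
    have hxv : LeadsWith 1 (-3) (x * v - 4096) := by
      simpa using (hx.mul hv).sub_higher (ordGE_ofNat (R := ℤ) 4096) (by norm_num)
    exact (mul_eq_zero.mp h3).resolve_left (hxv.ne_zero one_ne_zero)
  have hden : LeadsWith 1 (-2) (v + 256) := hv.add_higher (ordGE_ofNat 256) (by norm_num)
  have hnum : LeadsWith 1 (-3) (v * (x + 16)) := by
    simpa using hv.mul (hx.add_higher (ordGE_ofNat (R := ℤ) 16) (by norm_num))
  obtain ⟨i, hi, hiL⟩ := hden.exists_inv
  set t := v * (x + 16) * i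
  have ht : t * (v + 256) = v * (x + 16) := by
    rw [mul_assoc, mul_comm i, hi, mul_one]
  have htL : LeadsWith 1 (-1) t := by simpa using hnum.mul hiL
  have h0 : (v + 256) ^ 2 ≠ 0 := pow_ne_zero 2 (hden.ne_zero one_ne_zero)
  have hxt : x * (t + 16) = t ^ 2 := by
    refine mul_right_cancel₀ h0 ?_
    linear_combination (x * (v + 256) - t * (v + 256) - v * (x + 16)) * ht + 256 * hrel
  refine ⟨t, htL, ?_, ?_⟩
  · have hx4 : x ∈ fieldSeries 4 := fieldSeries_mono (by norm_num) wSer_two_mem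
    have hv4 : v ∈ fieldSeries (2 * 2) := qExpand_mem_fieldSeries (N := 2) (l := 2) wSer_two_mem
    rw [show (2 * 2 : ℕ) = 4 by norm_num] at hv4
    exact mem_fieldSeries_of_mul_eq ht (hden.ne_zero one_ne_zero)
      (add_mem hv4 (ofNat_mem_fieldSeries 4 256))
      (mul_mem hv4 (add_mem hx4 (ofNat_mem_fieldSeries 4 16)))
  · have h16 : LeadsWith 1 (-1) (t + 16) := htL.add_higher (ordGE_ofNat 16) (by norm_num)
    have hx256 : (x + 256) * (t + 16) = t ^ 2 + 256 * t + 4096 := by linear_combination hxt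
    rw [← hx256, show t ^ 4 = (t ^ 2) ^ 2 by ring, ← hxt]
    linear_combination (t + 16) ^ 3 * j_mul_wSer_two_sq

/-- The polynomial identity behind the cubic relation between the Hauptmoduln of levels three and
nine, over an arbitrary ring. -/
private theorem levelNine_cube {R : Type*} [CommRing R] {s r num den t : R}
    (hnum : num = r * (s ^ 2 + 18 * s + 27) + 1458 * s) (hden : den = r * (s + 9) - 243 * s + 729)
    (ht : t * den = num)
    (hR : s * (s ^ 2 + 36 * s + 270) * r ^ 2 + 729 * s * (s + 36) * r + 531441 * s - r ^ 3 = 0) :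
    t ^ 3 * den ^ 3 = s * (t ^ 2 + 9 * t + 27) * den ^ 3 := by
  subst hnum hden
  linear_combination ((t * (r * (s + 9) - 243 * s + 729)) ^ 2
      + t * (r * (s + 9) - 243 * s + 729) * (r * (s ^ 2 + 18 * s + 27) + 1458 * s)
      + (r * (s ^ 2 + 18 * s + 27) + 1458 * s) ^ 2
      - s * (r * (s + 9) - 243 * s + 729) *
        (t * (r * (s + 9) - 243 * s + 729) + (r * (s ^ 2 + 18 * s + 27) + 1458 * s))
      - 9 * s * (r * (s + 9) - 243 * s + 729) ^ 2) * ht
    + (243 * s ^ 3 + 5103 * s ^ 2 + 6561 * s - 19683) * hR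

/-- The relation of the Hauptmodul of level nine with `j`, from the cubic relation to level
three. -/
private theorem levelNine_rel {R : Type*} [CommRing R] {J s t : R}
    (hJ : (s + 27) * (s + 243) ^ 3 = J * s ^ 3) (hcube : t ^ 3 = s * (t ^ 2 + 9 * t + 27)) :
    J * (t ^ 9 * (t ^ 2 + 9 * t + 27)) =
      ((t + 9) * (t ^ 3 + 243 * t ^ 2 + 2187 * t + 6561)) ^ 3 := by
  set N₂ := t ^ 2 + 9 * t + 27
  have ha : (s + 27) * N₂ = (t + 9) ^ 3 := by linear_combination -hcube
  have hb : (s + 243) * N₂ = t ^ 3 + 243 * t ^ 2 + 2187 * t + 6561 := by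
    linear_combination -hcube
  rw [mul_pow (t + 9), ← ha, ← hb, show t ^ 9 = (t ^ 3) ^ 3 by ring, hcube]
  linear_combination -N₂ ^ 4 * hJ

/-- The Hauptmodul of level nine. -/
theorem exists_levelNine : ∃ t : LaurentSeries ℤ, LeadsWith 1 (-1) t ∧
    t ∈ fieldSeries 9 ∧ J₁ * (t ^ 9 * (t ^ 2 + 9 * t + 27)) =
      ((t + 9) * (t ^ 3 + 243 * t ^ 2 + 2187 * t + 6561)) ^ 3 := by
  obtain ⟨s, hs, hJ, hJ3, hsF⟩ := exists_levelThree
  set r := qExpand ℤ 3 s
  have hr : LeadsWith 1 (-3) r := by simpa using hs.qExpand 3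
  have hR : s * (s ^ 2 + 36 * s + 270) * r ^ 2 + 729 * s * (s + 36) * r + 531441 * s -
      r ^ 3 = 0 := by
    have h2 := congrArg (qExpand ℤ 3) hJ
    simp only [map_mul, map_pow, map_add, map_ofNat] at h2
    have h3 : (s * r - 729) *
        (s * (s ^ 2 + 36 * s + 270) * r ^ 2 + 729 * s * (s + 36) * r + 531441 * s - r ^ 3) = 0 := by
      linear_combination r ^ 3 * hJ3 - s * h2
    have hsr : LeadsWith 1 (-4) (s * r - 729) := by
      simpa using (hs.mul hr).sub_higher (ordGE_ofNat (R := ℤ) 729) (by norm_num)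
    exact (mul_eq_zero.mp h3).resolve_left (hsr.ne_zero one_ne_zero)
  set num := r * (s ^ 2 + 18 * s + 27) + 1458 * s
  set den := r * (s + 9) - 243 * s + 729
  have hss : LeadsWith 1 (-2) (s ^ 2) := by simpa [sq] using hs.mul hs
  have hnum : LeadsWith 1 (-5) num := by
    have h := hr.mul ((hss.add_higher ((ordGE_ofNat (R := ℤ) 18).mul hs.1) (by norm_num)).add_higher
      (ordGE_ofNat 27) (by norm_num))
    have h' := h.add_higher ((ordGE_ofNat (R := ℤ) 1458).mul hs.1) (by norm_num)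
    simpa [num] using h'
  have hden : LeadsWith 1 (-4) den := by
    have h := (hr.mul (hs.add_higher (ordGE_ofNat (R := ℤ) 9) (by norm_num))).sub_higher
      ((ordGE_ofNat (R := ℤ) 243).mul hs.1) (by norm_num)
    have h' := h.add_higher (ordGE_ofNat (R := ℤ) 729) (by norm_num)
    simpa [den] using h'
  obtain ⟨i, hi, hiL⟩ := hden.exists_inv
  set t := num * i
  have ht : t * den = num := by rw [mul_assoc, mul_comm i, hi, mul_one]
  have htL : LeadsWith 1 (-1) t := by simpa using hnum.mul hiL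
  have h0 : den ^ 3 ≠ 0 := pow_ne_zero 3 (hden.ne_zero one_ne_zero)
  have hcube : t ^ 3 = s * (t ^ 2 + 9 * t + 27) :=
    mul_right_cancel₀ h0 (levelNine_cube rfl rfl ht hR)
  refine ⟨t, htL, ?_, ?_⟩
  · have hs9 : s ∈ fieldSeries 9 := fieldSeries_mono (by norm_num) hsF
    have hr9 : r ∈ fieldSeries (3 * 3) := qExpand_mem_fieldSeries (N := 3) (l := 3) hsF
    rw [show (3 * 3 : ℕ) = 9 by norm_num] at hr9
    have hn : ∀ (n : ℕ) [n.AtLeastTwo], (OfNat.ofNat n : LaurentSeries ℤ) ∈ fieldSeries 9 :=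
      fun n _ => ofNat_mem_fieldSeries 9 n
    exact mem_fieldSeries_of_mul_eq ht (hden.ne_zero one_ne_zero)
      (add_mem (sub_mem (mul_mem hr9 (add_mem hs9 (hn 9))) (mul_mem (hn 243) hs9)) (hn 729))
      (add_mem (mul_mem hr9 (add_mem (add_mem (pow_mem hs9 2) (mul_mem (hn 18) hs9)) (hn 27)))
        (mul_mem (hn 1458) hs9))
  · exact levelNine_rel hJ hcube

theorem eq_of_prime_dvd_pow {q l e : ℕ} (hq : q.Prime) (hl : l.Prime)
    (h : (q : ℤ) ∣ ((l ^ e : ℕ) : ℤ)) : q = l :=
  (Nat.prime_dvd_prime_iff_eq hq hl).mp (hq.dvd_of_dvd_pow (Int.natCast_dvd_natCast.mp h))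

open Polynomial in
/-- Hauptmoduln at levels four and nine: `t = q⁻¹ + …` integral, in the function field, and
`j = P(t)/Q(t)` with `P` a cube, `P - 1728 Q` a square and `P, Q` coprime away from the level. -/
theorem exists_hauptmodul (M : ℕ) [NeZero M] (hM : M = 4 ∨ M = 9) :
    ∃ (t : LaurentSeries ℤ) (P Q A B a b : ℤ[X]) (c : ℤ),
      t.coeff (-1) = 1 ∧ (∀ k < -1, t.coeff k = 0) ∧
        coeffMap (Int.castRingHom ℚ) t ∈ modularFunctionFieldFull M ∧
        P.Monic ∧ Q.Monic ∧ P.natDegree = dedekindPsi M ∧ Q.natDegree < P.natDegree ∧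
        P = A ^ 3 ∧ P - C 1728 * Q = B ^ 2 ∧ a * P + b * Q = C c ∧ c ≠ 0 ∧
        (∀ p : ℕ, p.Prime → (p : ℤ) ∣ c → p ∣ M) ∧
        jqModC ℤ * aeval t Q = aeval t P := by
  rcases hM with rfl | rfl
  · obtain ⟨t, ⟨ht1, ht2⟩, htF, hrel⟩ := exists_levelFour
    have hA : (X ^ 2 + 256 * X + 4096 : ℤ[X]).natDegree = 2 := by compute_degree!
    have hQ : (X ^ 4 * (X + 16) : ℤ[X]).natDegree = 5 := by compute_degree!
    refine ⟨t, (X ^ 2 + 256 * X + 4096) ^ 3, X ^ 4 * (X + 16), X ^ 2 + 256 * X + 4096,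
      X ^ 3 - 480 * X ^ 2 - 24576 * X - 262144,
      65231 * X ^ 4 - 2368 * X ^ 3 + 23808 * X ^ 2 - 196608 * X + 1048576,
      -65231 * X ^ 5 - 49051344 * X ^ 4 - 12839878656 * X ^ 3 - 1298877906944 * X ^ 2
        - 34982273744896 * X - 279261457940480,
      ((2 ^ 56 : ℕ) : ℤ), ht2, ht1, htF, ?_, ?_, ?_, ?_, rfl, ?_, ?_, ?_, ?_, ?_⟩
    · exact (by monicity! : (X ^ 2 + 256 * X + 4096 : ℤ[X]).Monic).pow 3
    · exact (monic_X_pow 4).mul (by monicity!)
    · rw [natDegree_pow, hA, show (4 : ℕ) = 2 ^ (1 + 1) from rfl,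
        Cosets.dedekindPsi_prime_pow Nat.prime_two]
      rfl
    · rw [natDegree_pow, hA, hQ]; norm_num
    · rw [map_ofNat]; ring
    · rw [show ((2 ^ 56 : ℕ) : ℤ) = 72057594037927936 by norm_num, map_ofNat]; ring
    · norm_num
    · intro q hq h
      rw [eq_of_prime_dvd_pow hq Nat.prime_two h]
      norm_num
    · simp only [map_mul, map_pow, map_add, aeval_X, map_ofNat]
      exact hrel
  · obtain ⟨t, ⟨ht1, ht2⟩, htF, hrel⟩ := exists_levelNine
    have hA : ((X + 9) * (X ^ 3 + 243 * X ^ 2 + 2187 * X + 6561) : ℤ[X]).natDegree = 4 := by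
      compute_degree!
    have hQ : (X ^ 9 * (X ^ 2 + 9 * X + 27) : ℤ[X]).natDegree = 11 := by compute_degree!
    refine ⟨t, ((X + 9) * (X ^ 3 + 243 * X ^ 2 + 2187 * X + 6561)) ^ 3,
      X ^ 9 * (X ^ 2 + 9 * X + 27), (X + 9) * (X ^ 3 + 243 * X ^ 2 + 2187 * X + 6561),
      X ^ 6 - 486 * X ^ 5 - 24057 * X ^ 4 - 367416 * X ^ 3 - 2657205 * X ^ 2 - 9565938 * X
        - 14348907,
      776867365 * X ^ 10 + 3497366448 * X ^ 9 + 11028474 * X ^ 8 - 51939792 * X ^ 7
        + 207998280 * X ^ 6 - 717091056 * X ^ 5 + 2112477975 * X ^ 4 - 5184738396 * X ^ 3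
        + 10072932714 * X ^ 2 - 13947137604 * X + 10460353203,
      -776867365 * X ^ 11 - 583817288103 * X ^ 10 - 155565298055790 * X ^ 9
        - 16927522230011913 * X ^ 8 - 645744178017598356 * X ^ 7
        - 12710964720641046201 * X ^ 6 - 150362834789477630700 * X ^ 5
        - 1140698877219771745977 * X ^ 4 - 5645928442640677568766 * X ^ 3
        - 17781915839763440387907 * X ^ 2 - 32606377371248789460195 * X
        - 26683920638225814361896,
      ((3 ^ 51 : ℕ) : ℤ), ht2, ht1, htF, ?_, ?_, ?_, ?_, rfl, ?_, ?_, ?_, ?_, ?_⟩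
    · exact ((monic_X_add_C (9 : ℤ)).mul
        (by monicity! : (X ^ 3 + 243 * X ^ 2 + 2187 * X + 6561 : ℤ[X]).Monic)).pow 3
    · exact (monic_X_pow 9).mul (by monicity!)
    · rw [natDegree_pow, hA, show (9 : ℕ) = 3 ^ (1 + 1) from rfl,
        Cosets.dedekindPsi_prime_pow Nat.prime_three]
      rfl
    · rw [natDegree_pow, hA, hQ]; norm_num
    · rw [map_ofNat]; ring
    · rw [show ((3 ^ 51 : ℕ) : ℤ) = 2153693963075557766310747 by norm_num, map_ofNat]; ring
    · norm_num
    · intro q hq h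
      rw [eq_of_prime_dvd_pow hq Nat.prime_three h]
      norm_num
    · simp only [map_mul, map_pow, map_add, aeval_X, map_ofNat]
      exact hrel

end Fermat.Agent.Reduction.Hauptmodul
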