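import Fermat.Agent.Reduction.Series
import Fermat.Prelude.Def_ModularCurve_X0

/-!
# Roots and coefficient estimates for integral series

`BoundedBy A y r` bounds the valuations of all coefficients of `y` by `r`. For `m` prime to the
residue characteristic, `exists_pow_eq_of_red` lifts an `m`-th root of the reduction of an
integral series to an `m`-th root of the series.
-/

set_option autoImplicit false

noncomputable section

namespace Fermat.Agent.Reduction

open HahnSeries

variable {K k : Type*} [Field K] [Field k] {A : ValuationSubring K} {π : A →+* k}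

/-- All coefficients of `y` have valuation at most `r`. -/
def BoundedBy (A : ValuationSubring K) (y : LaurentSeries K) (r : A.ValueGroup) : Prop :=
  ∀ i, A.valuation (y.coeff i) ≤ r

theorem BoundedBy.mono {y : LaurentSeries K} {r s : A.ValueGroup} (h : BoundedBy A y r)
    (hrs : r ≤ s) : BoundedBy A y s := fun i => (h i).trans hrs

theorem BoundedBy.mul {y z : LaurentSeries K} {r s : A.ValueGroup} (hy : BoundedBy A y r)
    (hz : BoundedBy A z s) : BoundedBy A (y * z) (r * s) := by
  intro i
  rw [HahnSeries.coeff_mul]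
  refine A.valuation.map_sum_le fun p _ => ?_
  rw [map_mul]
  exact mul_le_mul' (hy _) (hz _)

theorem Red.boundedBy {y : LaurentSeries K} {x : LaurentSeries k} (h : Red A π y x) :
    BoundedBy A y 1 := fun i => (ValuationSubring.valuation_le_one_iff _ _).mpr (h.coeff_mem i)

/-- If `δ` is integral, `S` reduces to a nonzero constant and `δ * S` is bounded by `r`, then so
is `δ`. -/
theorem boundedBy_of_mul (hπ : Function.Surjective π)
    (arch : ∀ a : A, π a = 0 → ∀ b : K, b ≠ 0 →
      ∃ n : ℕ, A.valuation (a : K) ^ n ≤ A.valuation b)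
    {δ S : LaurentSeries K} {c : k} (hδ : BoundedBy A δ 1)
    (hS : Red A π S (HahnSeries.single 0 c)) (hc : c ≠ 0) {r : A.ValueGroup}
    (h : BoundedBy A (δ * S) r) : BoundedBy A δ r := by
  classical
  have hS0 : A.valuation (S.coeff 0) = 1 :=
    hS.coeff_valuation_eq_one hπ (by rw [HahnSeries.coeff_single_same]; exact hc)
  have hSlt : ∀ i ≠ 0, A.valuation (S.coeff i) < 1 := fun i hi => by
    obtain ⟨hm, hv⟩ := hS i
    rw [HahnSeries.coeff_single_of_ne hi] at hv
    exact (residue_eq_zero_iff hπ ⟨S.coeff i, hm⟩).mp hv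
  rcases eq_or_ne r 0 with rfl | hr0
  · have hz : δ * S = 0 :=
      HahnSeries.ext (funext fun i => (map_eq_zero A.valuation).mp (le_antisymm (h i) zero_le))
    have hSne : S ≠ 0 := fun h0 => by simp [h0] at hS0
    rcases mul_eq_zero.mp hz with hd | hd
    · intro i; simp [hd]
    · exact absurd hd hSne
  -- the negative coefficients of `S` are uniformly small
  obtain ⟨a, ha0, ha⟩ : ∃ a : A, π a = 0 ∧ ∀ i < 0, A.valuation (S.coeff i) ≤ A.valuation a := by
    set s : Finset ℤ := Finset.Ico S.order 0 with hs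
    rcases s.eq_empty_or_nonempty with he | hne
    · refine ⟨0, map_zero π, fun i hi => ?_⟩
      have : i < S.order := by
        by_contra hcon
        have : i ∈ s := by rw [hs, Finset.mem_Ico]; omega
        simp [he] at this
      simp [HahnSeries.coeff_eq_zero_of_lt_order this]
    · obtain ⟨l, hl, hmax⟩ := s.exists_max_image (fun i => A.valuation (S.coeff i)) hne
      have hl0 : l ≠ 0 := by rw [hs, Finset.mem_Ico] at hl; omega
      refine ⟨⟨S.coeff l, hS.coeff_mem l⟩,
        (residue_eq_zero_iff hπ _).mpr (hSlt l hl0), fun i hi => ?_⟩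
      rcases lt_or_ge i S.order with hlt | hge
      · simp [HahnSeries.coeff_eq_zero_of_lt_order hlt]
      · exact hmax i (Finset.mem_Ico.mpr ⟨hge, hi⟩)
  set σ : A.ValueGroup := A.valuation (a : K) with hσdef
  -- one step of propagation
  have step : ∀ ρ : A.ValueGroup, r ≤ ρ → (∃ i, ρ < A.valuation (δ.coeff i)) →
      ∃ j, ρ < A.valuation (δ.coeff j) * σ := by
    intro ρ hρ hex
    obtain ⟨i, hi, hmin⟩ : ∃ i, ρ < A.valuation (δ.coeff i) ∧
        ∀ l < i, A.valuation (δ.coeff l) ≤ ρ := by
      have hbd : ∃ b : ℤ, ∀ l, ρ < A.valuation (δ.coeff l) → b ≤ l := ⟨δ.order, fun l hl => by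
        refine HahnSeries.order_le_of_coeff_ne_zero fun h0 => ?_
        rw [h0, map_zero] at hl
        exact not_lt_bot hl⟩
      obtain ⟨i, hi, hmin⟩ := Int.exists_least_of_bdd hbd hex
      exact ⟨i, hi, fun l hl => not_lt.mp fun hlt => absurd (hmin l hlt) (by omega)⟩
    by_contra hall
    push Not at hall
    have hcoef := h i
    rw [HahnSeries.coeff_mul] at hcoef
    set T := Finset.antidiagonal δ.isPWO_support S.isPWO_support i with hT
    have hrest : ∀ p ∈ T.erase (i, 0),
        A.valuation (δ.coeff p.1 * S.coeff p.2) ≤ ρ := by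
      intro p hp
      rw [Finset.mem_erase, Finset.mem_antidiagonal] at hp
      obtain ⟨hne, -, -, hsum⟩ := hp
      have hp2 : p.2 ≠ 0 := fun h0 => hne (Prod.ext (by simp only; omega) h0)
      rw [map_mul]
      rcases lt_or_gt_of_ne hp2 with h2 | h2
      · exact (mul_le_mul' le_rfl (ha _ h2)).trans (hall p.1)
      · refine (mul_le_mul' (hmin p.1 (by omega)) (hSlt _ hp2).le).trans ?_
        rw [mul_one]
    have hδi : δ.coeff i ≠ 0 := fun h0 => by
      rw [h0, map_zero] at hi
      exact not_lt_bot hi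
    have hmem : (i, (0 : ℤ)) ∈ T := by
      rw [hT, Finset.mem_antidiagonal]
      exact ⟨hδi, fun h0 => by simp [h0] at hS0, add_zero i⟩
    have hmain : A.valuation (δ.coeff i * S.coeff 0) ≤ ρ := by
      have hsplit := Finset.add_sum_erase T (fun p => δ.coeff p.1 * S.coeff p.2) hmem
      simp only at hsplit
      rw [eq_sub_of_add_eq hsplit]
      exact (A.valuation.map_sub _ _).trans
        (max_le (hcoef.trans hρ) (A.valuation.map_sum_le hrest))
    rw [map_mul, hS0, mul_one] at hmain
    exact absurd hmain (not_le.mpr hi)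
  -- iterate
  intro i
  by_contra hi
  rw [not_le] at hi
  have hσ1 : σ < 1 := (residue_eq_zero_iff hπ a).mp ha0
  have iter : ∀ n : ℕ, ∃ j, r < A.valuation (δ.coeff j) * σ ^ n := by
    intro n
    induction n with
    | zero => exact ⟨i, by simpa using hi⟩
    | succ n ih =>
      obtain ⟨j, hj⟩ := ih
      have hσn : σ ^ n ≠ 0 := fun h0 => by
        rw [h0, mul_zero] at hj
        exact not_lt_bot hj
      have hle : r ≤ r / σ ^ n := by
        rw [le_div_iff₀ (zero_lt_iff.mpr hσn)]
        exact mul_le_of_le_one_right' (pow_le_one' hσ1.le n)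
      obtain ⟨j', hj'⟩ := step (r / σ ^ n) hle ⟨j, by rwa [div_lt_iff₀ (zero_lt_iff.mpr hσn)]⟩
      refine ⟨j', ?_⟩
      rw [div_lt_iff₀ (zero_lt_iff.mpr hσn)] at hj'
      rwa [pow_succ', ← mul_assoc]
  obtain ⟨b, hb⟩ := A.valuation_surjective r
  have hb0 : b ≠ 0 := fun h0 => hr0 (by rw [← hb, h0, map_zero])
  obtain ⟨n, hn⟩ := arch a ha0 b hb0
  obtain ⟨j, hj⟩ := iter n
  rw [hb] at hn
  exact absurd ((mul_le_mul' (hδ j) hn).trans (one_mul r).le) (not_le.mpr hj)

/-- Two series with equal `m`-th powers and equal leading coefficient are equal. -/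
theorem eq_of_pow_eq_of_leadingCoeff_eq {m : ℕ} (hm : (m : k) ≠ 0) {a b : LaurentSeries k}
    (h : a ^ m = b ^ m) (hlc : a.leadingCoeff = b.leadingCoeff) (ho : a.order = b.order)
    (hb : b ≠ 0) : a = b := by
  have hm0 : m ≠ 0 := fun h0 => hm (by simp [h0])
  have hgeom := geom_sum₂_mul a b m
  rw [h, sub_self, mul_eq_zero] at hgeom
  refine sub_eq_zero.mp (hgeom.resolve_left fun hsum => ?_)
  have ha : a ≠ 0 := fun h0 => by
    rw [h0, zero_pow hm0] at h
    exact hb (eq_zero_of_pow_eq_zero h.symm)
  have horder : ∀ (y : LaurentSeries k), y ≠ 0 → ∀ n : ℕ,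
      (y ^ n).order = n * y.order ∧ (y ^ n).coeff (n * y.order) = y.leadingCoeff ^ n := by
    intro y hy n
    induction n with
    | zero => simp
    | succ n ih =>
      have h1 : (y ^ (n + 1)).order = ((n + 1 : ℕ) : ℤ) * y.order := by
        rw [pow_succ, HahnSeries.order_mul (pow_ne_zero n hy) hy, ih.1]
        push_cast; ring
      refine ⟨h1, ?_⟩
      rw [← h1, ← HahnSeries.leadingCoeff_eq, pow_succ, HahnSeries.leadingCoeff_mul, pow_succ,
        HahnSeries.leadingCoeff_eq (x := y ^ n), ih.1, ih.2]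
  have hkey : (∑ i ∈ Finset.range m, a ^ i * b ^ (m - 1 - i)).coeff (((m - 1 : ℕ) : ℤ) * b.order) =
      (m : k) * b.leadingCoeff ^ (m - 1) := by
    rw [HahnSeries.coeff_sum, Finset.sum_eq_card_nsmul (b := b.leadingCoeff ^ (m - 1)),
      Finset.card_range, nsmul_eq_mul]
    intro i hi
    have hi' := Finset.mem_range.mp hi
    have hdeg : ((m - 1 : ℕ) : ℤ) * b.order = (a ^ i * b ^ (m - 1 - i)).order := by
      rw [HahnSeries.order_mul (pow_ne_zero i ha) (pow_ne_zero _ hb), (horder a ha i).1,
        (horder b hb _).1, ho, ← add_mul, ← Nat.cast_add, show i + (m - 1 - i) = m - 1 by omega]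
    have h1 : (a ^ i).leadingCoeff = a.leadingCoeff ^ i := by
      rw [HahnSeries.leadingCoeff_eq, (horder a ha i).1, (horder a ha i).2]
    have h2 : (b ^ (m - 1 - i)).leadingCoeff = b.leadingCoeff ^ (m - 1 - i) := by
      rw [HahnSeries.leadingCoeff_eq, (horder b hb _).1, (horder b hb _).2]
    rw [hdeg, ← HahnSeries.leadingCoeff_eq, HahnSeries.leadingCoeff_mul, h1, h2, hlc,
      ← _root_.pow_add, show i + (m - 1 - i) = m - 1 by omega]
  rw [hsum] at hkey
  exact (mul_ne_zero hm (pow_ne_zero _ (HahnSeries.leadingCoeff_ne_zero.mpr hb))) hkey.symm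

/-- `m`-th roots of power series with unit constant term, with prescribed residual constant. -/
theorem exists_pow_eq_powerSeries [IsAlgClosed K] (hπ : Function.Surjective π) {m : ℕ}
    (hm : (m : k) ≠ 0) (P : PowerSeries A) {c₀ : k} (hc0 : c₀ ≠ 0)
    (hP : π (PowerSeries.constantCoeff P) = c₀ ^ m) :
    ∃ G : PowerSeries A, G ^ m = P ∧ π (PowerSeries.constantCoeff G) = c₀ := by
  classical
  have hm0 : 0 < m := Nat.pos_of_ne_zero fun h0 => hm (by simp [h0])
  set c : A := PowerSeries.constantCoeff P with hc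
  -- choose the root of the constant term
  obtain ⟨r, hr, hπr⟩ : ∃ r : A, r ^ m = c ∧ π r = c₀ := by
    have hsplit : Polynomial.Splits (Polynomial.X ^ m - Polynomial.C (c : K)) :=
      IsAlgClosed.splits _
    have hmon : (Polynomial.X ^ m - Polynomial.C (c : K)).Monic :=
      Polynomial.monic_X_pow_sub_C _ hm0.ne'
    have hroots : ∀ s ∈ (Polynomial.X ^ m - Polynomial.C (c : K)).roots,
        s ∈ A ∧ s ^ m = (c : K) := by
      intro s hs
      rw [Polynomial.mem_roots hmon.ne_zero, Polynomial.IsRoot.def, Polynomial.eval_sub,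
        Polynomial.eval_pow, Polynomial.eval_X, Polynomial.eval_C, sub_eq_zero] at hs
      refine ⟨?_, hs⟩
      rw [← ValuationSubring.valuation_le_one_iff]
      by_contra hgt
      rw [not_le] at hgt
      have h1 := one_lt_pow₀ hgt hm0.ne'
      rw [← map_pow, hs] at h1
      exact absurd (A.valuation_le_one c) (not_le.mpr h1)
    set R := ((Polynomial.X ^ m - Polynomial.C (c : K)).roots).pmap
      (fun s h => (⟨s, (hroots s h).1⟩ : A)) (fun _ h => h) with hR
    have hfac : (Polynomial.X ^ m - Polynomial.C c : Polynomial A) =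
        (R.map fun r => Polynomial.X - Polynomial.C r).prod := by
      apply Polynomial.map_injective A.subtype Subtype.val_injective
      rw [Polynomial.map_sub, Polynomial.map_pow, Polynomial.map_X, Polynomial.map_C,
        Polynomial.map_multiset_prod, Multiset.map_map]
      refine (hsplit.eq_prod_roots_of_monic hmon).trans ?_
      rw [hR, Multiset.map_pmap]
      congr 1
      rw [← Multiset.pmap_eq_map (fun s => s ∈ (Polynomial.X ^ m - Polynomial.C (c : K)).roots)
        (fun s => Polynomial.X - Polynomial.C s) _ (fun _ h => h)]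
      exact Multiset.pmap_congr _ fun a _ _ _ => by simp
    have hev : ((R.map fun r => Polynomial.X - Polynomial.C r).prod.map π).eval c₀ = 0 := by
      rw [← hfac, Polynomial.map_sub, Polynomial.map_pow, Polynomial.map_X, Polynomial.map_C,
        Polynomial.eval_sub, Polynomial.eval_pow, Polynomial.eval_X, Polynomial.eval_C, hP,
        sub_self]
    rw [Polynomial.map_multiset_prod, Polynomial.eval_multiset_prod, Multiset.prod_eq_zero_iff,
      Multiset.map_map, Multiset.map_map] at hev
    obtain ⟨r, hrR, hr0⟩ := Multiset.mem_map.mp hev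
    simp only [Function.comp_apply, Polynomial.map_sub, Polynomial.map_X, Polynomial.map_C,
      Polynomial.eval_sub, Polynomial.eval_X, Polynomial.eval_C, sub_eq_zero] at hr0
    refine ⟨r, ?_, hr0.symm⟩
    obtain ⟨s, hs, rfl⟩ := Multiset.mem_pmap.mp hrR
    exact Subtype.ext (hroots s hs).2
  -- Hensel in `A⟦X⟧`
  set f : Polynomial (PowerSeries A) := Polynomial.X ^ m - Polynomial.C P with hf
  have hunit : IsUnit ((m : A) * r ^ (m - 1)) := by
    rw [ValuationSubring.valuation_eq_one_iff, ← residue_ne_zero_iff hπ, map_mul, map_natCast,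
      map_pow, hπr]
    exact mul_ne_zero hm (pow_ne_zero _ hc0)
  obtain ⟨G, hG, hG0⟩ := HenselianRing.is_henselian (I :=
      Ideal.span {(PowerSeries.X : PowerSeries A)})
    f (Polynomial.monic_X_pow_sub_C _ hm0.ne') (PowerSeries.C r) (by
      rw [Ideal.mem_span_singleton, PowerSeries.X_dvd_iff, hf]
      simp [← hc, hr]) (by
      refine IsUnit.map _ ?_
      rw [PowerSeries.isUnit_iff_constantCoeff, hf]
      simpa [Polynomial.derivative_X_pow] using hunit)
  refine ⟨G, ?_, ?_⟩
  · rw [Polynomial.IsRoot.def, hf, Polynomial.eval_sub, Polynomial.eval_pow, Polynomial.eval_X,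
      Polynomial.eval_C, sub_eq_zero] at hG
    exact hG
  · rw [Ideal.mem_span_singleton, PowerSeries.X_dvd_iff, map_sub,
      PowerSeries.constantCoeff_C, sub_eq_zero] at hG0
    rw [hG0, hπr]

/-- `m`-th roots of integral series with unit leading coefficient. -/
theorem exists_pow_eq_of_red [IsAlgClosed K] (hπ : Function.Surjective π) {m : ℕ}
    (hm : (m : k) ≠ 0) {f : LaurentSeries K} {x : LaurentSeries k} (hx : x ≠ 0)
    (hf : Red A π f (x ^ m)) (hord : ∀ i < (m : ℤ) * x.order, f.coeff i = 0) :
    ∃ G : LaurentSeries K, G ^ m = f ∧ Red A π G x ∧ PoleLE (-x.order) G ∧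
      G.coeff x.order ≠ 0 ∧ Red A π G⁻¹ x⁻¹ := by
  classical
  set o := x.order with ho
  set P : PowerSeries A := PowerSeries.mk fun n => ⟨f.coeff ((m : ℤ) * o + n), hf.coeff_mem _⟩
    with hPdef
  have hlead : (x ^ m).coeff ((m : ℤ) * o) = x.leadingCoeff ^ m := by
    clear hf hord hPdef P
    induction m with
    | zero => simp
    | succ n ih =>
      have hord' : ∀ n : ℕ, (x ^ n).order = (n : ℤ) * o := by
        intro n
        induction n with
        | zero => simp
        | succ n ih =>
          rw [pow_succ, HahnSeries.order_mul (pow_ne_zero n hx) hx, ih, ← ho]; push_cast; ring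
      rw [← hord' (n + 1), ← HahnSeries.leadingCoeff_eq]
      clear ih
      induction (n + 1) with
      | zero => simp
      | succ j ih => rw [pow_succ, HahnSeries.leadingCoeff_mul, ih, pow_succ]
  have hP0 : π (PowerSeries.constantCoeff P) = x.leadingCoeff ^ m := by
    obtain ⟨hi, hv⟩ := hf ((m : ℤ) * o)
    rw [← hlead, ← hv]
    congr 1
    simp [hPdef, ← PowerSeries.coeff_zero_eq_constantCoeff_apply]
  obtain ⟨G₀, hG₀, hG₀c⟩ := exists_pow_eq_powerSeries hπ hm P
    (HahnSeries.leadingCoeff_ne_zero.mpr hx) hP0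
  set z : LaurentSeries A := HahnSeries.single o 1 * HahnSeries.ofPowerSeries ℤ A G₀ with hz
  have hzlt : ∀ i < o, z.coeff i = 0 := fun i hi => by
    rw [hz, HahnSeries.coeff_single_mul, one_mul]
    exact ModularCurve.ofPowerSeries_coeff_of_neg _ (by omega)
  have hzo : z.coeff o = PowerSeries.constantCoeff G₀ := by
    rw [hz, HahnSeries.coeff_single_mul, one_mul, sub_self,
      show (0 : ℤ) = ((0 : ℕ) : ℤ) from rfl, HahnSeries.ofPowerSeries_apply_coeff,
      PowerSeries.coeff_zero_eq_constantCoeff]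
  set G := ModularCurve.coeffMap A.subtype z with hG
  have hpow : G ^ m = f := by
    rw [hG, ← map_pow, hz, mul_pow, HahnSeries.single_pow, one_pow, ← map_pow, hG₀]
    ext i
    rw [ModularCurve.coeffMap_coeff, HahnSeries.coeff_single_mul, one_mul, nsmul_eq_mul]
    rcases lt_or_ge i ((m : ℤ) * o) with hlt | hge
    · rw [ModularCurve.ofPowerSeries_coeff_of_neg _ (by omega), map_zero, hord i hlt]
    · obtain ⟨n, hn⟩ := Int.eq_ofNat_of_zero_le (a := i - (m : ℤ) * o) (by omega)
      rw [hn, HahnSeries.ofPowerSeries_apply_coeff, hPdef, PowerSeries.coeff_mk]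
      show f.coeff ((m : ℤ) * o + n) = f.coeff i
      congr 1
      omega
  set w := ModularCurve.coeffMap π z with hw
  have hGw : Red A π G w := red_iff_exists.mpr ⟨z, rfl, rfl⟩
  have hwo : w.coeff o = x.leadingCoeff := by
    rw [hw, ModularCurve.coeffMap_coeff, hzo, hG₀c]
  have hwlt : ∀ i < o, w.coeff i = 0 := fun i hi => by
    rw [hw, ModularCurve.coeffMap_coeff, hzlt i hi, map_zero]
  have hwo0 : w.coeff o ≠ 0 := by rw [hwo]; exact HahnSeries.leadingCoeff_ne_zero.mpr hx
  have hworder : w.order = o := by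
    refine le_antisymm (HahnSeries.order_le_of_coeff_ne_zero hwo0) ?_
    by_contra hc
    rw [not_le] at hc
    exact hwo0 (absurd (HahnSeries.coeff_order_eq_zero.mp (hwlt _ hc))
      (fun h => hwo0 (by simp [h])))
  have hwx : w = x := by
    refine eq_of_pow_eq_of_leadingCoeff_eq hm ?_ ?_ (hworder.trans ho) hx
    · have h1 := hGw.pow m
      rw [hpow] at h1
      exact h1.unique hf
    · rw [HahnSeries.leadingCoeff_eq, hworder, hwo]
  obtain ⟨z', hzz'⟩ : ∃ z' : LaurentSeries A, z * z' = 1 := by
    have hu : IsUnit G₀ := by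
      rw [PowerSeries.isUnit_iff_constantCoeff, ValuationSubring.valuation_eq_one_iff,
        ← residue_ne_zero_iff hπ, hG₀c]
      exact HahnSeries.leadingCoeff_ne_zero.mpr hx
    obtain ⟨H₀, hH₀⟩ := hu.exists_right_inv
    refine ⟨HahnSeries.single (-o) 1 * HahnSeries.ofPowerSeries ℤ A H₀, ?_⟩
    rw [hz, mul_mul_mul_comm, HahnSeries.single_mul_single, add_neg_cancel, mul_one, ← map_mul,
      hH₀]
    simp
  refine ⟨G, hpow, hwx ▸ hGw, fun i hi => ?_, fun h0 => ?_, ?_⟩
  rotate_left 2
  · refine red_iff_exists.mpr ⟨z', ?_, ?_⟩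
    · refine eq_inv_of_mul_eq_one_right ?_
      rw [hG, ← map_mul, hzz', map_one]
    · refine eq_inv_of_mul_eq_one_right ?_
      rw [← hwx, hw, ← map_mul, hzz', map_one]
  · rw [hG, ModularCurve.coeffMap_coeff, hzlt i (by omega), map_zero]
  · obtain ⟨hm', hv⟩ := hGw o
    have h1 : (⟨G.coeff o, hm'⟩ : A) = 0 := Subtype.ext h0
    rw [h1, map_zero] at hv
    exact hwo0 hv.symm

end Fermat.Agent.Reduction
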