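import Fermat.Agent.Reduction.Curve
import Fermat.Agent.Reduction.Roots

/-!
# Reduction is injective on prime-to-`ℓ` torsion

If `m • D = div f`, with `m` invertible in `k` and the reduction of `f` an `m`-th power in the
reduced field, then `D` is principal.
-/

set_option autoImplicit false

noncomputable section

namespace Fermat.Agent.Reduction

open HahnSeries AlgebraicCurve

variable {K k : Type*} [Field K] [Field k] {A : ValuationSubring K} {π : A →+* k}

/-- Multiplication by a series, as a linear map. -/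
def mulLin {R : Type*} [Field R] (G : LaurentSeries R) :
    LaurentSeries R →ₗ[R] LaurentSeries R where
  toFun y := G * y
  map_add' a b := mul_add G a b
  map_smul' c y := by
    rw [RingHom.id_apply, smul_eq_algebraMap_mul, smul_eq_algebraMap_mul, mul_left_comm]

@[simp]
theorem mulLin_apply {R : Type*} [Field R] (G y : LaurentSeries R) : mulLin G y = G * y := rfl

theorem mulLin_injective {R : Type*} [Field R] {G : LaurentSeries R} (hG : G ≠ 0) :
    Function.Injective (mulLin G) :=
  fun _ _ h => mul_left_cancel₀ hG h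

theorem order_pow' {R : Type*} [Field R] {y : LaurentSeries R} (hy : y ≠ 0) (n : ℕ) :
    (y ^ n).order = (n : ℤ) * y.order := by
  induction n with
  | zero => simp
  | succ j ih => rw [pow_succ, HahnSeries.order_mul (pow_ne_zero j hy) hy, ih]; push_cast; ring

theorem exists_poly_one_add_pow {R : Type*} [CommRing R] (S : Subring R) {z : R} (hz : z ∈ S)
    (m : ℕ) : ∃ P ∈ S, (1 + z) ^ m = 1 + (m : R) * z + z ^ 2 * P := by
  induction m with
  | zero => exact ⟨0, S.zero_mem, by simp⟩
  | succ m ih =>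
    obtain ⟨P, hP, he⟩ := ih
    refine ⟨P * (1 + z) + m, S.add_mem (S.mul_mem hP (S.add_mem S.one_mem hz))
      (natCast_mem S m), ?_⟩
    rw [pow_succ, he]
    push_cast
    ring

namespace CurveRed

variable {S : CurveRed A π} {n₀ : ℕ}

/-- The series `G` times the Riemann-Roch space of `D`. -/
def twistSpace (S : CurveRed A π) (G : LaurentSeries K) (D : Divisor K S.F) :
    Submodule K (LaurentSeries K) :=
  (S.space D).map (mulLin G)

theorem mem_twistSpace {G : LaurentSeries K} {D : Divisor K S.F} {y : LaurentSeries K} :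
    y ∈ S.twistSpace G D ↔ ∃ v ∈ S.space D, G * v = y := by
  simp [twistSpace]

theorem finiteDimensional_twistSpace (G : LaurentSeries K) (D : Divisor K S.F) :
    FiniteDimensional K (S.twistSpace G D) := by
  have := S.finiteDimensional_space D
  unfold twistSpace
  infer_instance

theorem finrank_twistSpace {G : LaurentSeries K} (hG : G ≠ 0) (D : Divisor K S.F) :
    Module.finrank K (S.twistSpace G D) = Module.finrank K (S.space D) :=
  (Submodule.equivMapOfInjective _ (mulLin_injective hG) _).finrank_eq.symm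

theorem pow_mem_space_atPt {y : LaurentSeries K} {n : ℤ} {m : ℕ}
    (hy : y ∈ S.space (S.atPt n)) : y ^ m ∈ S.space (S.atPt (m * n)) := by
  have := S.pow_mem_space hy m
  rwa [show ((m : ℤ)) • S.atPt n = S.atPt (m * n) by simp [atPt, Finsupp.smul_single]] at this

/-- If `x * ū` has `m`-th power regular of pole order `≤ m n`, it is regular of pole order
`≤ n`. -/
theorem isRegular_of_pow {m : ℕ} (hm : 0 < m) {w : LaurentSeries k} (hw : w ∈ S.Fbar)
    {n : ℤ} (h : w ^ m ∈ redSub S.surj (S.space (S.atPt (m * n)))) (hn : 0 ≤ n) :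
    w ∈ S.regularSub n := by
  have hmn : 0 ≤ (m : ℤ) * n := by positivity
  obtain ⟨⟨-, hint⟩, hpole⟩ := S.redSub_le_regularSub hmn h
  refine ⟨⟨hw, IsIntegral.of_pow hm hint⟩, ?_⟩
  rcases eq_or_ne w 0 with rfl | hw0
  · exact fun _ _ => rfl
  rw [poleLE_iff_order hw0]
  have h1 := (poleLE_iff_order (pow_ne_zero m hw0)).mp hpole
  have hord : (w ^ m).order = (m : ℤ) * w.order := order_pow' hw0 m
  rw [hord] at h1
  nlinarith

/-- **Injectivity of reduction on torsion.** `D` is non-positive outside `q = 0`, `h` has divisor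
`-m D` and reduces to an `m`-th power. -/
theorem GapBound.isPrincipal_of_nsmul [IsAlgClosed K] (hgap : S.GapBound n₀) {m : ℕ}
    (hm : (m : k) ≠ 0) {D : Divisor K S.F} (hD : Divisor.degree D = 0) (hDoff : S.OffNonpos D)
    {h : S.F} (hh0 : h ≠ 0)
    (hDh : ∀ v, (m : ℤ) * D v = -v.ord h) {x : LaurentSeries k} (hxF : x ∈ S.Fbar) (hx : x ≠ 0)
    (hhx : Red A π (h : LaurentSeries K) (x ^ m)) :
    D ∈ Divisor.principal (K := K) (F := S.F) := by
  classical
  have hm0 : 0 < m := Nat.pos_of_ne_zero fun h0 => hm (by simp [h0])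
  have := hgap.finite
  have hπ := S.surj
  obtain ⟨f, hf⟩ : ∃ f : S.F, f = h⁻¹ := ⟨_, rfl⟩
  have hf0 : f ≠ 0 := hf ▸ inv_ne_zero hh0
  have hDf : ∀ v, (m : ℤ) * D v = v.ord f := fun v => by rw [hf, v.ord_inv, hDh v]
  /- Step 1: move `D` to `E - n ∞` with `E` away from the residue disc of `q = 0`. -/
  set n : ℤ := n₀ + 1 with hn
  have hfmul : ∀ (u : LaurentSeries K) (N : ℤ), u ∈ S.space (D + S.atPt N) →
      (f : LaurentSeries K) * u ^ m ∈ S.space (S.atPt (m * N)) := by
    intro u N hu
    obtain ⟨u', rfl, hu'⟩ := S.exists_of_mem_space hu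
    refine (S.coe_mem_space (u := f * u' ^ m)).mpr fun v => ?_
    rcases eq_or_ne u' 0 with rfl | hu0
    · simp [hm0.ne']
    right
    have h1 := (hu' v).resolve_left hu0
    rw [v.ord_mul hf0 (pow_ne_zero m hu0), ← hDf v, FF.ord_pow]
    rw [Finsupp.add_apply] at h1
    rcases eq_or_ne v S.pt with rfl | hv
    · rw [S.atPt_self] at h1 ⊢
      have := mul_le_mul_of_nonneg_left h1 (show (0 : ℤ) ≤ m by positivity)
      linarith
    · rw [S.atPt_of_ne _ hv] at h1 ⊢
      have := mul_le_mul_of_nonneg_left h1 (show (0 : ℤ) ≤ m by positivity)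
      linarith
  have hfred : ∀ {u : LaurentSeries K} {w : LaurentSeries k} (N : ℤ),
      u ∈ S.space (D + S.atPt N) → Red A π u w →
      Red A π ((f : LaurentSeries K) * u ^ m) ((x⁻¹ * w) ^ m) := by
    intro u w N hu huw
    have hprod : (f : LaurentSeries K) * u ^ m * (h : LaurentSeries K) = u ^ m := by
      have hhs : (h : LaurentSeries K) ≠ 0 := fun h0 => hh0 (Subtype.ext h0)
      rw [hf]
      push_cast
      field_simp
    rcases eq_or_ne ((f : LaurentSeries K) * u ^ m) 0 with h0 | h0
    · rw [h0] at hprod ⊢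
      rw [zero_mul] at hprod
      have hu0 : u = 0 := eq_zero_of_pow_eq_zero hprod.symm
      subst hu0
      rw [huw.unique red_zero, mul_zero, zero_pow hm0.ne']
      exact red_zero
    obtain ⟨c, hc, t, ht, htred⟩ :=
      S.normalizable_space (S.offNonpos_atPt _) _ (hfmul u N hu) h0
    obtain ⟨t', ht', hte⟩ := red_of_mul hπ hc ht htred hhx (pow_ne_zero m hx)
      (by rw [hprod]; exact huw.pow m)
    convert ht' using 1
    rw [mul_pow, ← hte, inv_pow, mul_comm t', inv_mul_cancel_left₀ (pow_ne_zero m hx)]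
  -- reductions of `space (D + n∞)`, over `x`, fill all regular functions of pole `≤ n`
  have hmap : (redSub hπ (S.space (D + S.atPt n))).map (mulLin x⁻¹) = S.regularSub n := by
    have := S.finiteDimensional_space (D + S.atPt n)
    have := (finiteDimensional_redSub hπ (S.space (D + S.atPt n))).1
    refine Submodule.eq_of_le_of_finrank_le ?_ ?_
    · rintro _ ⟨w, hw, rfl⟩
      obtain ⟨u, hu, huw⟩ := hw
      exact isRegular_of_pow hm0 (S.Fbar.mul_mem (S.Fbar.inv_mem hxF)
        (S.red_mem_Fbar (hDoff.add (S.offNonpos_atPt n)) hu huw))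
        ⟨_, hfmul u n hu, hfred n hu huw⟩ (by omega)
    · rw [← (Submodule.equivMapOfInjective _ (mulLin_injective (inv_ne_zero hx)) _).finrank_eq,
        finrank_redSub hπ _ (S.normalizable_space (hDoff.add (S.offNonpos_atPt n)))]
      have h1 := hgap.finrank_regularSub (n := n) (by omega)
      have h2 := S.finrank_space_ge (D + S.atPt n)
      rw [map_add, hD, S.degree_atPt] at h2
      omega
  obtain ⟨x', hx'mem, hx'0, hx'ord⟩ := hgap.exists_order_eq (n := n) (by omega)
  obtain ⟨w, hw, rfl⟩ : x' ∈ (redSub hπ (S.space (D + S.atPt n))).map (mulLin x⁻¹) := hmap ▸ hx'mem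
  obtain ⟨u, hu, huw⟩ := hw
  rw [mulLin_apply] at hx'0 hx'ord
  set x' := x⁻¹ * w with hx'def
  set f' := (f : LaurentSeries K) * u ^ m with hf'def
  have hf'mem : f' ∈ S.space (S.atPt (m * n)) := hfmul u n hu
  have hf'red : Red A π f' (x' ^ m) := by
    exact hfred n hu huw
  have hpole' := S.poleLE_space hf'mem
  rw [S.atPt_self] at hpole'
  obtain ⟨G, hGpow, hGred, hGpole, hGlead, hGinv⟩ := exists_pow_eq_of_red hπ hm hx'0 hf'red
    (fun i hi => hpole' i (by rw [hx'ord] at hi; linarith))
  rw [hx'ord] at hGlead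
  rw [hx'ord, neg_neg] at hGpole
  obtain ⟨u', hu'eq, hu'v⟩ := S.exists_of_mem_space hu
  have hu0 : u' ≠ 0 := by
    rintro rfl
    refine mul_ne_zero_iff.mp hx'0 |>.2 (huw.unique ?_)
    rw [← hu'eq]
    exact red_zero
  obtain ⟨Eu, hEu, hEudeg⟩ := S.exists_div hu0
  set D' := D + Eu with hD'
  have hD'deg : Divisor.degree D' = 0 := by rw [hD', map_add, hD, hEudeg, add_zero]
  set f'F : S.F := f * u' ^ m with hf'F
  have hf'coe : ((f'F : S.F) : LaurentSeries K) = f' := by
    rw [hf'F, hf'def, ← hu'eq]; push_cast; rfl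
  have hD'f : ∀ v, (m : ℤ) * D' v = v.ord f'F := fun v => by
    rw [hf'F, v.ord_mul hf0 (pow_ne_zero m hu0), FF.ord_pow, ← hDf v, ← hEu v, hD',
      Finsupp.add_apply]
    ring
  have hG0 : G ≠ 0 := fun h0 => hGlead (by rw [h0]; rfl)
  have hGord : G.order = -n := by
    refine le_antisymm (HahnSeries.order_le_of_coeff_ne_zero hGlead) ?_
    exact (poleLE_iff_order hG0).mp hGpole
  have hD'pt : D' S.pt = -n := by
    have h1 := hD'f S.pt
    rw [S.ord_pt, hf'coe, ← hGpow] at h1
    have : (G ^ m).order = (m : ℤ) * G.order := order_pow' hG0 m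
    rw [this, hGord] at h1
    exact mul_left_cancel₀ (show ((m : ℤ)) ≠ 0 by exact_mod_cast hm0.ne') h1
  /- Step 2: the twisted spaces `V N = G · L(D' + N ∞)`. -/
  set V : ℤ → Submodule K (LaurentSeries K) := fun N => S.twistSpace G (D' + S.atPt N) with hV
  have hVpow : ∀ {N : ℤ} {y : LaurentSeries K}, y ∈ V N →
      y ^ m ∈ S.space (S.atPt (m * N)) := by
    intro N y hy
    obtain ⟨v, hv, rfl⟩ := mem_twistSpace.mp hy
    obtain ⟨v', rfl, hv'⟩ := S.exists_of_mem_space hv
    rw [mul_pow, hGpow, ← hf'coe]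
    refine (S.coe_mem_space (u := f'F * v' ^ m)).mpr fun w => ?_
    rcases eq_or_ne v' 0 with rfl | hv0
    · simp [hm0.ne']
    right
    have h1 := (hv' w).resolve_left hv0
    rw [w.ord_mul (mul_ne_zero hf0 (pow_ne_zero m hu0)) (pow_ne_zero m hv0), ← hf'F, ← hD'f w,
      FF.ord_pow]
    rw [Finsupp.add_apply] at h1
    rcases eq_or_ne w S.pt with rfl | hw'
    · rw [S.atPt_self] at h1 ⊢
      have := mul_le_mul_of_nonneg_left h1 (show (0 : ℤ) ≤ m by positivity)
      linarith
    · rw [S.atPt_of_ne _ hw'] at h1 ⊢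
      have := mul_le_mul_of_nonneg_left h1 (show (0 : ℤ) ≤ m by positivity)
      linarith
  have hVpole : ∀ {N : ℤ} {y : LaurentSeries K}, y ∈ V N → PoleLE N y := by
    intro N y hy
    obtain ⟨v, hv, rfl⟩ := mem_twistSpace.mp hy
    have h1 := hGpole.mul (S.poleLE_space hv)
    rw [Finsupp.add_apply, hD'pt, S.atPt_self] at h1
    exact h1.mono (by omega)
  have hVdown : ∀ {N : ℤ} {y : LaurentSeries K}, y ∈ V N → PoleLE (N - 1) y → y ∈ V (N - 1) := by
    intro N y hy hpole
    obtain ⟨v, hv, rfl⟩ := mem_twistSpace.mp hy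
    obtain ⟨v', rfl, hv'⟩ := S.exists_of_mem_space hv
    refine mem_twistSpace.mpr ⟨v', ?_, rfl⟩
    refine S.coe_mem_space.mpr fun w => ?_
    rcases eq_or_ne v' 0 with rfl | hv0
    · exact Or.inl rfl
    right
    have h1 := (hv' w).resolve_left hv0
    rw [Finsupp.add_apply] at h1 ⊢
    rcases eq_or_ne w S.pt with rfl | hw'
    · have hvs : (v' : LaurentSeries K) ≠ 0 := fun h => hv0 (Subtype.ext h)
      have h2 := (poleLE_iff_order (mul_ne_zero hG0 hvs)).mp hpole
      rw [HahnSeries.order_mul hG0 hvs, hGord, ← S.ord_pt] at h2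
      rw [S.atPt_self, hD'pt]
      omega
    · rw [S.atPt_of_ne _ hw'] at h1 ⊢
      exact h1
  have hx'F : x' ∈ S.Fbar := S.Fbar.mul_mem (S.Fbar.inv_mem hxF)
    (S.red_mem_Fbar (hDoff.add (S.offNonpos_atPt n)) hu huw)
  -- `G ^ (m - 1) * y` is a function regular outside `q = 0`
  have hVmul : ∀ {N : ℤ} {y : LaurentSeries K}, y ∈ V N →
      G ^ (m - 1) * y ∈ S.space (S.atPt (((m : ℤ) - 1) * n + N)) := by
    intro N y hy
    obtain ⟨v, hv, rfl⟩ := mem_twistSpace.mp hy
    obtain ⟨v', rfl, hv'⟩ := S.exists_of_mem_space hv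
    rw [← mul_assoc, ← pow_succ, show m - 1 + 1 = m by omega, hGpow, ← hf'coe]
    refine (S.coe_mem_space (u := f'F * v')).mpr fun w => ?_
    rcases eq_or_ne v' 0 with rfl | hv0
    · simp
    right
    have h1 := (hv' w).resolve_left hv0
    rw [w.ord_mul (mul_ne_zero hf0 (pow_ne_zero m hu0)) hv0, ← hf'F, ← hD'f w]
    rw [Finsupp.add_apply] at h1
    rcases eq_or_ne w S.pt with rfl | hw'
    · rw [hD'pt, S.atPt_self] at h1 ⊢
      linarith
    · rw [S.atPt_of_ne _ hw'] at h1 ⊢
      have hD'nn : 0 ≤ D' w := by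
        have h2 := (hu'v w).resolve_left hu0
        rw [Finsupp.add_apply, S.atPt_of_ne _ hw'] at h2
        rw [hD', Finsupp.add_apply, hEu]
        omega
      have := mul_le_mul_of_nonneg_right (show (1 : ℤ) ≤ m by omega) hD'nn
      linarith
  have hGpinv : G⁻¹ ^ (m - 1) * G ^ (m - 1) = 1 := by
    rw [← mul_pow, inv_mul_cancel₀ hG0, one_pow]
  have hVnorm : ∀ N : ℤ, NormalizableSub A π (V N) := by
    intro N y hy hy0
    obtain ⟨c, hc, t, ht, htred⟩ := S.normalizable_space (S.offNonpos_atPt _) _ (hVmul hy)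
      (mul_ne_zero (pow_ne_zero _ hG0) hy0)
    refine ⟨c, hc, x'⁻¹ ^ (m - 1) * t, mul_ne_zero (pow_ne_zero _ (inv_ne_zero hx'0)) ht, ?_⟩
    have he : c • y = G⁻¹ ^ (m - 1) * (c • (G ^ (m - 1) * y)) := by
      rw [smul_eq_algebraMap_mul, smul_eq_algebraMap_mul, mul_left_comm,
          ← mul_assoc (G⁻¹ ^ (m - 1)),
        hGpinv, one_mul]
    rw [he]
    exact (hGinv.pow _).mul htred
  have hVred : ∀ {N : ℤ}, (n₀ : ℤ) ≤ N → redSub hπ (V N) = S.regularSub N := by
    intro N hN
    have := finiteDimensional_twistSpace (S := S) G (D' + S.atPt N)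
    have := (finiteDimensional_redSub hπ (V N)).1
    refine Submodule.eq_of_le_of_finrank_le ?_ ?_
    · rintro z ⟨y, hy, hyz⟩
      have hzF : z ∈ S.Fbar := by
        have h1 := S.red_mem_Fbar (S.offNonpos_atPt _) (hVmul hy) ((hGred.pow (m - 1)).mul hyz)
        have h2 := S.Fbar.mul_mem (pow_mem (S.Fbar.inv_mem hx'F) (m - 1)) h1
        rwa [← mul_assoc, ← mul_pow, inv_mul_cancel₀ hx'0, one_pow, one_mul] at h2
      exact isRegular_of_pow hm0 hzF ⟨_, hVpow hy, hyz.pow m⟩ (by omega)
    · rw [finrank_redSub hπ _ (hVnorm N),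
        finrank_twistSpace hG0]
      have h1 := hgap.finrank_regularSub hN
      have h2 := S.finrank_space_ge (D' + S.atPt N)
      rw [map_add, hD'deg, S.degree_atPt] at h2
      omega
  /- Step 3: elements with unit leading coefficient at each pole order, pole reduction. -/
  have hlead : ∀ {N : ℤ}, (n₀ : ℤ) < N →
      ∃ v ∈ V N, BoundedBy A v 1 ∧ A.valuation (v.coeff (-N)) = 1 := by
    intro N hN
    obtain ⟨z, hz, hz0, hzord⟩ := hgap.exists_order_eq hN
    rw [← hVred hN.le] at hz
    obtain ⟨v, hv, hvz⟩ := hz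
    refine ⟨v, hv, hvz.boundedBy, hvz.coeff_valuation_eq_one hπ ?_⟩
    rw [← hzord]
    exact fun h => hz0 (HahnSeries.coeff_order_eq_zero.mp h)
  have hdescend : ∀ (j : ℕ) {y : LaurentSeries K} {r : A.ValueGroup},
      y ∈ V ((n₀ : ℤ) + j) → BoundedBy A (y - 1) r →
      ∃ w ∈ V n₀, BoundedBy A (w - 1) r := by
    intro j
    induction j with
    | zero => exact fun {y r} hy hb => ⟨y, by simpa using hy, hb⟩
    | succ j ih =>
      intro y r hy hb
      set N : ℤ := (n₀ : ℤ) + (j + 1 : ℕ) with hN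
      obtain ⟨v, hv, hvb, hvN⟩ := hlead (N := N) (by omega)
      have hvN0 : v.coeff (-N) ≠ 0 := fun h0 => by simp [h0] at hvN
      set a := y.coeff (-N) / v.coeff (-N) with ha
      have hy' : y - a • v ∈ V N := Submodule.sub_mem _ hy (Submodule.smul_mem _ _ hv)
      have hpole : PoleLE (N - 1) (y - a • v) := by
        intro i hi
        rcases eq_or_lt_of_le (show i ≤ -N by omega) with rfl | hlt
        · rw [HahnSeries.coeff_sub, coeff_smulC, ha, div_mul_cancel₀ _ hvN0, sub_self]
        · exact hVpole hy' i hlt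
      have hmem := hVdown hy' hpole
      rw [show N - 1 = (n₀ : ℤ) + j by push_cast [hN]; ring] at hmem
      refine ih hmem fun i => ?_
      have hay : A.valuation a ≤ r := by
        rw [ha, map_div₀, hvN, div_one]
        have := hb (-N)
        rwa [HahnSeries.coeff_sub, HahnSeries.coeff_one, if_neg (by omega), sub_zero] at this
      have he : (y - a • v - 1).coeff i = (y - 1).coeff i - a * v.coeff i := by
        rw [sub_right_comm, HahnSeries.coeff_sub, coeff_smulC]
      rw [he]
      refine (A.valuation.map_sub _ _).trans (max_le (hb i) ?_)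
      rw [map_mul]
      exact (mul_le_mul' hay (hvb i)).trans (mul_one r).le
  /- Step 4: Newton iteration. -/
  have hOne : (1 : LaurentSeries k) ∈ redSub hπ (V n₀) := by
    rw [hVred le_rfl]
    exact ⟨⟨S.Fbar.one_mem, isIntegral_one⟩, fun i hi => by
      rw [HahnSeries.coeff_one, if_neg (by omega)]⟩
  obtain ⟨y₀, hy₀, hy₀red⟩ := hOne
  have hminv : IsUnit (m : A) := by
    rw [ValuationSubring.valuation_eq_one_iff, ← residue_ne_zero_iff hπ, map_natCast]
    exact hm
  obtain ⟨minv, hminv'⟩ := hminv.exists_left_inv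
  have hsub : ∀ {y : LaurentSeries K}, BoundedBy A y 1 ↔ y ∈ (ModularCurve.coeffMap
      A.subtype).range := by
    intro y
    constructor
    · intro h
      obtain ⟨x, hx⟩ := exists_red_of_coeff_mem π (y := y)
        (fun i => (ValuationSubring.valuation_le_one_iff _ _).mp (h i))
      obtain ⟨z, hz, -⟩ := red_iff_exists.mp hx
      exact ⟨z, hz⟩
    · rintro ⟨z, rfl⟩ i
      exact A.valuation_le_one _
  -- closeness of `y` and of `y ^ m` to `1` agree
  have hclose : ∀ {y : LaurentSeries K} {r : A.ValueGroup}, Red A π y 1 →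
      BoundedBy A (y ^ m - 1) r → BoundedBy A (y - 1) r := by
    intro y r hy hb
    refine boundedBy_of_mul hπ S.arch (hy.sub red_one).boundedBy
      (S := ∑ i ∈ Finset.range m, y ^ i) (c := (m : k)) ?_ hm ?_
    · have h1 := Red.sum (A := A) (π := π) (Finset.range m) (fun i _ => hy.pow i)
      convert h1 using 1
      simp only [one_pow, Finset.sum_const, Finset.card_range, nsmul_eq_mul, mul_one]
      exact (map_natCast (HahnSeries.C : k →+* LaurentSeries k) m)
    · rwa [mul_comm, geom_sum_mul]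
  obtain ⟨r₀, hr₀1, hr₀⟩ : ∃ r₀ : A.ValueGroup, r₀ < 1 ∧ BoundedBy A (y₀ ^ m - 1) r₀ := by
    rcases eq_or_ne (y₀ ^ m - 1) 0 with h0 | h0
    · exact ⟨0, zero_lt_one, fun i => by simp [h0]⟩
    obtain ⟨c, hc, t, ht0, htred⟩ := S.normalizable_space (S.offNonpos_atPt ((m : ℤ) * n₀)) _
      (Submodule.sub_mem _ (hVpow hy₀)
        (S.one_mem_space fun v => S.atPt_nonneg (by positivity) v)) h0
    have hcv : A.valuation c ≠ 0 := (A.valuation.ne_zero_iff).mpr hc
    refine ⟨(A.valuation c)⁻¹, ?_, fun i => ?_⟩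
    · obtain ⟨i, hi⟩ : ∃ i, t.coeff i ≠ 0 := by
        by_contra hall
        push Not at hall
        exact ht0 (HahnSeries.ext (funext hall))
      have h1 := htred.coeff_valuation_eq_one hπ hi
      rw [coeff_smulC, map_mul, mul_comm] at h1
      rw [← eq_inv_of_mul_eq_one_left h1]
      have hz : Red A π (y₀ ^ m - 1) ((1 : LaurentSeries k) ^ m - 1) :=
        (hy₀red.pow m).sub red_one
      rw [one_pow, sub_self] at hz
      exact (hz.eq_zero_iff hπ).mp rfl i
    · have h1 := (ValuationSubring.valuation_le_one_iff _ _).mpr (htred.coeff_mem i)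
      rw [coeff_smulC, map_mul] at h1
      rw [← one_div, le_div_iff₀ (zero_lt_iff.mpr hcv), mul_comm]
      exact h1
  have hnewton : ∀ t : ℕ, ∃ w ∈ V n₀, BoundedBy A (w - 1) (r₀ ^ 2 ^ t) ∧
      BoundedBy A (w ^ m - 1) (r₀ ^ 2 ^ t) := by
    have hpowb : ∀ {y : LaurentSeries K} {r : A.ValueGroup}, r ≤ 1 → BoundedBy A (y - 1) r →
        BoundedBy A (y ^ m - 1) r := by
      intro y r hr hb
      rw [← geom_sum_mul, mul_comm]
      have hy1 : BoundedBy A y 1 := by
        rw [hsub]
        have h1 : y - 1 ∈ (ModularCurve.coeffMap A.subtype).range := hsub.mp (hb.mono hr)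
        have := Subring.add_mem _ h1 (Subring.one_mem _)
        rwa [sub_add_cancel] at this
      have hsum : BoundedBy A (∑ i ∈ Finset.range m, y ^ i) 1 :=
        hsub.mpr (Subring.sum_mem _ fun i _ => Subring.pow_mem _ (hsub.mp hy1) i)
      exact (hb.mul hsum).mono (mul_one r).le
    intro t
    induction t with
    | zero => exact ⟨y₀, hy₀, by simpa using hclose hy₀red hr₀, by simpa using hr₀⟩
    | succ t ih =>
      obtain ⟨y, hy, hy1, hym⟩ := ih
      set r := r₀ ^ 2 ^ t with hr
      have hr1 : r < 1 := pow_lt_one₀ zero_le hr₀1 (by positivity)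
      set ε := y ^ m - 1 with hε
      set y' := y * (1 - algebraMap K (LaurentSeries K) (minv : K) * ε) with hy'
      -- `y'` lies in a larger space
      have hy'mem : y' ∈ V ((n₀ : ℤ) + ((m * n₀ : ℕ) : ℤ)) := by
        obtain ⟨v, hv, hveq⟩ := mem_twistSpace.mp hy
        refine mem_twistSpace.mpr
          ⟨v * (1 - algebraMap K (LaurentSeries K) (minv : K) * ε), ?_, ?_⟩
        · rw [S.atPt_add, ← add_assoc]
          refine S.mul_mem_space hv ?_
          rw [Nat.cast_mul]
          refine Submodule.sub_mem _ (S.one_mem_space (fun w => S.atPt_nonneg (by positivity) w)) ?_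
          rw [← smul_eq_algebraMap_mul]
          refine Submodule.smul_mem _ _ ?_
          rw [hε]
          exact Submodule.sub_mem _ (hVpow hy)
            (S.one_mem_space (fun w => S.atPt_nonneg (by positivity) w))
        · rw [hy', ← mul_assoc, hveq]
      have hεint : ε ∈ (ModularCurve.coeffMap A.subtype).range := hsub.mp (hym.mono hr1.le)
      have hminvmem : algebraMap K (LaurentSeries K) (minv : K) ∈
          (ModularCurve.coeffMap A.subtype).range :=
        ⟨HahnSeries.single 0 minv, by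
          rw [ModularCurve.coeffMap_single, ModularCurve.algebraMap_laurentSeries_eq_single]; rfl⟩
      obtain ⟨P, hP, hPe⟩ := exists_poly_one_add_pow _
        (Subring.neg_mem _ (Subring.mul_mem _ hminvmem hεint)) m
      have hmi : (m : LaurentSeries K) * algebraMap K (LaurentSeries K) (minv : K) = 1 := by
        rw [← map_natCast (algebraMap K (LaurentSeries K)) m, ← map_mul]
        have h1 : ((minv * (m : A) : A) : K) = 1 := by rw [hminv']; rfl
        push_cast at h1
        rw [mul_comm, h1, map_one]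
      have hexp : y' ^ m - 1 = ε * ε *
          (-1 + (algebraMap K (LaurentSeries K) (minv : K)) ^ 2 * P * (1 + ε)) := by
        have hym' : y ^ m = 1 + ε := by rw [hε]; ring
        rw [hy', mul_pow, hym', sub_eq_add_neg (1 : LaurentSeries K), hPe]
        linear_combination (-ε - ε * ε) * hmi
      have hyred1 : Red A π y 1 := by
        have hlt : ∀ i, A.valuation ((y - 1).coeff i) < 1 := fun i => (hy1 i).trans_lt hr1
        obtain ⟨z, hz⟩ := exists_red_of_coeff_mem π (y := y - 1)
          (fun i => (ValuationSubring.valuation_le_one_iff _ _).mp (hlt i).le)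
        have := hz.add (red_one (A := A) (π := π))
        rwa [(hz.eq_zero_iff hπ).mpr hlt, zero_add, sub_add_cancel] at this
      have hb' : BoundedBy A (y' ^ m - 1) (r₀ ^ 2 ^ (t + 1)) := by
        rw [hexp, show (2 : ℕ) ^ (t + 1) = 2 ^ t + 2 ^ t by ring, _root_.pow_add r₀, ← hr]
        refine ((hym.mul hym).mul ?_).mono (mul_one _).le
        rw [hsub]
        exact Subring.add_mem _ (Subring.neg_mem _ (Subring.one_mem _))
          (Subring.mul_mem _ (Subring.mul_mem _ (Subring.pow_mem _ hminvmem 2) hP)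
            (Subring.add_mem _ (Subring.one_mem _) hεint))
      have hy'red : Red A π y' 1 := by
        have hεred : Red A π ε 0 := by
          have := (hyred1.pow m).sub (red_one (A := A) (π := π))
          rwa [one_pow, sub_self] at this
        have := hyred1.mul (red_one.sub ((red_algebraMap (π := π) minv).mul hεred))
        rwa [mul_zero, sub_zero, one_mul] at this
      obtain ⟨w, hw, hwb⟩ := hdescend (m * n₀) hy'mem (hclose hy'red hb')
      exact ⟨w, hw, hwb, hpowb (pow_le_one' hr₀1.le _) hwb⟩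
  /- Step 5: a nonzero element of `V n₀` without poles at `q = 0`. -/
  have := finiteDimensional_twistSpace (S := S) G (D' + S.atPt n₀)
  by_cases hsep : ∀ y ∈ V n₀, (∀ i ∈ {i : ℤ | i < 0}, y.coeff i = 0) → y = 0
  · exfalso
    obtain ⟨B, hB0, hB⟩ := exists_valuation_bound {i : ℤ | i < 0} (V n₀)
      (hVnorm n₀) hsep
    obtain ⟨b, hb⟩ := A.valuation_surjective B
    have hb0 : b ≠ 0 := fun h0 => hB0 (by rw [← hb, h0, map_zero])
    obtain ⟨c, hc⟩ := A.valuation_surjective r₀
    have hcA : c ∈ A := (ValuationSubring.valuation_le_one_iff _ _).mp (hc ▸ hr₀1.le)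
    have hcsmall : A.valuation ((⟨c, hcA⟩ : A) : K) < 1 := hc.trans_lt hr₀1
    obtain ⟨e, he⟩ := S.arch ⟨c, hcA⟩
      ((residue_eq_zero_iff hπ ⟨c, hcA⟩).mpr hcsmall) b⁻¹ (inv_ne_zero hb0)
    rw [show ((⟨c, hcA⟩ : A) : K) = c from rfl, hc, map_inv₀, hb] at he
    obtain ⟨w, hw, hw1, -⟩ := hnewton (e + 1)
    have hpow2 : e + 1 < 2 ^ (e + 1) := Nat.lt_two_pow_self
    have hBr : B * r₀ ^ 2 ^ (e + 1) < 1 := by
      rcases eq_or_ne r₀ 0 with h0 | h0
      · rw [h0, zero_pow (by positivity), mul_zero]; exact zero_lt_one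
      have h1 : r₀ ^ 2 ^ (e + 1) ≤ r₀ * r₀ ^ e := by
        rw [← pow_succ']
        exact pow_le_pow_right_of_le_one' hr₀1.le hpow2.le
      refine lt_of_le_of_lt (mul_le_mul' le_rfl (h1.trans (mul_le_mul' le_rfl he))) ?_
      rw [mul_left_comm, mul_inv_cancel₀ hB0, mul_one]
      exact hr₀1
    have hneg : ∀ i ∈ {i : ℤ | i < 0}, A.valuation (w.coeff i) ≤ r₀ ^ 2 ^ (e + 1) := by
      intro i hi
      have := hw1 i
      rwa [HahnSeries.coeff_sub, HahnSeries.coeff_one, if_neg (ne_of_lt hi), sub_zero] at this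
    have h0 := (hB w hw _ hneg 0).trans_lt hBr
    have h1 : A.valuation ((w - 1).coeff 0) < 1 :=
      (hw1 0).trans_lt (pow_lt_one₀ zero_le hr₀1 (by positivity))
    rw [HahnSeries.coeff_sub, HahnSeries.coeff_one, if_pos rfl] at h1
    have h2 : A.valuation (1 : K) < 1 := by
      rw [show (1 : K) = w.coeff 0 - (w.coeff 0 - 1) by ring]
      exact (A.valuation.map_sub _ _).trans_lt (max_lt h0 h1)
    rw [map_one] at h2
    exact lt_irrefl _ h2
  · push Not at hsep
    obtain ⟨y, hy, hyneg, hy0⟩ := hsep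
    obtain ⟨v, hv, rfl⟩ := mem_twistSpace.mp hy
    obtain ⟨v', rfl, hv'⟩ := S.exists_of_mem_space hv
    have hv0 : v' ≠ 0 := fun h => hy0 (by rw [h]; simp)
    obtain ⟨Ev, hEv, hEvdeg⟩ := S.exists_div hv0
    have heff : ∀ w, 0 ≤ (D' + Ev) w := by
      intro w
      rw [Finsupp.add_apply, hEv w]
      rcases eq_or_ne w S.pt with rfl | hw
      · have hvs : (v' : LaurentSeries K) ≠ 0 := fun h => hv0 (Subtype.ext h)
        have h0 : PoleLE 0 (G * (v' : LaurentSeries K)) := fun i hi => hyneg i (by simpa using hi)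
        have h2 := (poleLE_iff_order hy0).mp h0
        rw [HahnSeries.order_mul hG0 hvs, hGord] at h2
        rw [hD'pt, S.ord_pt]
        omega
      · have := (hv' w).resolve_left hv0
        rw [Finsupp.add_apply, S.atPt_of_ne _ hw] at this
        omega
    have hzero := S.eq_zero_of_effective heff (by rw [map_add, hD'deg, hEvdeg, add_zero])
    refine ⟨(u' * v')⁻¹, inv_ne_zero (mul_ne_zero hu0 hv0), fun w => ?_⟩
    rw [w.ord_inv, w.ord_mul hu0 hv0, ← hEu w, ← hEv w]
    have := congrArg (fun E : Divisor K S.F => E w) hzero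
    simp only [hD', Finsupp.add_apply, Finsupp.coe_zero, Pi.zero_apply] at this
    omega

end CurveRed

end Fermat.Agent.Reduction
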