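import Fermat.Agent.Reduction.Valued
import Fermat.Agent.FF.Basic

/-!
# A curve given by `q`-expansions, with a reduction map

`CurveRed A π` packages a one variable function field `F ⊆ LaurentSeries K` whose elements regular
outside `q = 0` can be normalised with respect to the valuation ring `A`, the field
`Fbar ⊆ LaurentSeries k` receiving their reductions, and the Riemann inequality on `F`. (Functions
with poles inside the residue disc of `q = 0` have unbounded coefficients, so normalisation is only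
asked of functions regular outside `q = 0`.) `GapBound` is the key hypothesis on the
reduced curve; it gives the lifting of functions with a single pole at `q = 0`.
-/

set_option autoImplicit false

noncomputable section

namespace Fermat.Agent.Reduction

open HahnSeries AlgebraicCurve

variable {K k : Type*} [Field K] [Field k]

/-- A function field of series with a reduction map. -/
structure CurveRed (A : ValuationSubring K) (π : A →+* k) where
  /-- the function field -/
  F : IntermediateField K (LaurentSeries K)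
  /-- the reduced field -/
  Fbar : IntermediateField k (LaurentSeries k)
  /-- the place `q = 0` -/
  pt : Place K F
  /-- the genus -/
  g : ℕ
  surj : Function.Surjective π
  arch : ∀ a : A, π a = 0 → ∀ b : K, b ≠ 0 →
    ∃ n : ℕ, A.valuation (a : K) ^ n ≤ A.valuation b
  normalizable : ∀ u : F, (∀ v : Place K F, v ≠ pt → 0 ≤ v.ord u) → u ≠ 0 →
    Normalizable A π (u : LaurentSeries K)
  red_mem : ∀ u : F, (∀ v : Place K F, v ≠ pt → 0 ≤ v.ord u) → ∀ x : LaurentSeries k,
    Red A π (u : LaurentSeries K) x → x ∈ Fbar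
  ord_pt : ∀ y : F, pt.ord y = (y : LaurentSeries K).order
  deg_one : ∀ v : Place K F, v.deg = 1
  hasPrincipal : HasPrincipalDivisors K F
  riemann : ∀ D : Divisor K F,
    Divisor.degree D + 1 - (g : ℤ) ≤ Module.finrank K (riemannRochSpace D)

namespace CurveRed

variable {A : ValuationSubring K} {π : A →+* k} (S : CurveRed A π)

/-- `n` times the place `q = 0`. -/
def atPt (n : ℤ) : Divisor K S.F := Finsupp.single S.pt n

@[simp]
theorem degree_atPt (n : ℤ) : Divisor.degree (S.atPt n) = n := by
  simp [atPt, S.deg_one]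

theorem atPt_self (n : ℤ) : S.atPt n S.pt = n := by simp [atPt]

theorem atPt_of_ne (n : ℤ) {v : Place K S.F} (h : v ≠ S.pt) : S.atPt n v = 0 := by
  simp [atPt, h.symm]

theorem atPt_add (m n : ℤ) : S.atPt (m + n) = S.atPt m + S.atPt n := by
  simp [atPt, Finsupp.single_add]

theorem exists_div {u : S.F} (hu : u ≠ 0) :
    ∃ E : Divisor K S.F, (∀ v, E v = v.ord u) ∧ Divisor.degree E = 0 :=
  S.hasPrincipal.exists_divisor u hu

theorem degree_eq_sum (D : Divisor K S.F) : Divisor.degree D = D.sum fun _ n => n := by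
  rw [Divisor.degree, Finsupp.liftAddHom_apply]
  exact Finsupp.sum_congr fun v _ => by simp [S.deg_one]

theorem apply_le_degree {D : Divisor K S.F} (hD : ∀ v, 0 ≤ D v) (v : Place K S.F) :
    D v ≤ Divisor.degree D := by
  rw [S.degree_eq_sum]
  rcases Classical.em (v ∈ D.support) with h | h
  · exact Finset.single_le_sum (f := fun i => D i) (fun i _ => hD i) h
  · rw [Finsupp.notMem_support_iff.mp h]
    exact Finset.sum_nonneg fun i _ => hD i

/-- An effective divisor of degree zero is zero. -/
theorem eq_zero_of_effective {D : Divisor K S.F} (hD : ∀ v, 0 ≤ D v)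
    (hdeg : Divisor.degree D = 0) : D = 0 := by
  ext v
  have := S.apply_le_degree hD v
  have := hD v
  simp only [Finsupp.coe_zero, Pi.zero_apply]
  omega

/-- The Riemann-Roch space, as series. -/
def space (D : Divisor K S.F) : Submodule K (LaurentSeries K) :=
  (riemannRochSpace D).map (inclLin S.F)

theorem coe_mem_space {D : Divisor K S.F} {u : S.F} :
    (u : LaurentSeries K) ∈ S.space D ↔ ∀ v : Place K S.F, u = 0 ∨ -D v ≤ v.ord u := by
  rw [space, Submodule.mem_map]
  constructor
  · rintro ⟨u', hu', he⟩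
    obtain rfl : u' = u := inclLin_injective S.F he
    exact mem_riemannRochSpace_iff.mp hu'
  · exact fun h => ⟨u, mem_riemannRochSpace_iff.mpr h, rfl⟩

theorem mem_of_mem_space {D : Divisor K S.F} {y : LaurentSeries K} (hy : y ∈ S.space D) :
    y ∈ S.F := by
  obtain ⟨u, _, rfl⟩ := Submodule.mem_map.mp hy
  exact u.2

theorem exists_of_mem_space {D : Divisor K S.F} {y : LaurentSeries K} (hy : y ∈ S.space D) :
    ∃ u : S.F, (u : LaurentSeries K) = y ∧ ∀ v : Place K S.F, u = 0 ∨ -D v ≤ v.ord u :=
  ⟨⟨y, S.mem_of_mem_space hy⟩, rfl, S.coe_mem_space.mp hy⟩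

theorem space_mono {D E : Divisor K S.F} (h : ∀ v, D v ≤ E v) : S.space D ≤ S.space E := by
  intro y hy
  obtain ⟨u, rfl, hu⟩ := S.exists_of_mem_space hy
  refine S.coe_mem_space.mpr fun v => (hu v).imp_right fun h' => ?_
  have := h v
  omega

theorem space_atPt_mono {m n : ℤ} (h : m ≤ n) : S.space (S.atPt m) ≤ S.space (S.atPt n) :=
  S.space_mono fun v => by
    rcases eq_or_ne v S.pt with rfl | hv
    · simpa [atPt_self] using h
    · simp [atPt_of_ne, hv]

/-- The sections of `D` are regular outside `q = 0`. -/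
def OffNonpos (D : Divisor K S.F) : Prop := ∀ v : Place K S.F, v ≠ S.pt → D v ≤ 0

theorem offNonpos_atPt (n : ℤ) : S.OffNonpos (S.atPt n) := fun v hv => by simp [atPt_of_ne, hv]

theorem OffNonpos.add {S : CurveRed A π} {D E : Divisor K S.F} (hD : S.OffNonpos D)
    (hE : S.OffNonpos E) : S.OffNonpos (D + E) := fun v hv => by
  have := hD v hv; have := hE v hv
  rw [Finsupp.add_apply]; omega

theorem exists_regular_of_mem_space {D : Divisor K S.F} (hD : S.OffNonpos D)
    {y : LaurentSeries K} (hy : y ∈ S.space D) :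
    ∃ u : S.F, (u : LaurentSeries K) = y ∧ ∀ v : Place K S.F, v ≠ S.pt → 0 ≤ v.ord u := by
  obtain ⟨u, hu, hv⟩ := S.exists_of_mem_space hy
  refine ⟨u, hu, fun v hvne => ?_⟩
  rcases hv v with h | h
  · simp [h]
  · have := hD v hvne
    omega

theorem normalizable_space {D : Divisor K S.F} (hD : S.OffNonpos D) :
    NormalizableSub A π (S.space D) := fun y hy hy0 => by
  obtain ⟨u, rfl, hu⟩ := S.exists_regular_of_mem_space hD hy
  exact S.normalizable u hu fun h => hy0 (by rw [h]; rfl)

theorem red_mem_Fbar {D : Divisor K S.F} (hD : S.OffNonpos D) {y : LaurentSeries K}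
    (hy : y ∈ S.space D) {x : LaurentSeries k} (hx : Red A π y x) : x ∈ S.Fbar := by
  obtain ⟨u, rfl, hu⟩ := S.exists_regular_of_mem_space hD hy
  exact S.red_mem u hu x hx

theorem poleLE_space {D : Divisor K S.F} {y : LaurentSeries K} (hy : y ∈ S.space D) :
    PoleLE (D S.pt) y := by
  obtain ⟨u, rfl, hu⟩ := S.exists_of_mem_space hy
  rcases eq_or_ne (u : LaurentSeries K) 0 with h0 | h0
  · rw [h0]
    exact fun _ _ => rfl
  · rw [poleLE_iff_order h0, ← S.ord_pt u]
    exact (hu S.pt).resolve_left fun h => h0 (by rw [h]; rfl)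

theorem mul_mem_space {D E : Divisor K S.F} {y z : LaurentSeries K} (hy : y ∈ S.space D)
    (hz : z ∈ S.space E) : y * z ∈ S.space (D + E) := by
  obtain ⟨u, rfl, hu⟩ := S.exists_of_mem_space hy
  obtain ⟨w, rfl, hw⟩ := S.exists_of_mem_space hz
  refine (S.coe_mem_space (u := u * w)).mpr fun v => ?_
  rcases hu v with h | h
  · simp [h]
  rcases hw v with h' | h'
  · simp [h']
  rcases eq_or_ne u 0 with hu0 | hu0
  · simp [hu0]
  rcases eq_or_ne w 0 with hw0 | hw0
  · simp [hw0]
  right
  rw [v.ord_mul hu0 hw0, Finsupp.add_apply]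
  omega

theorem one_mem_space {D : Divisor K S.F} (hD : ∀ v, 0 ≤ D v) :
    (1 : LaurentSeries K) ∈ S.space D :=
  (S.coe_mem_space (u := 1)).mpr fun v => Or.inr (by rw [v.ord_one]; have := hD v; omega)

theorem algebraMap_mem_space {D : Divisor K S.F} (hD : ∀ v, 0 ≤ D v) (c : K) :
    algebraMap K (LaurentSeries K) c ∈ S.space D := by
  rw [← mul_one (algebraMap K (LaurentSeries K) c), ← smul_eq_algebraMap_mul]
  exact Submodule.smul_mem _ c (S.one_mem_space hD)

theorem atPt_nonneg {n : ℤ} (hn : 0 ≤ n) (v : Place K S.F) : 0 ≤ S.atPt n v := by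
  rcases eq_or_ne v S.pt with rfl | hv
  · simpa [atPt_self] using hn
  · simp [atPt_of_ne, hv]

theorem pow_mem_space {D : Divisor K S.F} {y : LaurentSeries K} (hy : y ∈ S.space D) (n : ℕ) :
    y ^ n ∈ S.space ((n : ℤ) • D) := by
  induction n with
  | zero =>
    simpa using S.one_mem_space (D := 0) fun v => le_refl 0
  | succ n ih =>
    rw [pow_succ,
      show ((n + 1 : ℕ) : ℤ) • D = (n : ℤ) • D + D by push_cast; rw [add_smul, one_smul]]
    exact S.mul_mem_space ih hy

theorem finiteDimensional_space (D : Divisor K S.F) : FiniteDimensional K (S.space D) := by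
  set N : ℕ := (Divisor.degree D + 1).toNat with hN
  let ev : S.space D →ₗ[K] (Fin N → K) :=
    { toFun := fun y i => (y : LaurentSeries K).coeff (-(D S.pt) + i)
      map_add' := fun a b => by ext i; simp
      map_smul' := fun c a => by ext i; simp }
  refine FiniteDimensional.of_injective ev fun a b hab => ?_
  suffices h : ∀ y : S.space D, ev y = 0 → y = 0 by
    have := h (a - b) (by rw [map_sub, hab, sub_self])
    exact sub_eq_zero.mp this
  intro y hy
  obtain ⟨u, hu, hv⟩ := S.exists_of_mem_space y.2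
  by_contra hy0
  have hu0 : u ≠ 0 := fun h => hy0 (Subtype.ext (by rw [← hu, h]; rfl))
  have hys : (y : LaurentSeries K) ≠ 0 := fun h => hy0 (Subtype.ext h)
  obtain ⟨E, hE, hEdeg⟩ := S.exists_div hu0
  have heff : ∀ v, 0 ≤ (E + D) v := fun v => by
    rw [Finsupp.add_apply, hE v]
    have := (hv v).resolve_left hu0
    omega
  have hle := S.apply_le_degree heff S.pt
  rw [map_add, hEdeg, zero_add, Finsupp.add_apply, hE, S.ord_pt, hu] at hle
  have hge : -(D S.pt) ≤ (y : LaurentSeries K).order :=
    (poleLE_iff_order hys).mp (S.poleLE_space y.2)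
  obtain ⟨i, hi⟩ := Int.eq_ofNat_of_zero_le (a := (y : LaurentSeries K).order + D S.pt) (by omega)
  have hiN : i < N := by omega
  have h0 : (y : LaurentSeries K).coeff (-(D S.pt) + i) = 0 :=
    congrFun hy ⟨i, hiN⟩
  rw [← hi, show -(D S.pt) + ((y : LaurentSeries K).order + D S.pt) =
    (y : LaurentSeries K).order by ring, HahnSeries.coeff_order_eq_zero] at h0
  exact hys h0

theorem finrank_space_ge (D : Divisor K S.F) :
    Divisor.degree D + 1 - (S.g : ℤ) ≤ Module.finrank K (S.space D) := by
  rw [space, ← (Submodule.equivMapOfInjective _ (inclLin_injective S.F) _).finrank_eq]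
  exact S.riemann D

/-- The reductions of the functions regular outside `q = 0`. -/
def Cbar : Subalgebra k (LaurentSeries k) where
  carrier := {x | ∃ n : ℕ, x ∈ redSub S.surj (S.space (S.atPt n))}
  zero_mem' := ⟨0, Submodule.zero_mem _⟩
  one_mem' := ⟨0, 1, S.one_mem_space (fun v => S.atPt_nonneg (le_refl 0) v), red_one⟩
  add_mem' := fun {a b} ⟨m, ha⟩ ⟨n, hb⟩ => ⟨max m n, Submodule.add_mem _
    (redSub_mono _ (S.space_atPt_mono (by omega)) ha)
    (redSub_mono _ (S.space_atPt_mono (by omega)) hb)⟩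
  mul_mem' := fun {a b} ⟨m, y, hy, hya⟩ ⟨n, z, hz, hzb⟩ => ⟨m + n, y * z, by
    rw [Nat.cast_add, S.atPt_add]
    exact S.mul_mem_space hy hz, hya.mul hzb⟩
  algebraMap_mem' := fun c => by
    obtain ⟨a, rfl⟩ := S.surj c
    exact ⟨0, _, S.algebraMap_mem_space (fun v => S.atPt_nonneg (le_refl 0) v) a,
      red_algebraMap a⟩

theorem mem_Cbar {x : LaurentSeries k} :
    x ∈ S.Cbar ↔ ∃ n : ℕ, ∃ y ∈ S.space (S.atPt n), Red A π y x := Iff.rfl

theorem Cbar_le_Fbar {x : LaurentSeries k} (hx : x ∈ S.Cbar) : x ∈ S.Fbar := by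
  obtain ⟨n, y, hy, hyx⟩ := S.mem_Cbar.mp hx
  exact S.red_mem_Fbar (S.offNonpos_atPt n) hy hyx

/-- `x` is a reduced function regular outside `q = 0`. -/
def IsRegular (x : LaurentSeries k) : Prop := x ∈ S.Fbar ∧ IsIntegral S.Cbar x

/-- The reduced functions regular outside `q = 0` with pole order at most `n` there. -/
def regularSub (n : ℤ) : Submodule k (LaurentSeries k) where
  carrier := {x | S.IsRegular x ∧ PoleLE n x}
  zero_mem' := ⟨⟨S.Fbar.zero_mem, isIntegral_zero⟩, fun _ _ => rfl⟩
  add_mem' := fun {a b} ha hb => ⟨⟨S.Fbar.add_mem ha.1.1 hb.1.1, ha.1.2.add hb.1.2⟩,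
    (poleLESubmodule k n).add_mem ha.2 hb.2⟩
  smul_mem' := fun c x hx => by
    refine ⟨?_, (poleLESubmodule k n).smul_mem c hx.2⟩
    rw [smul_eq_algebraMap_mul]
    refine ⟨S.Fbar.mul_mem (S.Fbar.algebraMap_mem c) hx.1.1, IsIntegral.mul ?_ hx.1.2⟩
    exact isIntegral_algebraMap (x := (⟨_, S.Cbar.algebraMap_mem c⟩ : S.Cbar))

theorem mem_regularSub {n : ℤ} {x : LaurentSeries k} :
    x ∈ S.regularSub n ↔ S.IsRegular x ∧ PoleLE n x := Iff.rfl

theorem redSub_le_regularSub {n : ℤ} (hn : 0 ≤ n) :
    redSub S.surj (S.space (S.atPt n)) ≤ S.regularSub n := by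
  intro x hx
  lift n to ℕ using hn
  have hxC : x ∈ S.Cbar := ⟨n, hx⟩
  refine ⟨⟨S.Cbar_le_Fbar hxC, isIntegral_algebraMap (x := (⟨x, hxC⟩ : S.Cbar))⟩, ?_⟩
  obtain ⟨y, hy, hyx⟩ := hx
  have := hyx.poleLE (S.poleLE_space hy)
  rwa [S.atPt_self] at this

/-- **The gap bound**: for large `n` there are no more reduced functions with pole order `≤ n`
than predicted by the Riemann inequality. -/
structure GapBound (n₀ : ℕ) : Prop where
  finite : ∀ n : ℤ, FiniteDimensional k (S.regularSub n)
  le : ∀ n : ℤ, (n₀ : ℤ) ≤ n →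
    (Module.finrank k (S.regularSub n) : ℤ) ≤ n + 1 - (S.g : ℤ)

variable {S} {n₀ : ℕ}

/-- Regular reduced functions lift, with the same pole order. -/
theorem GapBound.redSub_eq (hgap : S.GapBound n₀) {n : ℤ} (hn : (n₀ : ℤ) ≤ n) :
    redSub S.surj (S.space (S.atPt n)) = S.regularSub n := by
  have := hgap.finite n
  have := S.finiteDimensional_space (S.atPt n)
  refine Submodule.eq_of_le_of_finrank_le (S.redSub_le_regularSub (by omega)) ?_
  rw [finrank_redSub S.surj _ (S.normalizable_space (S.offNonpos_atPt n))]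
  have h1 := hgap.le n hn
  have h2 := S.finrank_space_ge (S.atPt n)
  rw [S.degree_atPt] at h2
  omega

theorem GapBound.finrank_regularSub (hgap : S.GapBound n₀) {n : ℤ} (hn : (n₀ : ℤ) ≤ n) :
    (Module.finrank k (S.regularSub n) : ℤ) = n + 1 - (S.g : ℤ) := by
  have := S.finiteDimensional_space (S.atPt n)
  refine le_antisymm (hgap.le n hn) ?_
  rw [← hgap.redSub_eq hn, finrank_redSub S.surj _ (S.normalizable_space (S.offNonpos_atPt n))]
  have h2 := S.finrank_space_ge (S.atPt n)
  rw [S.degree_atPt] at h2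
  exact h2

/-- Above the gap every pole order occurs. -/
theorem GapBound.exists_order_eq (hgap : S.GapBound n₀) {n : ℤ} (hn : (n₀ : ℤ) < n) :
    ∃ x ∈ S.regularSub n, x ≠ 0 ∧ x.order = -n := by
  have := hgap.finite (n - 1)
  by_contra hne
  push Not at hne
  have hle : S.regularSub n ≤ S.regularSub (n - 1) := by
    intro x hx
    rcases eq_or_ne x 0 with rfl | hx0
    · exact Submodule.zero_mem _
    refine ⟨hx.1, (poleLE_iff_order hx0).mpr ?_⟩
    have h1 := (poleLE_iff_order hx0).mp hx.2
    have h2 := hne x hx hx0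
    omega
  have h1 := Submodule.finrank_mono hle
  have h2 := hgap.finrank_regularSub hn.le
  have h3 := hgap.finrank_regularSub (n := n - 1) (by omega)
  omega

end CurveRed

end Fermat.Agent.Reduction
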