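import Fermat.Agent.Reduction.Torsion

/-!
# The affine reduced curve

Under the gap bound, the ring `Cbar` of reductions of functions regular outside `q = 0` is a
Dedekind domain, integrally closed in the reduced field, in which the ideal generated by an
element of pole order `d` has codimension `d`.
-/

set_option autoImplicit false

noncomputable section

namespace Fermat.Agent.Reduction

open HahnSeries AlgebraicCurve

variable {K k : Type*} [Field K] [Field k] {A : ValuationSubring K} {π : A →+* k}

namespace CurveRed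

variable {S : CurveRed A π} {n₀ : ℕ}

theorem GapBound.mem_Cbar_iff (hgap : S.GapBound n₀) {x : LaurentSeries k} :
    x ∈ S.Cbar ↔ S.IsRegular x := by
  constructor
  · exact fun hx => ⟨S.Cbar_le_Fbar hx, isIntegral_algebraMap (x := (⟨x, hx⟩ : S.Cbar))⟩
  · intro hx
    set n : ℕ := max n₀ (-x.order).toNat with hn
    have hxn : x ∈ S.regularSub n := by
      refine ⟨hx, (poleLE_neg_order x).mono ?_⟩
      omega
    rw [← hgap.redSub_eq (by omega)] at hxn
    exact ⟨n, hxn⟩

variable (S) in
/-- Elements of `Cbar` with pole order at most `n`. -/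
def polePart (n : ℤ) : Submodule k S.Cbar where
  carrier := {c | PoleLE n (c : LaurentSeries k)}
  zero_mem' := fun _ _ => rfl
  add_mem' := fun {a b} ha hb => (poleLESubmodule k n).add_mem ha hb
  smul_mem' := fun c x hx => by
    show PoleLE n ((c • x : S.Cbar) : LaurentSeries k)
    rw [Algebra.smul_def, Subalgebra.coe_mul, Subalgebra.coe_algebraMap,
      ← smul_eq_algebraMap_mul]
    exact (poleLESubmodule k n).smul_mem c hx

@[simp]
theorem mem_polePart {n : ℤ} {c : S.Cbar} :
    c ∈ S.polePart n ↔ PoleLE n (c : LaurentSeries k) := Iff.rfl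

theorem GapBound.finrank_polePart_eq (hgap : S.GapBound n₀) (n : ℤ) :
    FiniteDimensional k (S.polePart n) ∧
      Module.finrank k (S.polePart n) = Module.finrank k (S.regularSub n) := by
  have := hgap.finite n
  let f : S.polePart n →ₗ[k] S.regularSub n :=
    { toFun := fun c => ⟨(c : S.Cbar), hgap.mem_Cbar_iff.mp (c : S.Cbar).2, c.2⟩
      map_add' := fun a b => rfl
      map_smul' := fun a b => Subtype.ext (by
        simp only [RingHom.id_apply, SetLike.val_smul, Algebra.smul_def, Subalgebra.coe_mul,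
          Subalgebra.coe_algebraMap]
        exact (smul_eq_algebraMap_mul a _).symm) }
  have hinj : Function.Injective f := fun a b h =>
    Subtype.ext (Subtype.ext (congrArg (fun z : S.regularSub n => (z : LaurentSeries k)) h))
  have hsurj : Function.Surjective f := fun x =>
    ⟨⟨⟨x, hgap.mem_Cbar_iff.mpr x.2.1⟩, x.2.2⟩, rfl⟩
  exact ⟨FiniteDimensional.of_injective f hinj,
    (LinearEquiv.ofBijective f ⟨hinj, hsurj⟩).finrank_eq⟩

theorem GapBound.finite_polePart (hgap : S.GapBound n₀) (n : ℤ) :
    FiniteDimensional k (S.polePart n) := (hgap.finrank_polePart_eq n).1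

theorem GapBound.finrank_polePart (hgap : S.GapBound n₀) {n : ℤ} (hn : (n₀ : ℤ) ≤ n) :
    (Module.finrank k (S.polePart n) : ℤ) = n + 1 - (S.g : ℤ) := by
  rw [(hgap.finrank_polePart_eq n).2]
  exact hgap.finrank_regularSub hn

theorem exists_mem_polePart (c : S.Cbar) (n : ℤ) : ∃ N, n ≤ N ∧ c ∈ S.polePart N :=
  ⟨max n (-(c : LaurentSeries k).order), le_max_left _ _,
    (poleLE_neg_order (c : LaurentSeries k)).mono (le_max_right _ _)⟩

theorem GapBound.order_nonpos (hgap : S.GapBound n₀) {x : LaurentSeries k} (hx : x ∈ S.Cbar)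
    (hx0 : x ≠ 0) : x.order ≤ 0 := by
  by_contra hpos
  rw [not_le] at hpos
  have := hgap.finite 0
  have hmem : ∀ i : ℕ, x ^ i ∈ S.regularSub 0 := fun i =>
    ⟨hgap.mem_Cbar_iff.mp (S.Cbar.pow_mem hx i), (poleLE_iff_order (pow_ne_zero i hx0)).mpr (by
      rw [order_pow' hx0]; positivity)⟩
  have hli : LinearIndependent k (fun i : ℕ => (⟨x ^ i, hmem i⟩ : S.regularSub 0)) := by
    classical
    refine LinearIndependent.of_comp (S.regularSub 0).subtype ?_
    rw [linearIndependent_iff']
    intro s g hg i hi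
    by_contra hgi
    set T := s.filter (fun j => g j ≠ 0) with hT
    have hne : T.Nonempty := ⟨i, Finset.mem_filter.mpr ⟨hi, hgi⟩⟩
    obtain ⟨hms, hm0⟩ := Finset.mem_filter.mp (T.min'_mem hne)
    set m := T.min' hne
    have hcoeff := congrArg (fun y : LaurentSeries k => y.coeff ((m : ℤ) * x.order)) hg
    simp only [HahnSeries.coeff_sum, HahnSeries.coeff_zero] at hcoeff
    rw [Finset.sum_eq_single m] at hcoeff
    · simp only [Function.comp_apply, Submodule.subtype_apply, coeff_smulC] at hcoeff
      rcases mul_eq_zero.mp hcoeff with h | h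
      · exact hm0 h
      · rw [← order_pow' hx0] at h
        exact pow_ne_zero m hx0 (HahnSeries.coeff_order_eq_zero.mp h)
    · intro j hj hjm
      simp only [Function.comp_apply, Submodule.subtype_apply, coeff_smulC]
      by_cases hgj : g j = 0
      · rw [hgj, zero_mul]
      · have hmj : m < j :=
          lt_of_le_of_ne (T.min'_le j (Finset.mem_filter.mpr ⟨hj, hgj⟩)) (Ne.symm hjm)
        rw [HahnSeries.coeff_eq_zero_of_lt_order, mul_zero]
        rw [order_pow' hx0]
        exact mul_lt_mul_of_pos_right (by exact_mod_cast hmj) hpos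
    · exact fun h => absurd hms h
  have := hli.finite
  exact not_finite ℕ

/-- Elements without pole are constant. -/
theorem GapBound.eq_const_of_order_eq_zero (hgap : S.GapBound n₀) {x : LaurentSeries k}
    (hx : x ∈ S.Cbar) (h : x.order = 0) :
    x = algebraMap k (LaurentSeries k) (x.coeff 0) := by
  by_contra hne
  set y := x - algebraMap k (LaurentSeries k) (x.coeff 0) with hy
  have hy0 : y ≠ 0 := sub_ne_zero.mpr hne
  have hle := hgap.order_nonpos (S.Cbar.sub_mem hx (S.Cbar.algebraMap_mem _)) hy0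
  refine hy0 (HahnSeries.coeff_order_eq_zero.mp ?_)
  have key : ∀ i : ℤ, i ≤ 0 → y.coeff i = 0 := fun i hi => by
    rw [hy, HahnSeries.coeff_sub, ModularCurve.algebraMap_laurentSeries_eq_single]
    rcases eq_or_lt_of_le hi with he | hlt
    · rw [he, HahnSeries.coeff_single_same, sub_self]
    · rw [HahnSeries.coeff_single_of_ne hlt.ne,
        HahnSeries.coeff_eq_zero_of_lt_order (x := x) (by omega), sub_zero]
  exact key _ hle

/-- Units of `Cbar` are constants. -/
theorem GapBound.const_of_mul_eq_one (hgap : S.GapBound n₀) {x y : LaurentSeries k}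
    (hx : x ∈ S.Cbar) (hy : y ∈ S.Cbar) (hxy : x * y = 1) :
    ∃ c : k, c ≠ 0 ∧ x = algebraMap k (LaurentSeries k) c := by
  have hx0 : x ≠ 0 := left_ne_zero_of_mul_eq_one hxy
  have hy0 : y ≠ 0 := right_ne_zero_of_mul_eq_one hxy
  have h1 := hgap.order_nonpos hx hx0
  have h2 := hgap.order_nonpos hy hy0
  have h3 : x.order + y.order = 0 := by
    rw [← HahnSeries.order_mul hx0 hy0, hxy, HahnSeries.order_one]
  have ho : x.order = 0 := by omega
  refine ⟨x.coeff 0, ?_, hgap.eq_const_of_order_eq_zero hx ho⟩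
  rw [← ho]
  exact fun h => hx0 (HahnSeries.coeff_order_eq_zero.mp h)

/-- Division with remainder by an element of `Cbar`. -/
theorem GapBound.exists_sub_mem_span (hgap : S.GapBound n₀) {x : S.Cbar} (hx : x ≠ 0)
    (c : S.Cbar) :
    ∃ p ∈ S.polePart ((n₀ : ℤ) - (x : LaurentSeries k).order), c - p ∈ Ideal.span {x} := by
  set d : ℤ := -(x : LaurentSeries k).order with hd
  have hxs : (x : LaurentSeries k) ≠ 0 := fun h => hx (Subtype.ext h)
  have hd0 : 0 ≤ d := by have := hgap.order_nonpos x.2 hxs; omega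
  rw [show (n₀ : ℤ) - (x : LaurentSeries k).order = n₀ + d by omega]
  suffices h : ∀ (j : ℕ) (c : S.Cbar), c ∈ S.polePart (n₀ + d + j) →
      ∃ p ∈ S.polePart (n₀ + d), c - p ∈ Ideal.span {x} by
    obtain ⟨N, hN, hc⟩ := S.exists_mem_polePart c (n₀ + d)
    obtain ⟨j, hj⟩ := Int.eq_ofNat_of_zero_le (a := N - (n₀ + d)) (by omega)
    exact h j c (by rwa [show (n₀ : ℤ) + d + j = N by omega])
  intro j
  induction j with
  | zero => exact fun c hc => ⟨c, by simpa using hc, by simp⟩
  | succ j ih =>
    intro c hc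
    set N : ℤ := n₀ + d + (j + 1 : ℕ) with hN
    obtain ⟨z, hz, hz0, hzo⟩ := hgap.exists_order_eq (n := N - d) (by omega)
    set z' : S.Cbar := ⟨z, hgap.mem_Cbar_iff.mpr hz.1⟩ with hz'
    set w : LaurentSeries k := (x : LaurentSeries k) * z with hw
    have hwo : w.order = -N := by
      rw [hw, HahnSeries.order_mul hxs hz0, hzo]; omega
    have hwN : w.coeff (-N) ≠ 0 := fun h =>
      mul_ne_zero hxs hz0 (HahnSeries.coeff_order_eq_zero.mp (by rw [← hw, hwo]; exact h))
    set a : k := (c : LaurentSeries k).coeff (-N) / w.coeff (-N) with ha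
    set c' : S.Cbar := c - algebraMap k S.Cbar a * (x * z') with hc'
    have hc'pole : c' ∈ S.polePart (n₀ + d + j) := by
      intro i hi
      have he : (c' : LaurentSeries k).coeff i = (c : LaurentSeries k).coeff i - a * w.coeff i := by
        rw [hc', AddSubgroupClass.coe_sub, Subalgebra.coe_mul, Subalgebra.coe_mul,
          Subalgebra.coe_algebraMap, HahnSeries.coeff_sub, coeff_algebraMap_mul]
      rw [he]
      rcases eq_or_lt_of_le (show i ≤ -N by push_cast [hN]; omega) with rfl | hlt
      · rw [ha, div_mul_cancel₀ _ hwN, sub_self]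
      · rw [hc i hlt, HahnSeries.coeff_eq_zero_of_lt_order (x := w) (by omega), mul_zero, sub_zero]
    obtain ⟨p, hp, hcp⟩ := ih c' hc'pole
    refine ⟨p, hp, ?_⟩
    have : c - p = (c' - p) + algebraMap k S.Cbar a * (x * z') := by rw [hc']; ring
    rw [this]
    exact add_mem hcp (Ideal.mul_mem_left _ _ (Ideal.mul_mem_right _ _
      (Ideal.mem_span_singleton_self x)))

/-- The quotient by a nonzero ideal is finite dimensional; bound by counting. -/
theorem GapBound.finrank_quotient_le (hgap : S.GapBound n₀) {a : Ideal S.Cbar} {x : S.Cbar}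
    (hx : x ≠ 0) (hxa : x ∈ a) {N : ℤ} (hN : (n₀ : ℤ) - (x : LaurentSeries k).order ≤ N) :
    FiniteDimensional k (S.Cbar ⧸ a) ∧ ∀ (W : Submodule k S.Cbar), W ≤ S.polePart N →
      (∀ w ∈ W, w ∈ a) →
      (Module.finrank k (S.Cbar ⧸ a) : ℤ) ≤
        Module.finrank k (S.polePart N) - Module.finrank k W := by
  have := hgap.finite_polePart N
  let q : S.polePart N →ₗ[k] S.Cbar ⧸ a :=
    (Ideal.Quotient.mkₐ k a).toLinearMap.comp (S.polePart N).subtype
  have hsurj : Function.Surjective q := by
    intro e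
    obtain ⟨c, rfl⟩ := Ideal.Quotient.mk_surjective e
    obtain ⟨p, hp, hcp⟩ := hgap.exists_sub_mem_span hx c
    refine ⟨⟨p, fun i hi => hp i (by omega)⟩, ?_⟩
    show Ideal.Quotient.mk a p = Ideal.Quotient.mk a c
    rw [eq_comm, Ideal.Quotient.eq]
    exact (Ideal.span_le.mpr (Set.singleton_subset_iff.mpr hxa)) hcp
  refine ⟨Module.Finite.of_surjective q hsurj, fun W hW hWa => ?_⟩
  have hker : Module.finrank k W ≤ Module.finrank k (LinearMap.ker q) := by
    have hle : W ≤ (LinearMap.ker q).map (S.polePart N).subtype := fun w hw =>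
      ⟨⟨w, hW hw⟩, LinearMap.mem_ker.mpr (Ideal.Quotient.eq_zero_iff_mem.mpr (hWa w hw)), rfl⟩
    have : FiniteDimensional k ((LinearMap.ker q).map (S.polePart N).subtype) :=
      Submodule.finiteDimensional_of_le (Submodule.map_subtype_le _ _)
    have := Submodule.finrank_mono hle
    rwa [Submodule.finrank_map_subtype_eq] at this
  have := LinearMap.finrank_range_add_finrank_ker (K := k) (V := S.polePart N)
    (V₂ := S.Cbar ⧸ a) q
  rw [LinearMap.range_eq_top.mpr hsurj, finrank_top] at this
  omega

theorem GapBound.finite_quotient (hgap : S.GapBound n₀) {a : Ideal S.Cbar} (ha : a ≠ ⊥) :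
    FiniteDimensional k (S.Cbar ⧸ a) := by
  obtain ⟨x, hxa, hx⟩ := Submodule.exists_mem_ne_zero_of_ne_bot ha
  exact (hgap.finrank_quotient_le hx hxa le_rfl).1

/-- The codimension of a principal ideal is the pole order. -/
theorem GapBound.finrank_quotient_span (hgap : S.GapBound n₀) {x : S.Cbar} (hx : x ≠ 0) :
    (Module.finrank k (S.Cbar ⧸ Ideal.span {x}) : ℤ) = -(x : LaurentSeries k).order := by
  have hxs : (x : LaurentSeries k) ≠ 0 := fun h => hx (Subtype.ext h)
  set d : ℤ := -(x : LaurentSeries k).order with hd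
  have hd0 : 0 ≤ d := by have := hgap.order_nonpos x.2 hxs; omega
  set N : ℤ := n₀ + d with hN
  have := hgap.finite_polePart N
  have := hgap.finite_polePart n₀
  let mulx : S.Cbar →ₗ[k] S.Cbar := LinearMap.mulLeft k x
  have hmulinj : Function.Injective mulx := mul_right_injective₀ hx
  set W := (S.polePart n₀).map mulx with hW
  have hWN : W ≤ S.polePart N := by
    rintro _ ⟨c, hc, rfl⟩
    show PoleLE N ((x * c : S.Cbar) : LaurentSeries k)
    rw [Subalgebra.coe_mul]
    have := (poleLE_neg_order (x : LaurentSeries k)).mul (mem_polePart.mp hc)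
    exact this.mono (by omega)
  have hWa : ∀ w ∈ W, w ∈ Ideal.span {x} := by
    rintro _ ⟨c, -, rfl⟩
    exact Ideal.mul_mem_right _ _ (Ideal.mem_span_singleton_self x)
  have hWr : Module.finrank k W = Module.finrank k (S.polePart n₀) :=
    (Submodule.equivMapOfInjective _ hmulinj _).finrank_eq.symm
  have hNx : (n₀ : ℤ) - (x : LaurentSeries k).order ≤ N := by omega
  obtain ⟨hfin, hle⟩ := hgap.finrank_quotient_le hx (Ideal.mem_span_singleton_self x) hNx
  have h1 := hle W hWN hWa
  rw [hWr, hgap.finrank_polePart le_rfl, hgap.finrank_polePart (by omega)] at h1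
  refine le_antisymm (by omega) ?_
  let q : S.polePart N →ₗ[k] S.Cbar ⧸ Ideal.span {x} :=
    (Ideal.Quotient.mkₐ k _).toLinearMap.comp (S.polePart N).subtype
  have hker : (LinearMap.ker q).map (S.polePart N).subtype ≤ W := by
    rintro _ ⟨c, hc, rfl⟩
    rw [SetLike.mem_coe, LinearMap.mem_ker] at hc
    obtain ⟨e, he⟩ := Ideal.mem_span_singleton.mp (Ideal.Quotient.eq_zero_iff_mem.mp hc)
    refine ⟨e, ?_, he.symm⟩
    rcases eq_or_ne (e : LaurentSeries k) 0 with h0 | h0
    · show PoleLE (n₀ : ℤ) (e : LaurentSeries k)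
      rw [h0]
      exact fun _ _ => rfl
    have hcN : PoleLE N ((c : S.Cbar) : LaurentSeries k) := c.2
    rw [show ((c : S.Cbar) : LaurentSeries k) = (x : LaurentSeries k) * (e : LaurentSeries k) by
      rw [← Subalgebra.coe_mul, ← he]; rfl] at hcN
    have h2 := (poleLE_iff_order (mul_ne_zero hxs h0)).mp hcN
    rw [HahnSeries.order_mul hxs h0] at h2
    exact (poleLE_iff_order h0).mpr (by omega)
  have : FiniteDimensional k W := Submodule.finiteDimensional_of_le hWN
  have h3 := Submodule.finrank_mono hker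
  rw [Submodule.finrank_map_subtype_eq, hWr] at h3
  have h4 := LinearMap.finrank_range_add_finrank_ker (K := k) (V := S.polePart N)
    (V₂ := S.Cbar ⧸ Ideal.span {x}) q
  have h5 := Submodule.finrank_le (LinearMap.range q)
  have h6 := hgap.finrank_polePart (n := N) (by omega)
  have h7 := hgap.finrank_polePart (n := (n₀ : ℤ)) le_rfl
  omega

/-- **`Cbar` is a Dedekind domain.** -/
theorem GapBound.isDedekindDomain (hgap : S.GapBound n₀) : IsDedekindDomain S.Cbar := by
  have hnoeth : IsNoetherianRing S.Cbar := by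
    refine (isNoetherianRing_iff_ideal_fg _).mpr fun a => ?_
    rcases eq_or_ne a ⊥ with rfl | ha
    · exact Submodule.fg_bot
    obtain ⟨x, hxa, hx⟩ := Submodule.exists_mem_ne_zero_of_ne_bot ha
    have := hgap.finite_quotient (a := Ideal.span {x}) (by simpa using hx)
    have : IsArtinianRing (S.Cbar ⧸ Ideal.span {x}) := IsArtinianRing.of_finite k _
    have hfg : (a.map (Ideal.Quotient.mk (Ideal.span {x}))).FG := IsNoetherian.noetherian _
    obtain ⟨s, hs⟩ := hfg
    classical
    have hlift : ∀ e ∈ s, ∃ c ∈ a, Ideal.Quotient.mk (Ideal.span {x}) c = e := fun e he => by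
      have : e ∈ a.map (Ideal.Quotient.mk (Ideal.span {x})) := hs ▸ Submodule.subset_span he
      obtain ⟨c, hc, rfl⟩ :=
        (Ideal.mem_map_iff_of_surjective _ Ideal.Quotient.mk_surjective).mp this
      exact ⟨c, hc, rfl⟩
    choose f hf hfe using hlift
    refine ⟨insert x (s.attach.image fun e => f e.1 e.2), le_antisymm ?_ fun c hc => ?_⟩
    · rw [Submodule.span_le]
      intro c hc
      simp only [Finset.coe_insert, Finset.coe_image, Set.mem_insert_iff, Set.mem_image] at hc
      rcases hc with rfl | ⟨e, -, rfl⟩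
      · exact hxa
      · exact hf _ _
    · set T := Submodule.span S.Cbar
        (↑(insert x (s.attach.image fun e => f e.1 e.2)) : Set S.Cbar) with hT
      have hspan : Ideal.Quotient.mk (Ideal.span {x}) c ∈
          Ideal.map (Ideal.Quotient.mk (Ideal.span {x})) T := by
        have h1 : Ideal.Quotient.mk (Ideal.span {x}) c ∈
            a.map (Ideal.Quotient.mk (Ideal.span {x})) := Ideal.mem_map_of_mem _ hc
        rw [← hs] at h1
        refine (Submodule.span_le.mpr ?_ : Ideal.span _ ≤ _) h1
        intro e he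
        rw [SetLike.mem_coe, ← hfe e he]
        exact Ideal.mem_map_of_mem _ (Submodule.subset_span (by
          simp only [Finset.coe_insert, Finset.coe_image, Set.mem_insert_iff, Set.mem_image]
          exact Or.inr ⟨⟨e, he⟩, Finset.mem_coe.mpr (Finset.mem_attach _ _), rfl⟩))
      obtain ⟨c', hc', he⟩ :=
        (Ideal.mem_map_iff_of_surjective _ Ideal.Quotient.mk_surjective).mp hspan
      rw [Ideal.Quotient.eq] at he
      have : c = c' - (c' - c) := by ring
      rw [this]
      refine sub_mem hc' ((Ideal.span_le.mpr (Set.singleton_subset_iff.mpr ?_)) he)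
      exact Submodule.subset_span (by simp)
  have hdim : Ring.DimensionLEOne S.Cbar := ⟨fun {p} hp hprime => by
    have := hprime
    have := hgap.finite_quotient hp
    have : IsArtinianRing (S.Cbar ⧸ p) := IsArtinianRing.of_finite k _
    exact Ideal.Quotient.maximal_of_isField _ (IsArtinianRing.isField_of_isDomain _)⟩
  refine (isDedekindDomain_iff S.Cbar (FractionRing S.Cbar)).mpr
    ⟨inferInstance, hnoeth, hdim, fun {z} hz => ?_⟩
  let φ : FractionRing S.Cbar →ₐ[S.Cbar] LaurentSeries k :=
    IsFractionRing.liftAlgHom (A := S.Cbar) (L := LaurentSeries k)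
      (g := Algebra.ofId S.Cbar (LaurentSeries k)) Subtype.val_injective
  have hzF : φ z ∈ S.Fbar := by
    obtain ⟨a, b, -, rfl⟩ := IsFractionRing.div_surjective (A := S.Cbar) z
    rw [map_div₀, AlgHom.commutes, AlgHom.commutes]
    exact S.Fbar.div_mem (S.Cbar_le_Fbar a.2) (S.Cbar_le_Fbar b.2)
  refine ⟨⟨φ z, hgap.mem_Cbar_iff.mpr ⟨hzF, hz.map φ⟩⟩, ?_⟩
  apply (φ.toRingHom.injective)
  show φ (algebraMap _ _ _) = φ z
  rw [AlgHom.commutes]
  rfl

end CurveRed

end Fermat.Agent.Reduction
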