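import Fermat.Agent.Reduction.Transport
import Fermat.Prelude.Def_AlgebraicCurve_BaseChangeGalois

/-!
# Semilinear symmetries and the reduced class

An automorphism of the function field acting on coefficients by an automorphism of the constants
which preserves `A` and induces `φ` on residues acts on reduced classes through `φ`.
-/

set_option autoImplicit false

noncomputable section

open HahnSeries AlgebraicCurve ModularCurve

namespace Fermat.Agent.Reduction.CurveRed

variable {K k : Type*} [Field K] [Field k] {A : ValuationSubring K} {π : A →+* k}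
variable (S : CurveRed A π)

/-- A semilinear automorphism lifting an automorphism `res` of the residue field. -/
structure GaloisSymm where
  /-- the automorphism -/
  g : SemilinearAut K S.F
  /-- its residue -/
  res : k ≃+* k
  coe_smul : ∀ u : S.F, ((g • u : S.F) : LaurentSeries K) =
    coeffMap (SemilinearAut.baseAut g : K →+* K) (u : LaurentSeries K)
  mem_iff : ∀ a : K, SemilinearAut.baseAut g a ∈ A ↔ a ∈ A
  residue : ∀ (a : A) (h : SemilinearAut.baseAut g a ∈ A),
    π ⟨SemilinearAut.baseAut g a, h⟩ = res (π a)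
  map_Fbar : ∀ x ∈ S.Fbar, coeffMap (res : k →+* k) x ∈ S.Fbar
  symm_map_Fbar : ∀ x ∈ S.Fbar, coeffMap (res.symm : k →+* k) x ∈ S.Fbar

variable {S} {n₀ : ℕ}

namespace GaloisSymm

variable (σ : S.GaloisSymm)

theorem red_map {y : LaurentSeries K} {x : LaurentSeries k} (h : Red A π y x) :
    Red A π (coeffMap (SemilinearAut.baseAut σ.g : K →+* K) y)
      (coeffMap (σ.res : k →+* k) x) := fun i => by
  obtain ⟨hi, hπ⟩ := h i
  refine ⟨(σ.mem_iff _).mpr hi, (σ.residue ⟨_, hi⟩ _).trans ?_⟩
  rw [coeffMap_coeff, hπ]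
  rfl

theorem coe_inv_smul (u : S.F) : ((σ.g⁻¹ • u : S.F) : LaurentSeries K) =
    coeffMap ((SemilinearAut.baseAut σ.g).symm : K →+* K) (u : LaurentSeries K) := by
  have h := σ.coe_smul (σ.g⁻¹ • u)
  rw [smul_inv_smul] at h
  rw [h]
  ext i
  simp

/-- The inverse symmetry. -/
def inv : S.GaloisSymm where
  g := σ.g⁻¹
  res := σ.res.symm
  coe_smul u := by rw [σ.coe_inv_smul, SemilinearAut.baseAut_inv]
  mem_iff a := by
    rw [SemilinearAut.baseAut_inv]
    conv_rhs => rw [← (SemilinearAut.baseAut σ.g).apply_symm_apply a]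
    exact (σ.mem_iff _).symm
  residue a h := by
    simp only [SemilinearAut.baseAut_inv] at h ⊢
    refine σ.res.injective ?_
    rw [RingEquiv.apply_symm_apply, ← σ.residue ⟨_, h⟩ (by simp)]
    exact congrArg π (Subtype.ext ((SemilinearAut.baseAut σ.g).apply_symm_apply _))
  map_Fbar := σ.symm_map_Fbar
  symm_map_Fbar := by simpa using σ.map_Fbar

theorem inv_g : σ.inv.g = σ.g⁻¹ := rfl

theorem inv_res : σ.inv.res = σ.res.symm := rfl

theorem order_map (y : LaurentSeries K) :
    (coeffMap (SemilinearAut.baseAut σ.g : K →+* K) y).order = y.order := by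
  rcases eq_or_ne y 0 with rfl | hy
  · rw [map_zero]
  have hne : (coeffMap (SemilinearAut.baseAut σ.g : K →+* K) y).coeff y.order ≠ 0 := by
    rw [coeffMap_coeff]
    exact (map_ne_zero_iff _ (SemilinearAut.baseAut σ.g).injective).mpr
      (HahnSeries.coeff_order_eq_zero.not.mpr hy)
  refine le_antisymm (HahnSeries.order_le_of_coeff_ne_zero hne) ?_
  refine (HahnSeries.le_order_iff_forall fun h0 => hne (by rw [h0, HahnSeries.coeff_zero])).mpr
    fun i hi => ?_
  rw [coeffMap_coeff, HahnSeries.coeff_eq_zero_of_lt_order hi, map_zero]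

theorem smul_pt : σ.g • S.pt = S.pt := by
  have key : ∀ u : S.F, (σ.g • S.pt).ord u = S.pt.ord u := fun u => by
    conv_lhs => rw [← smul_inv_smul σ.g u]
    rw [SemilinearAut.ord_smul, S.ord_pt, S.ord_pt]
    exact (σ.inv.coe_smul u).symm ▸ σ.inv.order_map _
  refine Place.ext (SetLike.ext fun u => ?_)
  rcases eq_or_ne u 0 with rfl | hu
  · simp only [zero_mem]
  rw [FF.mem_toValuationSubring_iff_ord _ hu, FF.mem_toValuationSubring_iff_ord _ hu, key]

theorem smul_atPt (n : ℤ) : σ.g • S.atPt n = S.atPt n := by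
  rw [atPt, SemilinearAut.smul_single, σ.smul_pt]

theorem mem_effIdeal {E : Divisor K S.F} {x : LaurentSeries k} (hx : x ∈ S.effIdeal E) :
    coeffMap (σ.res : k →+* k) x ∈ S.effIdeal (σ.g • E) := by
  obtain ⟨n, y, hy, hyx⟩ := CurveRed.mem_effIdeal.mp hx
  obtain ⟨u, rfl, hu⟩ := S.exists_of_mem_space hy
  refine ⟨n, ((σ.g • u : S.F) : LaurentSeries K), S.coe_mem_space.mpr fun v => ?_,
    σ.coe_smul u ▸ σ.red_map hyx⟩
  rcases hu (σ.g⁻¹ • v) with h | h
  · exact Or.inl (by rw [h, smul_zero])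
  · refine Or.inr ?_
    have e : v.ord (σ.g • u) = (σ.g⁻¹ • v).ord u := by
      conv_lhs => rw [← smul_inv_smul σ.g v]
      rw [SemilinearAut.ord_smul]
    rw [e]
    refine le_trans (le_of_eq ?_) h
    conv_lhs => rw [← σ.smul_atPt (n : ℤ), ← smul_sub, SemilinearAut.divisor_smul_apply]

theorem map_Cbar (x : LaurentSeries k) (hx : x ∈ S.Cbar) :
    coeffMap (σ.res : k →+* k) x ∈ S.Cbar := by
  have h0 : S.IsEff (0 : Divisor K S.F) := fun v => le_refl _
  have h1 : x ∈ S.effIdeal 0 := by
    rw [effIdeal_zero]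
    exact Submodule.mem_one.mpr ⟨⟨x, hx⟩, rfl⟩
  have h2 := σ.mem_effIdeal h1
  rw [smul_zero] at h2
  exact mem_Cbar_of_mem_effIdeal h0 h2

/-- The action on the reduced curve. -/
def symm : S.Symm where
  toRingHom := coeffMap (σ.res : k →+* k)
  map_Cbar := σ.map_Cbar
  map_Fbar := σ.map_Fbar

theorem symm_toRingHom : σ.symm.toRingHom = coeffMap (σ.res : k →+* k) := rfl

theorem mapMod_effIdeal (E : Divisor K S.F) :
    σ.symm.mapMod (S.effIdeal E) = S.effIdeal (σ.g • E) := by
  refine le_antisymm (Submodule.span_le.mpr ?_) fun x hx => ?_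
  · rintro _ ⟨x, hx, rfl⟩
    exact σ.mem_effIdeal hx
  · have h := σ.inv.mem_effIdeal hx
    rw [σ.inv_g, inv_smul_smul, σ.inv_res] at h
    have h' := σ.symm.mem_mapMod h
    rwa [σ.symm_toRingHom,
      show coeffMap (σ.res : k →+* k) (coeffMap (σ.res.symm : k →+* k) x) = x by
        ext i; simp] at h'

end GaloisSymm

/-- The reduced class is equivariant. -/
theorem GapBound.classHom_smul (hgap : S.GapBound n₀) (σ : S.GaloisSymm) (D : Divisor K S.F) :
    hgap.classHom (σ.g • D) = σ.symm.picMap (hgap.classHom D) := by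
  suffices hsingle : ∀ E : Divisor K S.F, S.IsEff E →
      hgap.classHom (σ.g • E) = σ.symm.picMap (hgap.classHom E) by
    obtain ⟨b, P, Q, M, -, hP, hQ, hDPQ, -⟩ := exists_eff_equiv (S := S) D
    rw [hDPQ, smul_sub, map_sub, map_sub, hsingle P hP, hsingle Q hQ, map_sub]
  intro E hE
  have hE' : S.IsEff (σ.g • E) := fun v => by
    rw [SemilinearAut.divisor_smul_apply]
    exact hE _
  obtain ⟨u, hu⟩ := hgap.exists_effUnit hE
  rw [hgap.classHom_eff hE u hu, Symm.picMap_picClass]
  refine hgap.classHom_eff hE' _ ?_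
  rw [Units.coe_map, hu]
  exact σ.mapMod_effIdeal E

theorem GapBound.sp_smul (hgap : S.GapBound n₀) (σ : S.GaloisSymm) (z : Pic0 K S.F) :
    hgap.sp (σ.g • z) = σ.symm.picMap (hgap.sp z) := by
  obtain ⟨D, rfl⟩ := Pic0.mk_surjective z
  rw [SemilinearAut.pic0_smul_mk, hgap.sp_mk, hgap.sp_mk, SemilinearAut.coe_degZeroSMulHom]
  exact hgap.classHom_smul σ _

end Fermat.Agent.Reduction.CurveRed
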