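import Fermat.Agent.Reduction.Affine

/-!
# Reduction of divisor classes as ideal classes of the affine reduced curve

For an effective divisor `E`, `effIdeal E` is the ideal of reductions of functions regular outside
`q = 0` vanishing on `E` and `effIdeal' E` the same ideal inside `Cbar`, whose codimension is at
most the degree of `E`. It is invertible and additive in `E`, as is the codimension; extending by
additivity gives the reduction map on divisor classes, injective on torsion of order prime to the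
residue characteristic.
-/

set_option autoImplicit false

attribute [-instance] IsScalarTower.of_algHom

noncomputable section

namespace Fermat.Agent.Reduction

open HahnSeries AlgebraicCurve

variable {K k : Type*} [Field K] [Field k] {A : ValuationSubring K} {π : A →+* k}

/-- The quotient of the units of a commutative monoid by a subgroup is a commutative group (stated
generally, as elaborating it directly for units of submodules is expensive). -/
@[instance_reducible]
def commGroupUnitsQuotient {M : Type*} [CommMonoid M] (H : Subgroup Mˣ) : CommGroup (Mˣ ⧸ H) :=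
  inferInstance

/-- Codimensions of ideals of a Dedekind domain over a field are additive. -/
theorem finrank_quotient_mul_dedekind {F C : Type*} [Field F] [CommRing C] [IsDedekindDomain C]
    [Algebra F C] {a b : Ideal C} (ha : a ≠ ⊥) (hb : b ≠ ⊥) [Module.Finite F (C ⧸ a * b)] :
    Module.finrank F (C ⧸ a * b) = Module.finrank F (C ⧸ a) + Module.finrank F (C ⧸ b) := by
  obtain ⟨α, hα⟩ := IsDedekindDomain.exists_sup_span_eq
    (Ideal.mul_le_left : a * b ≤ a) (mul_ne_zero ha hb)
  have hαa : α ∈ a :=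
    hα.le (Ideal.mem_sup_right (Ideal.mem_span_singleton_self α))
  let ψ : (C ⧸ a * b) →ₗ[F] (C ⧸ a) :=
    (Ideal.Quotient.factorₐ F (Ideal.mul_le_left : a * b ≤ a)).toLinearMap
  let φ : (C ⧸ b) →ₗ[F] (C ⧸ a * b) :=
    Submodule.liftQ (b.restrictScalars F)
      ((Ideal.Quotient.mkₐ F (a * b)).toLinearMap.comp (LinearMap.mulLeft F α)) (by
        intro c hc
        rw [LinearMap.mem_ker]
        exact Ideal.Quotient.eq_zero_iff_mem.mpr (Ideal.mul_mem_mul hαa hc))
      ∘ₗ (Submodule.Quotient.restrictScalarsEquiv F b).symm.toLinearMap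
  have hker : LinearMap.ker ψ ≤ LinearMap.range φ := by
    intro e he
    obtain ⟨c, rfl⟩ := Ideal.Quotient.mk_surjective e
    rw [LinearMap.mem_ker] at he
    have hca : c ∈ a := Ideal.Quotient.eq_zero_iff_mem.mp he
    rw [← hα] at hca
    obtain ⟨p, hp, q, hq, rfl⟩ := Submodule.mem_sup.mp hca
    obtain ⟨r, rfl⟩ := Ideal.mem_span_singleton.mp hq
    refine ⟨Ideal.Quotient.mk b r, ?_⟩
    show Ideal.Quotient.mk (a * b) (α * r) = Ideal.Quotient.mk (a * b) (p + α * r)
    rw [Ideal.Quotient.eq, show α * r - (p + α * r) = -p by ring]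
    exact neg_mem hp
  have hle : LinearMap.range φ ≤ LinearMap.ker ψ := by
    rintro _ ⟨e, rfl⟩
    obtain ⟨c, rfl⟩ := Ideal.Quotient.mk_surjective e
    exact Ideal.Quotient.eq_zero_iff_mem.mpr (a.mul_mem_right c hαa)
  have hinj : Function.Injective φ := by
    refine (injective_iff_map_eq_zero φ).mpr fun e he => ?_
    obtain ⟨c, rfl⟩ := Ideal.Quotient.mk_surjective e
    replace he : α * c ∈ a * b := Ideal.Quotient.eq_zero_iff_mem.mp he
    refine Ideal.Quotient.eq_zero_iff_mem.mpr ?_
    have h : a * Ideal.span {c} ≤ a * b := by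
      conv_lhs => rw [← hα, Ideal.sup_mul]
      refine sup_le Ideal.mul_le_left ?_
      rw [Ideal.span_singleton_mul_span_singleton, Ideal.span_le, Set.singleton_subset_iff]
      exact he
    exact (mul_le_mul_iff_of_pos_left (bot_lt_iff_ne_bot.mpr ha)).mp h
      (Ideal.mem_span_singleton_self c)
  have h1 := LinearMap.finrank_range_add_finrank_ker (K := F) (V := C ⧸ a * b)
    (V₂ := C ⧸ a) ψ
  rw [(LinearMap.range_eq_top (f := ψ)).mpr
      (Ideal.Quotient.factor_surjective (Ideal.mul_le_left : a * b ≤ a)),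
    finrank_top, hker.antisymm hle, LinearMap.finrank_range_of_inj hinj] at h1
  exact h1.symm

/-- A larger ideal has smaller finite codimension. -/
theorem finrank_quotient_lt_of_lt {F C : Type*} [Field F] [CommRing C] [Algebra F C]
    {a b : Ideal C} [Module.Finite F (C ⧸ a)] (h : a < b) :
    Module.finrank F (C ⧸ b) < Module.finrank F (C ⧸ a) := by
  let ψ : (C ⧸ a) →ₗ[F] (C ⧸ b) := (Ideal.Quotient.factorₐ F h.le).toLinearMap
  have h1 := LinearMap.finrank_range_add_finrank_ker (K := F) (V := C ⧸ a)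
    (V₂ := C ⧸ b) ψ
  rw [(LinearMap.range_eq_top (f := ψ)).mpr (Ideal.Quotient.factor_surjective h.le),
    finrank_top] at h1
  obtain ⟨c, hcb, hca⟩ := SetLike.exists_of_lt h
  have hker : LinearMap.ker ψ ≠ ⊥ := (Submodule.ne_bot_iff _).mpr ⟨Ideal.Quotient.mk a c,
    Ideal.Quotient.eq_zero_iff_mem.mpr hcb, fun h' => hca (Ideal.Quotient.eq_zero_iff_mem.mp h')⟩
  have h2 : 1 ≤ Module.finrank F (LinearMap.ker ψ) := Submodule.one_le_finrank_iff.mpr hker
  omega

namespace CurveRed

variable {S : CurveRed A π} {n₀ : ℕ}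

variable (S) in
/-- Effective divisors. -/
def IsEff (E : Divisor K S.F) : Prop := ∀ v, 0 ≤ E v

theorem IsEff.add {E E' : Divisor K S.F} (h : S.IsEff E) (h' : S.IsEff E') : S.IsEff (E + E') :=
  fun v => by rw [Finsupp.add_apply]; exact add_nonneg (h v) (h' v)

theorem isEff_single (v : Place K S.F) {n : ℤ} (hn : 0 ≤ n) : S.IsEff (Finsupp.single v n) :=
  fun w => by
    classical
    rw [Finsupp.single_apply]
    split_ifs <;> omega

/-- The zero divisor is effective. -/
theorem isEff_zero : S.IsEff (0 : Divisor K S.F) := fun _ => le_rfl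

/-- An effective divisor of positive degree is a place plus an effective divisor. -/
theorem IsEff.exists_eq_single_add {E : Divisor K S.F} (hE : S.IsEff E) {d : ℕ}
    (hd : Divisor.degree E = ((d + 1 : ℕ) : ℤ)) :
    ∃ (v : Place K S.F) (E' : Divisor K S.F), E = Finsupp.single v 1 + E' ∧ 0 < E v ∧
      S.IsEff E' ∧ Divisor.degree E' = (d : ℤ) := by
  classical
  obtain ⟨v, hv⟩ : ∃ v, 0 < E v := by
    by_contra hall
    push Not at hall
    rw [show E = 0 from Finsupp.ext fun v => le_antisymm (hall v) (hE v), map_zero] at hd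
    omega
  refine ⟨v, E - Finsupp.single v 1, (add_sub_cancel _ E).symm, hv, fun w => ?_, ?_⟩
  · have := hE w
    rw [Finsupp.sub_apply, Finsupp.single_apply]
    split_ifs with h
    · subst h; omega
    · omega
  · rw [map_sub, Divisor.degree_single, S.deg_one, hd]
    push_cast
    ring

theorem IsEff.offNonpos {E : Divisor K S.F} (h : S.IsEff E) (n : ℤ) :
    S.OffNonpos (S.atPt n - E) := fun v hv => by
  rw [Finsupp.sub_apply, S.atPt_of_ne _ hv]
  have := h v
  omega

variable (S) in
/-- The reductions of functions regular outside `q = 0` vanishing on `E`. -/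
def effIdeal (E : Divisor K S.F) : Submodule S.Cbar (LaurentSeries k) where
  carrier := {x | ∃ n : ℕ, x ∈ redSub S.surj (S.space (S.atPt n - E))}
  zero_mem' := ⟨0, Submodule.zero_mem _⟩
  add_mem' := fun {a b} ⟨m, ha⟩ ⟨n, hb⟩ => ⟨max m n, Submodule.add_mem _
    (redSub_mono _ (S.space_mono fun v => sub_le_sub_right (by
      rcases eq_or_ne v S.pt with rfl | hv
      · simp [atPt_self]
      · simp [atPt_of_ne, hv]) (E v)) ha)
    (redSub_mono _ (S.space_mono fun v => sub_le_sub_right (by
      rcases eq_or_ne v S.pt with rfl | hv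
      · simp [atPt_self]
      · simp [atPt_of_ne, hv]) (E v)) hb)⟩
  smul_mem' := fun c x ⟨n, y, hy, hyx⟩ => by
    obtain ⟨m, z, hz, hzc⟩ := S.mem_Cbar.mp c.2
    refine ⟨m + n, z * y, ?_, ?_⟩
    · rw [Nat.cast_add, S.atPt_add, add_sub_assoc]
      exact S.mul_mem_space hz hy
    · rw [Algebra.smul_def]
      exact hzc.mul hyx

theorem mem_effIdeal {E : Divisor K S.F} {x : LaurentSeries k} :
    x ∈ S.effIdeal E ↔ ∃ n : ℕ, ∃ y ∈ S.space (S.atPt n - E), Red A π y x := Iff.rfl

theorem mem_Cbar_of_mem_effIdeal {E : Divisor K S.F} (hE : S.IsEff E) {x : LaurentSeries k}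
    (hx : x ∈ S.effIdeal E) : x ∈ S.Cbar := by
  obtain ⟨n, y, hy, hyx⟩ := mem_effIdeal.mp hx
  refine ⟨n, y, S.space_mono (fun v => ?_) hy, hyx⟩
  rw [Finsupp.sub_apply]
  have := hE v
  omega

theorem effIdeal_mul_le (E E' : Divisor K S.F) :
    S.effIdeal E * S.effIdeal E' ≤ S.effIdeal (E + E') := by
  rw [Submodule.mul_le]
  rintro a ⟨m, y, hy, hya⟩ b ⟨n, z, hz, hzb⟩
  refine ⟨m + n, y * z, ?_, hya.mul hzb⟩
  rw [Nat.cast_add, S.atPt_add,
    show S.atPt m + S.atPt n - (E + E') = S.atPt m - E + (S.atPt n - E') by abel]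
  exact S.mul_mem_space hy hz

theorem effIdeal_zero : S.effIdeal 0 = 1 := by
  refine le_antisymm ?_ ?_
  · rintro x ⟨n, y, hy, hyx⟩
    rw [sub_zero] at hy
    exact Submodule.mem_one.mpr ⟨⟨x, n, y, hy, hyx⟩, rfl⟩
  · intro x hx
    obtain ⟨c, rfl⟩ := Submodule.mem_one.mp hx
    obtain ⟨n, y, hy, hyx⟩ := S.mem_Cbar.mp c.2
    exact ⟨n, y, by rwa [sub_zero], hyx⟩

variable (S) in
/-- An effective ideal as an ideal of `Cbar`. -/
def effIdeal' (E : Divisor K S.F) : Ideal S.Cbar :=
  (S.effIdeal E).comap (Algebra.linearMap S.Cbar (LaurentSeries k))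

theorem mem_effIdeal' {E : Divisor K S.F} {c : S.Cbar} :
    c ∈ S.effIdeal' E ↔ (c : LaurentSeries k) ∈ S.effIdeal E := Iff.rfl

/-- `effIdeal' E` has image `effIdeal E` in the series. -/
theorem map_effIdeal' {E : Divisor K S.F} (hE : S.IsEff E) :
    Submodule.map (Algebra.linearMap S.Cbar (LaurentSeries k)) (S.effIdeal' E) = S.effIdeal E :=
  Submodule.map_comap_eq_self fun x hx => ⟨⟨x, mem_Cbar_of_mem_effIdeal hE hx⟩, rfl⟩

/-- The ideal of the zero divisor is the unit ideal. -/
theorem effIdeal'_zero : S.effIdeal' (0 : Divisor K S.F) = ⊤ := by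
  rw [Ideal.eq_top_iff_one, mem_effIdeal', effIdeal_zero]
  exact Submodule.mem_one.mpr ⟨1, rfl⟩

/-- A generator of `effIdeal E` in `Cbar` generates `effIdeal' E`. -/
theorem effIdeal'_eq_span {E : Divisor K S.F} {x : S.Cbar}
    (h : S.effIdeal E = Submodule.span S.Cbar {(x : LaurentSeries k)}) :
    S.effIdeal' E = Ideal.span {x} := by
  ext c
  rw [mem_effIdeal', h, Submodule.mem_span_singleton, Ideal.mem_span_singleton']
  exact exists_congr fun a => ⟨fun ha => Subtype.ext ha, fun ha => congrArg Subtype.val ha⟩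

theorem exists_ne_zero_mem_redSub {D : Divisor K S.F} (hD : S.OffNonpos D)
    (hdeg : (S.g : ℤ) ≤ Divisor.degree D) :
    ∃ x ∈ redSub S.surj (S.space D), x ≠ 0 := by
  have := S.finiteDimensional_space D
  refine Submodule.exists_mem_ne_zero_of_ne_bot fun hbot => ?_
  have h := finrank_redSub S.surj _ (S.normalizable_space hD)
  have h' := S.finrank_space_ge D
  rw [hbot, finrank_bot] at h
  omega

theorem redSub_sub_le_polePart {E : Divisor K S.F} (hE : S.IsEff E) {M : ℤ} {x : LaurentSeries k}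
    (hx : x ∈ redSub S.surj (S.space (S.atPt M - E))) : PoleLE M x := by
  obtain ⟨y, hy, hyx⟩ := hx
  refine (hyx.poleLE (S.poleLE_space hy)).mono ?_
  rw [Finsupp.sub_apply, S.atPt_self]
  have := hE S.pt
  omega

theorem degree_nonneg_of_isEff {E : Divisor K S.F} (hE : S.IsEff E) : 0 ≤ Divisor.degree E :=
  (hE S.pt).trans (S.apply_le_degree hE S.pt)

/-- A reduced section of maximal pole bounds the codimension of the ideal. -/
theorem GapBound.exists_max_pole (hgap : S.GapBound n₀) {E : Divisor K S.F} (hE : S.IsEff E)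
    {M : ℤ} (hM : (2 * n₀ + S.g + 1 : ℤ) + 2 * Divisor.degree E ≤ M) :
    ∃ x ∈ redSub S.surj (S.space (S.atPt M - E)), x ≠ 0 ∧ S.effIdeal' E ≠ ⊥ ∧
      (Module.finrank k (S.Cbar ⧸ S.effIdeal' E) : ℤ) ≤ Divisor.degree E - M - x.order := by
  classical
  have hdeg0 := degree_nonneg_of_isEff hE
  lift M to ℕ using (by omega)
  set M₀ : ℕ := S.g + (Divisor.degree E).toNat with hM₀
  obtain ⟨x₀, hx₀, hx₀0⟩ := exists_ne_zero_mem_redSub (S := S) (hE.offNonpos (M₀ : ℤ))
    (by rw [map_sub, S.degree_atPt]; omega)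
  set x₀' : S.Cbar := ⟨x₀, mem_Cbar_of_mem_effIdeal hE ⟨M₀, hx₀⟩⟩ with hx₀'
  have hx₀'0 : x₀' ≠ 0 := fun h => hx₀0 (congrArg Subtype.val h)
  have hx₀E : x₀' ∈ S.effIdeal' E := ⟨M₀, hx₀⟩
  have hx₀ord := (poleLE_iff_order hx₀0).mp (redSub_sub_le_polePart hE hx₀)
  set V := redSub S.surj (S.space (S.atPt (M : ℤ) - E)) with hV
  have := S.finiteDimensional_space (S.atPt (M : ℤ) - E)
  have := (finiteDimensional_redSub S.surj (S.space (S.atPt (M : ℤ) - E))).1
  have hdim := finrank_redSub S.surj _ (S.normalizable_space (hE.offNonpos (M : ℤ)))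
  have hge := S.finrank_space_ge (S.atPt (M : ℤ) - E)
  rw [map_sub, S.degree_atPt] at hge
  obtain ⟨o, ⟨x, hx, hx0, rfl⟩, hmin⟩ := Int.exists_least_of_bdd
    (P := fun o => ∃ x ∈ V, x ≠ 0 ∧ x.order = o)
    ⟨-(M : ℤ), fun o ⟨x, hx, hx0, ho⟩ =>
      ho ▸ (poleLE_iff_order hx0).mp (redSub_sub_le_polePart hE hx)⟩
    (by
      obtain ⟨x, hx, hx0⟩ := exists_ne_zero_mem_redSub (S := S) (hE.offNonpos (M : ℤ))
        (by rw [map_sub, S.degree_atPt]; omega)
      exact ⟨x.order, x, hx, hx0, rfl⟩)
  set N : ℤ := max (n₀ : ℤ) (-x.order) with hN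
  let ι : V →ₗ[k] S.Cbar :=
    { toFun := fun u => ⟨u, mem_Cbar_of_mem_effIdeal hE ⟨M, u.2⟩⟩
      map_add' := fun _ _ => rfl
      map_smul' := fun c u => Subtype.ext (by
        simp only [RingHom.id_apply, SetLike.val_smul, Algebra.smul_def (A := S.Cbar),
          MulMemClass.coe_mul, Subalgebra.coe_algebraMap, smul_eq_algebraMap_mul]) }
  have hιinj : Function.Injective ι := fun a b h =>
    Subtype.ext (congrArg (fun z : S.Cbar => (z : LaurentSeries k)) h)
  have hιN : LinearMap.range ι ≤ S.polePart N := by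
    rintro _ ⟨u, rfl⟩
    show PoleLE N (u : LaurentSeries k)
    rcases eq_or_ne (u : LaurentSeries k) 0 with h0 | h0
    · rw [h0]; exact fun _ _ => rfl
    · have := hmin _ ⟨(u : LaurentSeries k), u.2, h0, rfl⟩
      exact (poleLE_iff_order h0).mpr (by omega)
  have := hgap.finite_polePart N
  have hle' := Submodule.finrank_mono hιN
  rw [LinearMap.finrank_range_of_inj hιinj] at hle'
  have hpN := hgap.finrank_polePart (n := N) (le_max_left _ _)
  rw [← hV] at hdim
  have hNx : N = -x.order := by omega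
  obtain ⟨hfin, hle⟩ := hgap.finrank_quotient_le hx₀'0 hx₀E (N := N) (by
    show (n₀ : ℤ) - x₀.order ≤ N
    omega)
  have hb := hle (LinearMap.range ι) hιN (by
    rintro _ ⟨u, rfl⟩
    exact ⟨M, u.2⟩)
  rw [LinearMap.finrank_range_of_inj hιinj] at hb
  exact ⟨x, hx, hx0, fun hbot => hx₀'0 (by rwa [hbot, Submodule.mem_bot] at hx₀E), by omega⟩

/-- The ideal of an effective divisor is nonzero. -/
theorem GapBound.effIdeal'_ne_bot (hgap : S.GapBound n₀) {E : Divisor K S.F} (hE : S.IsEff E) :
    S.effIdeal' E ≠ ⊥ := by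
  obtain ⟨x, -, -, h, -⟩ := hgap.exists_max_pole hE le_rfl
  exact h

/-- The codimension of the ideal of an effective divisor is at most its degree. -/
theorem GapBound.finrank_quotient_effIdeal'_le (hgap : S.GapBound n₀) {E : Divisor K S.F}
    (hE : S.IsEff E) :
    (Module.finrank k (S.Cbar ⧸ S.effIdeal' E) : ℤ) ≤ Divisor.degree E := by
  obtain ⟨x, hx, hx0, -, hle⟩ := hgap.exists_max_pole hE
    (M := (2 * n₀ + S.g + 1 : ℤ) + 2 * Divisor.degree E) le_rfl
  have := (poleLE_iff_order hx0).mp (redSub_sub_le_polePart hE hx)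
  omega

/-- **The codimension is additive.** -/
theorem GapBound.finrank_quotient_mul (hgap : S.GapBound n₀) {a b : Ideal S.Cbar}
    (ha : a ≠ ⊥) (hb : b ≠ ⊥) :
    Module.finrank k (S.Cbar ⧸ a * b) =
      Module.finrank k (S.Cbar ⧸ a) + Module.finrank k (S.Cbar ⧸ b) :=
  have := hgap.isDedekindDomain
  have := hgap.finite_quotient (mul_ne_zero ha hb)
  finrank_quotient_mul_dedekind ha hb

/-- A larger ideal has smaller codimension. -/
theorem GapBound.finrank_quotient_lt (hgap : S.GapBound n₀) {a b : Ideal S.Cbar} (ha : a ≠ ⊥)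
    (h : a < b) : Module.finrank k (S.Cbar ⧸ b) < Module.finrank k (S.Cbar ⧸ a) :=
  have := hgap.finite_quotient ha
  finrank_quotient_lt_of_lt h

/-- A proper nonzero ideal has positive codimension. -/
theorem GapBound.finrank_quotient_pos (hgap : S.GapBound n₀) {a : Ideal S.Cbar} (h0 : a ≠ ⊥)
    (h1 : a ≠ ⊤) : 0 < Module.finrank k (S.Cbar ⧸ a) := by
  have := hgap.finrank_quotient_lt h0 h1.lt_top
  omega

/-- A place with proper ideal reduces to a point of degree one. -/
theorem GapBound.effIdeal'_single_isMaximal (hgap : S.GapBound n₀) {v : Place K S.F}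
    (hv : S.effIdeal' (Finsupp.single v 1) ≠ ⊤) :
    (S.effIdeal' (Finsupp.single v 1)).IsMaximal ∧
      Module.finrank k (S.Cbar ⧸ S.effIdeal' (Finsupp.single v 1)) = 1 := by
  have hE : S.IsEff (Finsupp.single v 1) := isEff_single v zero_le_one
  have h0 := hgap.effIdeal'_ne_bot hE
  have h1 := hgap.finrank_quotient_pos h0 hv
  have h2 := hgap.finrank_quotient_effIdeal'_le hE
  rw [Divisor.degree_single, S.deg_one] at h2
  refine ⟨⟨⟨hv, fun b hb => ?_⟩⟩, by omega⟩
  by_contra hb1
  have := hgap.finrank_quotient_lt h0 hb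
  have := hgap.finrank_quotient_pos (ne_bot_of_le_ne_bot h0 hb.le) hb1
  omega

/-- Division by a normalised function with prescribed divisor. -/
theorem exists_red_div {E : Divisor K S.F} (_hE : S.IsEff E) {M : ℤ} {h : S.F} (hh : h ≠ 0)
    (hdiv : ∀ v, v.ord h = E v - S.atPt M v) {t : LaurentSeries k} (ht : t ≠ 0)
    (hht : Red A π (h : LaurentSeries K) t) {n : ℤ} {y : LaurentSeries K}
    (hy : y ∈ S.space (S.atPt n - E)) {x : LaurentSeries k} (hyx : Red A π y x) :
    ∃ q ∈ redSub S.surj (S.space (S.atPt (n - M))), x = t * q := by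
  obtain ⟨u, rfl, hu⟩ := S.exists_of_mem_space hy
  rcases eq_or_ne u 0 with rfl | hu0
  · refine ⟨0, Submodule.zero_mem _, ?_⟩
    rw [mul_zero]
    exact hyx.unique red_zero
  have hq : ((u / h : S.F) : LaurentSeries K) ∈ S.space (S.atPt (n - M)) := by
    refine S.coe_mem_space.mpr fun v => Or.inr ?_
    have h1 := (hu v).resolve_left hu0
    rw [FF.ord_div v hu0 hh, hdiv v]
    rw [Finsupp.sub_apply] at h1
    rw [sub_eq_add_neg n M, S.atPt_add, Finsupp.add_apply]
    have : S.atPt (-M) v = -S.atPt M v := by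
      rcases eq_or_ne v S.pt with rfl | hv
      · simp [atPt_self]
      · simp [atPt_of_ne, hv]
    omega
  have hhs : (h : LaurentSeries K) ≠ 0 := fun h0 => hh (Subtype.ext h0)
  have hus : (u : LaurentSeries K) ≠ 0 := fun h0 => hu0 (Subtype.ext h0)
  obtain ⟨c, hc, w, hw, hcw⟩ := S.normalizable_space (S.offNonpos_atPt _) _ hq
    (by push_cast; exact div_ne_zero hus hhs)
  have hmul : ((u / h : S.F) : LaurentSeries K) * (h : LaurentSeries K) =
      (u : LaurentSeries K) := by
    push_cast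
    exact div_mul_cancel₀ _ hhs
  obtain ⟨q, hq', hqe⟩ := red_of_mul S.surj hc hw hcw hht ht (by rw [hmul]; exact hyx)
  exact ⟨q, ⟨_, hq, hq'⟩, by rw [mul_comm, hqe]⟩

/-- The ideal of the divisor of zeros of a regular function is principal. -/
theorem effIdeal_eq_span {E : Divisor K S.F} (hE : S.IsEff E) {M : ℤ}
    {h : S.F} (hh : h ≠ 0) (hdiv : ∀ v, v.ord h = E v - S.atPt M v) {t : LaurentSeries k}
    (ht : t ≠ 0) (hht : Red A π (h : LaurentSeries K) t) :
    S.effIdeal E = Submodule.span S.Cbar {t} := by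
  have hmem : t ∈ S.effIdeal E := by
    refine ⟨M.toNat, (h : LaurentSeries K), S.coe_mem_space.mpr fun v => Or.inr ?_, hht⟩
    rw [hdiv v, Finsupp.sub_apply]
    rcases eq_or_ne v S.pt with rfl | hv
    · simp only [atPt_self]; omega
    · simp [atPt_of_ne, hv]
  refine le_antisymm (fun x hx => ?_) ((Submodule.span_singleton_le_iff_mem _ _).mpr hmem)
  obtain ⟨n, y, hy, hyx⟩ := mem_effIdeal.mp hx
  obtain ⟨q, hq, rfl⟩ := exists_red_div hE hh hdiv ht hht hy hyx
  obtain ⟨z, hz, hzq⟩ := hq
  have hqC : q ∈ S.Cbar :=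
    ⟨(((n : ℤ) - M)).toNat, z, S.space_atPt_mono (Int.self_le_toNat _) hz, hzq⟩
  refine Submodule.mem_span_singleton.mpr ⟨⟨q, hqC⟩, ?_⟩
  rw [Algebra.smul_def, mul_comm]
  rfl

/-- A cofactor turning `E` into the zero divisor of a normalised regular function. -/
theorem exists_cofactor {E : Divisor K S.F} (hE : S.IsEff E) :
    ∃ (R : Divisor K S.F) (M : ℕ) (h : S.F) (t : LaurentSeries k), S.IsEff R ∧ h ≠ 0 ∧ t ≠ 0 ∧
      Red A π (h : LaurentSeries K) t ∧ t ∈ S.Fbar ∧
      ∀ v, v.ord h = (E + R) v - S.atPt (M : ℤ) v := by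
  set M : ℕ := S.g + (Divisor.degree E).toNat with hM
  obtain ⟨t, ⟨y, hy, hyt⟩, ht⟩ := exists_ne_zero_mem_redSub (S := S) (hE.offNonpos (M : ℤ))
    (by rw [map_sub, S.degree_atPt]; omega)
  obtain ⟨h, rfl, hv⟩ := S.exists_of_mem_space hy
  have hh : h ≠ 0 := by
    rintro rfl
    exact ht (hyt.unique red_zero)
  obtain ⟨Eh, hEh, -⟩ := S.exists_div hh
  refine ⟨Eh + S.atPt (M : ℤ) - E, M, h, t, fun v => ?_, hh, ht, hyt,
    S.red_mem_Fbar (hE.offNonpos _) hy hyt, fun v => ?_⟩
  · have h1 := (hv v).resolve_left hh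
    rw [Finsupp.sub_apply] at h1
    rw [Finsupp.sub_apply, Finsupp.add_apply, hEh v]
    omega
  · rw [add_sub_cancel, Finsupp.add_apply, hEh v]
    ring

/-- **Invertibility.** -/
theorem GapBound.effIdeal_mul_cofactor (hgap : S.GapBound n₀) {E R : Divisor K S.F}
    (hE : S.IsEff E) (hR : S.IsEff R) {M : ℤ} {h : S.F} (hh : h ≠ 0)
    (hdiv : ∀ v, v.ord h = (E + R) v - S.atPt M v) {t : LaurentSeries k} (ht : t ≠ 0)
    (hht : Red A π (h : LaurentSeries K) t) :
    S.effIdeal E * S.effIdeal R = Submodule.span S.Cbar {t} := by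
  have hspan := effIdeal_eq_span (hE.add hR) hh hdiv ht hht
  refine le_antisymm ((effIdeal_mul_le E R).trans hspan.le)
    ((Submodule.span_singleton_le_iff_mem _ _).mpr ?_)
  have htC : t ∈ S.Cbar := mem_Cbar_of_mem_effIdeal (hE.add hR)
    (hspan.symm ▸ Submodule.mem_span_singleton_self t)
  set t' : S.Cbar := ⟨t, htC⟩ with ht'
  have ht'0 : t' ≠ 0 := fun h0 => ht (congrArg Subtype.val h0)
  set B : ℤ := (2 * n₀ + S.g + 1 : ℤ) + 2 * (Divisor.degree E + Divisor.degree R) + M.natAbs
    with hB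
  have hdE := degree_nonneg_of_isEff hE
  have hdR := degree_nonneg_of_isEff hR
  obtain ⟨xE, hxE, hxE0, ha0, ha⟩ := hgap.exists_max_pole hE (M := B) (by omega)
  obtain ⟨xR, hxR, hxR0, hb0, hb⟩ := hgap.exists_max_pole hR (M := B) (by omega)
  have hMdeg : M = Divisor.degree E + Divisor.degree R := by
    obtain ⟨Eh, hEh, hEhdeg⟩ := S.exists_div hh
    have : Eh = E + R - S.atPt M := Finsupp.ext fun v => by
      rw [hEh v, hdiv v, Finsupp.sub_apply]
    rw [this, map_sub, map_add, S.degree_atPt] at hEhdeg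
    omega
  have hpole : -(xE.order + xR.order) ≤ -t.order + (B + B - M) := by
    obtain ⟨y, hy, hyx⟩ := hxE
    obtain ⟨z, hz, hzx⟩ := hxR
    have hmem : y * z ∈ S.space (S.atPt (B + B) - (E + R)) := by
      rw [S.atPt_add, show S.atPt B + S.atPt B - (E + R) = S.atPt B - E + (S.atPt B - R) by abel]
      exact S.mul_mem_space hy hz
    obtain ⟨q, ⟨w, hw, hwq⟩, hq⟩ := exists_red_div (hE.add hR) hh hdiv ht hht hmem (hyx.mul hzx)
    have hq0 : q ≠ 0 := fun h0 => mul_ne_zero hxE0 hxR0 (by rw [hq, h0, mul_zero])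
    have h1 := hwq.poleLE (S.poleLE_space hw)
    rw [S.atPt_self, poleLE_iff_order hq0] at h1
    have h2 := congrArg HahnSeries.order hq
    rw [HahnSeries.order_mul hxE0 hxR0, HahnSeries.order_mul ht hq0] at h2
    omega
  have hle : S.effIdeal' E * S.effIdeal' R ≤ Ideal.span {t'} := by
    rw [Ideal.mul_le]
    intro a haE b hbR
    have h1 := (effIdeal_mul_le E R).trans hspan.le (Submodule.mul_mem_mul haE hbR)
    obtain ⟨c, hc⟩ := Submodule.mem_span_singleton.mp h1
    refine Ideal.mem_span_singleton.mpr ⟨c, Subtype.ext ?_⟩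
    show (a : LaurentSeries k) * (b : LaurentSeries k) = t * (c : LaurentSeries k)
    rw [mul_comm t]
    exact hc.symm
  have hab : S.effIdeal' E * S.effIdeal' R ≠ ⊥ := mul_ne_zero ha0 hb0
  have := hgap.finite_quotient hab
  have := hgap.finite_quotient (a := Ideal.span {t'}) (by simpa using ht'0)
  let ψ : (S.Cbar ⧸ S.effIdeal' E * S.effIdeal' R) →ₗ[k] (S.Cbar ⧸ Ideal.span {t'}) :=
    (Ideal.Quotient.factorₐ k hle).toLinearMap
  have hsurj : Function.Surjective ψ := fun e => by
    obtain ⟨c, rfl⟩ := Ideal.Quotient.mk_surjective e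
    exact ⟨Ideal.Quotient.mk _ c, rfl⟩
  have h1 := hgap.finrank_quotient_mul ha0 hb0
  have h2 : (Module.finrank k (S.Cbar ⧸ Ideal.span {t'}) : ℤ) = -t.order :=
    hgap.finrank_quotient_span ht'0
  have h3 : Module.finrank k (S.Cbar ⧸ Ideal.span {t'}) ≤
      Module.finrank k (S.Cbar ⧸ S.effIdeal' E * S.effIdeal' R) :=
    LinearMap.finrank_le_finrank_of_surjective hsurj
  have hinj : Function.Injective ψ :=
    (LinearMap.injective_iff_surjective_of_finrank_eq_finrank (by omega)).mpr hsurj
  have hmem : t' ∈ S.effIdeal' E * S.effIdeal' R := by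
    refine Ideal.Quotient.eq_zero_iff_mem.mp (hinj ?_)
    rw [map_zero]
    exact Ideal.Quotient.eq_zero_iff_mem.mpr (Ideal.mem_span_singleton_self t')
  suffices h : ∀ c ∈ S.effIdeal' E * S.effIdeal' R,
      (c : LaurentSeries k) ∈ S.effIdeal E * S.effIdeal R from h t' hmem
  intro c hc
  refine Submodule.mul_induction_on hc (fun a ha b hb => ?_) (fun a b ha hb => ?_)
  · rw [MulMemClass.coe_mul]
    exact Submodule.mul_mem_mul ha hb
  · rw [AddMemClass.coe_add]
    exact add_mem ha hb

theorem GapBound.exists_effUnit (hgap : S.GapBound n₀) {E : Divisor K S.F} (hE : S.IsEff E) :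
    ∃ u : (Submodule S.Cbar (LaurentSeries k))ˣ,
      (u : Submodule S.Cbar (LaurentSeries k)) = S.effIdeal E := by
  obtain ⟨R, M, h, t, hR, hh, ht, hht, -, hdiv⟩ := exists_cofactor hE
  have h1 : S.effIdeal E * (S.effIdeal R * Submodule.span S.Cbar {t⁻¹}) = 1 := by
    rw [← mul_assoc, hgap.effIdeal_mul_cofactor hE hR hh hdiv ht hht, Submodule.span_mul_span,
      Set.singleton_mul_singleton, mul_inv_cancel₀ ht, Submodule.one_eq_span]
  exact ⟨⟨_, _, h1, by rw [mul_comm]; exact h1⟩, rfl⟩

/-- **Additivity.** -/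
theorem GapBound.effIdeal_add (hgap : S.GapBound n₀) {E E' : Divisor K S.F} (hE : S.IsEff E)
    (hE' : S.IsEff E') : S.effIdeal (E + E') = S.effIdeal E * S.effIdeal E' := by
  refine le_antisymm ?_ (effIdeal_mul_le E E')
  obtain ⟨R, M, h, t, hR, hh, ht, hht, -, hdiv⟩ := exists_cofactor hE
  obtain ⟨R', M', h', t', hR', hh', ht', hht', -, hdiv'⟩ := exists_cofactor hE'
  have hsum : S.effIdeal (E + E' + (R + R')) = Submodule.span S.Cbar {t * t'} := by
    refine effIdeal_eq_span ((hE.add hE').add (hR.add hR')) (M := (M : ℤ) + M')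
      (mul_ne_zero hh hh') (fun v => ?_) (mul_ne_zero ht ht')
      (show Red A π ((h * h' : S.F) : LaurentSeries K) (t * t') by
        push_cast; exact hht.mul hht')
    rw [v.ord_mul hh hh', hdiv v, hdiv' v, S.atPt_add]
    simp only [Finsupp.add_apply]
    ring
  have h1 : S.effIdeal (E + E') * (S.effIdeal R * S.effIdeal R') ≤
      Submodule.span S.Cbar {t * t'} :=
    (mul_le_mul' le_rfl (effIdeal_mul_le R R')).trans ((effIdeal_mul_le _ _).trans hsum.le)
  have h2 : S.effIdeal R * S.effIdeal R' * (S.effIdeal E * S.effIdeal E' *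
      Submodule.span S.Cbar {(t * t')⁻¹}) = 1 := by
    calc S.effIdeal R * S.effIdeal R' * (S.effIdeal E * S.effIdeal E' *
          Submodule.span S.Cbar {(t * t')⁻¹})
        = (S.effIdeal E * S.effIdeal R) * (S.effIdeal E' * S.effIdeal R') *
            Submodule.span S.Cbar {(t * t')⁻¹} := by ac_rfl
      _ = 1 := by
        rw [hgap.effIdeal_mul_cofactor hE hR hh hdiv ht hht,
          hgap.effIdeal_mul_cofactor hE' hR' hh' hdiv' ht' hht', Submodule.span_mul_span,
          Set.singleton_mul_singleton, Submodule.span_mul_span, Set.singleton_mul_singleton,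
          mul_inv_cancel₀ (mul_ne_zero ht ht'), Submodule.one_eq_span]
  calc S.effIdeal (E + E')
      = S.effIdeal (E + E') * (S.effIdeal R * S.effIdeal R' * (S.effIdeal E * S.effIdeal E' *
          Submodule.span S.Cbar {(t * t')⁻¹})) := by rw [h2, mul_one]
    _ = S.effIdeal (E + E') * (S.effIdeal R * S.effIdeal R') * (S.effIdeal E * S.effIdeal E' *
          Submodule.span S.Cbar {(t * t')⁻¹}) := by rw [mul_assoc (S.effIdeal (E + E'))]
    _ ≤ Submodule.span S.Cbar {t * t'} * (S.effIdeal E * S.effIdeal E' *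
          Submodule.span S.Cbar {(t * t')⁻¹}) := mul_le_mul' h1 le_rfl
    _ = S.effIdeal E * S.effIdeal E' := by
        rw [mul_left_comm, Submodule.span_mul_span, Set.singleton_mul_singleton,
          mul_inv_cancel₀ (mul_ne_zero ht ht'), ← Submodule.one_eq_span, mul_one]

/-- **Additivity** of the ideals inside `Cbar`. -/
theorem GapBound.effIdeal'_add (hgap : S.GapBound n₀) {E E' : Divisor K S.F} (hE : S.IsEff E)
    (hE' : S.IsEff E') : S.effIdeal' (E + E') = S.effIdeal' E * S.effIdeal' E' := by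
  apply Submodule.map_injective_of_injective
    (f := Algebra.linearMap S.Cbar (LaurentSeries k)) Subtype.val_injective
  rw [map_effIdeal' (hE.add hE'), hgap.effIdeal_add hE hE', ← map_effIdeal' hE,
    ← map_effIdeal' hE']
  exact (Submodule.map_mul _ _ (Algebra.ofId S.Cbar (LaurentSeries k))).symm

variable (S) in
/-- The principal invertible modules. -/
def principalUnit : (S.Fbar)ˣ →* (Submodule S.Cbar (LaurentSeries k))ˣ where
  toFun x :=
    { val := Submodule.span S.Cbar {((x : S.Fbar) : LaurentSeries k)}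
      inv := Submodule.span S.Cbar {(((x⁻¹ : (S.Fbar)ˣ) : S.Fbar) : LaurentSeries k)}
      val_inv := by
        rw [Submodule.span_mul_span, Set.singleton_mul_singleton, ← MulMemClass.coe_mul,
          Units.mul_inv, OneMemClass.coe_one, Submodule.one_eq_span]
      inv_val := by
        rw [Submodule.span_mul_span, Set.singleton_mul_singleton, ← MulMemClass.coe_mul,
          Units.inv_mul, OneMemClass.coe_one, Submodule.one_eq_span] }
  map_one' := Units.ext (by
    show Submodule.span S.Cbar {(((1 : (S.Fbar)ˣ) : S.Fbar) : LaurentSeries k)} = 1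
    rw [Units.val_one, OneMemClass.coe_one, Submodule.one_eq_span])
  map_mul' x y := Units.ext (by
    show Submodule.span S.Cbar {(((x * y : (S.Fbar)ˣ) : S.Fbar) : LaurentSeries k)} =
      Submodule.span S.Cbar {((x : S.Fbar) : LaurentSeries k)} *
        Submodule.span S.Cbar {((y : S.Fbar) : LaurentSeries k)}
    rw [Units.val_mul, MulMemClass.coe_mul, Submodule.span_mul_span, Set.singleton_mul_singleton])

variable (S) in
/-- The target of the reduction: invertible modules modulo principal ones. -/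
abbrev PicBar := (Submodule S.Cbar (LaurentSeries k))ˣ ⧸ (principalUnit S).range

instance picBarCommGroup : CommGroup S.PicBar :=
  commGroupUnitsQuotient (M := Submodule S.Cbar (LaurentSeries k)) _

/-- The class of an invertible module. -/
def picClass (u : (Submodule S.Cbar (LaurentSeries k))ˣ) : Additive S.PicBar :=
  Additive.ofMul (QuotientGroup.mk u : S.PicBar)

theorem picClass_mul (u w : (Submodule S.Cbar (LaurentSeries k))ˣ) :
    S.picClass (u * w) = S.picClass u + S.picClass w := rfl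

theorem picClass_one : S.picClass 1 = 0 := rfl

theorem picClass_eq_zero_iff (u : (Submodule S.Cbar (LaurentSeries k))ˣ) :
    S.picClass u = 0 ↔ ∃ x ∈ S.Fbar, x ≠ 0 ∧
      (u : Submodule S.Cbar (LaurentSeries k)) = Submodule.span S.Cbar {x} := by
  show Additive.ofMul (QuotientGroup.mk u : S.PicBar) = 0 ↔ _
  rw [ofMul_eq_zero, show (1 : S.PicBar) = QuotientGroup.mk 1 from rfl, QuotientGroup.eq, mul_one,
    Subgroup.inv_mem_iff, MonoidHom.mem_range]
  constructor
  · rintro ⟨w, rfl⟩
    exact ⟨((w : S.Fbar) : LaurentSeries k), (w : S.Fbar).2,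
      fun h => w.ne_zero (Subtype.ext h), rfl⟩
  · rintro ⟨x, hx, hx0, he⟩
    exact ⟨Units.mk0 ⟨x, hx⟩ (fun h => hx0 (congrArg Subtype.val h)), Units.ext he.symm⟩

/-- The reduced class of a divisor. -/
def GapBound.classHom (hgap : S.GapBound n₀) : Divisor K S.F →+ Additive S.PicBar :=
  Finsupp.liftAddHom fun v => zmultiplesHom _
    (S.picClass (hgap.exists_effUnit (isEff_single v zero_le_one)).choose)

theorem GapBound.classHom_eff (hgap : S.GapBound n₀) {E : Divisor K S.F} (hE : S.IsEff E)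
    (u : (Submodule S.Cbar (LaurentSeries k))ˣ)
    (hu : (u : Submodule S.Cbar (LaurentSeries k)) = S.effIdeal E) :
    hgap.classHom E = S.picClass u := by
  classical
  induction E using Finsupp.induction generalizing u with
  | zero =>
    rw [map_zero, ← picClass_one]
    exact congrArg _ (Units.ext (by rw [hu, effIdeal_zero]; rfl)).symm
  | single_add v n E hv hn ih =>
    have hE' : S.IsEff E := fun w => by
      rcases eq_or_ne w v with rfl | hw
      · rw [Finsupp.notMem_support_iff.mp hv]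
      · have := hE w
        rwa [Finsupp.add_apply, Finsupp.single_apply, if_neg (Ne.symm hw), zero_add] at this
    have hn0 : 0 ≤ n := by
      have := hE v
      rwa [Finsupp.add_apply, Finsupp.single_eq_same, Finsupp.notMem_support_iff.mp hv,
        add_zero] at this
    obtain ⟨u', hu'⟩ := hgap.exists_effUnit hE'
    lift n to ℕ using hn0
    have hs : ∀ (j : ℕ) (w : (Submodule S.Cbar (LaurentSeries k))ˣ),
        (w : Submodule S.Cbar (LaurentSeries k)) = S.effIdeal (Finsupp.single v (j : ℤ)) →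
        hgap.classHom (Finsupp.single v (j : ℤ)) = S.picClass w := by
      intro j
      induction j with
      | zero =>
        intro w hw
        rw [Nat.cast_zero, Finsupp.single_zero, map_zero, ← picClass_one]
        exact congrArg _ (Units.ext (by
          rw [hw, Nat.cast_zero, Finsupp.single_zero, effIdeal_zero]; rfl)).symm
      | succ j ihj =>
        intro w hw
        obtain ⟨wj, hwj⟩ := hgap.exists_effUnit (isEff_single v (Int.natCast_nonneg j))
        set w1 := (hgap.exists_effUnit (isEff_single (S := S) v zero_le_one)).choose with hw1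
        have hspec := (hgap.exists_effUnit (isEff_single (S := S) v zero_le_one)).choose_spec
        have hweq : w = wj * w1 := Units.ext (by
          rw [hw, Units.val_mul, hwj, hspec, Nat.cast_succ, Finsupp.single_add,
            hgap.effIdeal_add (isEff_single v (Int.natCast_nonneg j))
              (isEff_single v zero_le_one)])
        rw [Nat.cast_succ, Finsupp.single_add, map_add, ihj wj hwj, hweq, picClass_mul]
        congr 1
        simp [GapBound.classHom, hw1]
    obtain ⟨w, hw⟩ := hgap.exists_effUnit (isEff_single (S := S) v (Int.natCast_nonneg n))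
    have hueq : u = w * u' := Units.ext (by
      rw [hu, Units.val_mul, hw, hu',
        hgap.effIdeal_add (isEff_single v (Int.natCast_nonneg n)) hE'])
    rw [map_add, hs n w hw, ih hE' u' hu', hueq, picClass_mul]

theorem GapBound.classHom_eq_zero_of_div (hgap : S.GapBound n₀) {E : Divisor K S.F}
    (hE : S.IsEff E) {M : ℤ} {h : S.F} (hh : h ≠ 0)
    (hdiv : ∀ v, v.ord h = E v - S.atPt M v) : hgap.classHom E = 0 := by
  have hreg : ∀ v, v ≠ S.pt → 0 ≤ v.ord h := fun v hv => by
    rw [hdiv v, S.atPt_of_ne _ hv, sub_zero]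
    exact hE v
  obtain ⟨c, hc, t, ht, hct⟩ := S.normalizable h hreg hh
  set h' : S.F := algebraMap K S.F c * h with hh'
  have hh'0 : h' ≠ 0 := mul_ne_zero ((map_ne_zero _).mpr hc) hh
  have hred : Red A π (h' : LaurentSeries K) t := by
    rw [hh']
    push_cast
    rw [← smul_eq_algebraMap_mul]
    exact hct
  have hdiv' : ∀ v, v.ord h' = E v - S.atPt M v := fun v => by
    rw [hh', v.ord_mul ((map_ne_zero _).mpr hc) hh, FF.ord_algebraMap, zero_add, hdiv v]
  obtain ⟨u, hu⟩ := hgap.exists_effUnit hE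
  rw [hgap.classHom_eff hE u hu, picClass_eq_zero_iff]
  exact ⟨t, S.red_mem h' (fun v hv => by rw [hdiv' v, ← hdiv v]; exact hreg v hv) t hred, ht,
    hu.trans (effIdeal_eq_span hE hh'0 hdiv' ht hred)⟩

theorem GapBound.classHom_pt (hgap : S.GapBound n₀) :
    hgap.classHom (Finsupp.single S.pt 1) = 0 :=
  hgap.classHom_eq_zero_of_div (isEff_single S.pt zero_le_one) (M := 1) one_ne_zero
    (fun v => by rw [v.ord_one]; exact (sub_self _).symm)

theorem GapBound.classHom_atPt (hgap : S.GapBound n₀) (n : ℤ) :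
    hgap.classHom (S.atPt n) = 0 := by
  rw [atPt, show Finsupp.single S.pt n = n • Finsupp.single S.pt (1 : ℤ) by simp, map_zsmul,
    hgap.classHom_pt, smul_zero]

/-- Every divisor becomes effective minus a multiple of `q = 0` after a linear equivalence. -/
theorem exists_eff_equiv (D : Divisor K S.F) :
    ∃ (b : S.F) (P Q : Divisor K S.F) (M : ℤ), b ≠ 0 ∧ S.IsEff P ∧ S.IsEff Q ∧ D = P - Q ∧
      ∀ v, v.ord b = Q v - S.atPt M v := by
  set N : Divisor K S.F := D.mapRange (fun x => max (-x) 0) (by simp) with hN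
  have hNeff : S.IsEff N := fun v => by simp [hN]
  obtain ⟨R, M, b, t, hR, hb, -, -, -, hdiv⟩ := exists_cofactor hNeff
  refine ⟨b, D + (N + R), N + R, M, hb, fun v => ?_, hNeff.add hR,
    (add_sub_cancel_right D (N + R)).symm, hdiv⟩
  rw [Finsupp.add_apply, Finsupp.add_apply, hN, Finsupp.mapRange_apply]
  have := hR v
  omega

theorem GapBound.classHom_principal (hgap : S.GapBound n₀) {D : Divisor K S.F}
    (hD : D ∈ Divisor.principal (K := K) (F := S.F)) : hgap.classHom D = 0 := by
  obtain ⟨f, hf, hDf⟩ := hD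
  obtain ⟨b, P, Q, M, hb, hP, hQ, hDPQ, hdiv⟩ := exists_eff_equiv (S := S) D
  have hP0 : hgap.classHom P = 0 :=
    hgap.classHom_eq_zero_of_div hP (M := M) (mul_ne_zero hf hb) (fun v => by
      rw [v.ord_mul hf hb, ← hDf v, hdiv v, hDPQ, Finsupp.sub_apply]
      ring)
  rw [hDPQ, map_sub, hP0, hgap.classHom_eq_zero_of_div hQ hb hdiv, sub_zero]

/-- The reduction map on divisor classes. -/
def GapBound.sp (hgap : S.GapBound n₀) : Pic0 K S.F →+ Additive S.PicBar :=
  QuotientAddGroup.lift _ (hgap.classHom.comp (Divisor.degZero (K := K) (F := S.F)).subtype)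
    (fun _ hD => hgap.classHom_principal (AddSubgroup.mem_addSubgroupOf.mp hD))

theorem GapBound.sp_mk (hgap : S.GapBound n₀) (D : Divisor.degZero (K := K) (F := S.F)) :
    hgap.sp (Pic0.mk D) = hgap.classHom (D : Divisor K S.F) := rfl

theorem GapBound.effIdeal_nsmul (hgap : S.GapBound n₀) {E : Divisor K S.F} (hE : S.IsEff E)
    (m : ℕ) : S.effIdeal ((m : ℤ) • E) = S.effIdeal E ^ m := by
  induction m with
  | zero => simpa using effIdeal_zero (S := S)
  | succ m ih =>
    have hmE : S.IsEff ((m : ℤ) • E) := fun v => by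
      rw [Finsupp.smul_apply]
      exact smul_nonneg (Int.natCast_nonneg m) (hE v)
    rw [Nat.cast_succ, add_smul, one_smul, hgap.effIdeal_add hmE hE, ih, pow_succ]

/-- **Reduction is injective on torsion of order invertible in `k`.** -/
theorem GapBound.sp_injective_torsion [IsAlgClosed K] (hgap : S.GapBound n₀) {m : ℕ}
    (hm : (m : k) ≠ 0) {z : Pic0 K S.F} (hmz : m • z = 0) (hz : hgap.sp z = 0) : z = 0 := by
  obtain ⟨⟨D, hD⟩, rfl⟩ := Pic0.mk_surjective z
  rw [hgap.sp_mk] at hz
  have hprin : (m : ℤ) • D ∈ Divisor.principal (K := K) (F := S.F) := by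
    have h1 : (m • (⟨D, hD⟩ : Divisor.degZero (K := K) (F := S.F))) ∈
        (Divisor.principal (K := K) (F := S.F)).addSubgroupOf
          (Divisor.degZero (K := K) (F := S.F)) :=
      (QuotientAddGroup.eq_zero_iff _).mp hmz
    rw [AddSubgroup.mem_addSubgroupOf, AddSubgroupClass.coe_nsmul] at h1
    rwa [natCast_zsmul]
  obtain ⟨f, hf, hDf⟩ := hprin
  obtain ⟨b, P, Q, M, hb, hP, hQ, hDPQ, hdiv⟩ := exists_eff_equiv (S := S) D
  -- the class of `P` is trivial
  have hPz : hgap.classHom P = 0 := by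
    have hQ0 := hgap.classHom_eq_zero_of_div hQ hb hdiv
    have hz' : hgap.classHom D = 0 := hz
    rwa [hDPQ, map_sub, hQ0, sub_zero] at hz'
  obtain ⟨u, hu⟩ := hgap.exists_effUnit hP
  rw [hgap.classHom_eff hP u hu, picClass_eq_zero_iff, hu] at hPz
  obtain ⟨x, hxF, hx0, hPx⟩ := hPz
  set h₀ : S.F := f * b ^ m with hh₀
  have hh₀0 : h₀ ≠ 0 := mul_ne_zero hf (pow_ne_zero m hb)
  have hdiv₀ : ∀ v, v.ord h₀ = ((m : ℤ) • P) v - S.atPt ((m : ℤ) * M) v := fun v => by
    rw [hh₀, v.ord_mul hf (pow_ne_zero m hb), FF.ord_pow, ← hDf v, hdiv v, Finsupp.smul_apply,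
      Finsupp.smul_apply, hDPQ, Finsupp.sub_apply, atPt, atPt, ← smul_eq_mul (a := (m : ℤ)) (b :=
          M),
      ← Finsupp.smul_single, Finsupp.smul_apply]
    simp only [smul_eq_mul]
    ring
  have hmP : S.IsEff ((m : ℤ) • P) := fun v => by
    rw [Finsupp.smul_apply]
    exact smul_nonneg (Int.natCast_nonneg m) (hP v)
  have hreg : ∀ v, v ≠ S.pt → 0 ≤ v.ord h₀ := fun v hv => by
    rw [hdiv₀ v, S.atPt_of_ne _ hv, sub_zero]
    exact hmP v
  obtain ⟨c, hc, t, ht, hct⟩ := S.normalizable h₀ hreg hh₀0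
  set h₁ : S.F := algebraMap K S.F c * h₀ with hh₁
  have hh₁0 : h₁ ≠ 0 := mul_ne_zero ((map_ne_zero _).mpr hc) hh₀0
  have hred₁ : Red A π (h₁ : LaurentSeries K) t := by
    rw [hh₁]
    push_cast
    rw [← smul_eq_algebraMap_mul]
    exact hct
  have hdiv₁ : ∀ v, v.ord h₁ = ((m : ℤ) • P) v - S.atPt ((m : ℤ) * M) v := fun v => by
    rw [hh₁, v.ord_mul ((map_ne_zero _).mpr hc) hh₀0, FF.ord_algebraMap, zero_add, hdiv₀ v]
  have hspan := effIdeal_eq_span hmP hh₁0 hdiv₁ ht hred₁
  rw [hgap.effIdeal_nsmul hP, hPx, Submodule.span_pow, Set.singleton_pow] at hspan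
  obtain ⟨a, ha⟩ := Submodule.mem_span_singleton.mp
    (hspan ▸ Submodule.mem_span_singleton_self (x ^ m) : x ^ m ∈ Submodule.span S.Cbar {t})
  obtain ⟨e, he⟩ := Submodule.mem_span_singleton.mp
    (hspan.symm ▸ Submodule.mem_span_singleton_self t : t ∈ Submodule.span S.Cbar {x ^ m})
  rw [Algebra.smul_def] at ha he
  have hab : (a : LaurentSeries k) * (e : LaurentSeries k) = 1 := by
    refine mul_right_cancel₀ ht ?_
    rw [one_mul, mul_comm (a : LaurentSeries k), mul_assoc]
    exact (congrArg ((e : LaurentSeries k) * ·) ha).trans he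
  obtain ⟨r, hr0, hr⟩ := hgap.const_of_mul_eq_one a.2 e.2 hab
  obtain ⟨r', rfl⟩ := S.surj r
  have hr'0 : ((r' : A) : K) ≠ 0 := fun h => hr0 (by rw [show r' = 0 from Subtype.ext h, map_zero])
  set h₂ : S.F := algebraMap K S.F (r' : K) * h₁ with hh₂
  have hh₂0 : h₂ ≠ 0 := mul_ne_zero ((map_ne_zero _).mpr hr'0) hh₁0
  have hred : Red A π (h₂ : LaurentSeries K) (x ^ m) := by
    rw [← ha]
    show Red A π (h₂ : LaurentSeries K) ((a : LaurentSeries k) * t)
    rw [hr, hh₂]
    push_cast
    rw [← smul_eq_algebraMap_mul, ← smul_eq_algebraMap_mul]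
    exact hred₁.smul r'
  have hdegP : Divisor.degree P = M := by
    obtain ⟨Eb, hEb, hEbdeg⟩ := S.exists_div hb
    have hQd : Eb = Q - S.atPt M := Finsupp.ext fun v => by
      rw [hEb v, hdiv v, Finsupp.sub_apply]
    rw [hQd, map_sub, S.degree_atPt] at hEbdeg
    have := Divisor.mem_degZero.mp hD
    rw [hDPQ, map_sub] at this
    omega
  have hmain := hgap.isPrincipal_of_nsmul hm (D := S.atPt M - P)
    (by rw [map_sub, S.degree_atPt, hdegP, sub_self])
    (fun v hv => by
      rw [Finsupp.sub_apply, S.atPt_of_ne _ hv]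
      have := hP v
      omega)
    hh₂0 (fun v => by
      rw [hh₂, v.ord_mul ((map_ne_zero _).mpr hr'0) hh₁0, FF.ord_algebraMap, zero_add, hdiv₁ v,
        Finsupp.sub_apply, Finsupp.smul_apply, atPt, atPt,
        ← smul_eq_mul (a := (m : ℤ)) (b := M), ← Finsupp.smul_single, Finsupp.smul_apply]
      simp only [smul_eq_mul]
      ring)
    hxF hx0 hred
  obtain ⟨g, hg, hgdiv⟩ := hmain
  refine (QuotientAddGroup.eq_zero_iff _).mpr (AddSubgroup.mem_addSubgroupOf.mpr ?_)
  refine ⟨(g * b)⁻¹, inv_ne_zero (mul_ne_zero hg hb), fun v => ?_⟩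
  rw [v.ord_inv, v.ord_mul hg hb, ← hgdiv v, hdiv v, Finsupp.sub_apply]
  show D v = _
  rw [hDPQ, Finsupp.sub_apply]
  ring

end CurveRed

end Fermat.Agent.Reduction
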