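import Fermat.Agent.Reduction.Series

/-!
# Lattices in finite dimensional spaces of series

If every nonzero element of a finite dimensional space `V` of series can be normalised (scaled to
an integral series with nonzero reduction), then the space `redSub A π V` of reductions has the
same dimension as `V`, and coefficient functionals which separate `V` bound all coefficients.
-/

set_option autoImplicit false

noncomputable section

namespace Fermat.Agent.Reduction

open HahnSeries

variable {K k : Type*} [Field K] [Field k] (A : ValuationSubring K) (π : A →+* k)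

/-- A series can be scaled to an integral one with nonzero reduction. -/
def Normalizable (y : LaurentSeries K) : Prop :=
  ∃ c : K, c ≠ 0 ∧ ∃ x : LaurentSeries k, x ≠ 0 ∧ Red A π (c • y) x

/-- All nonzero elements of `V` can be normalised. -/
def NormalizableSub (V : Submodule K (LaurentSeries K)) : Prop :=
  ∀ y ∈ V, y ≠ 0 → Normalizable A π y

variable {A π}

theorem NormalizableSub.mono {V W : Submodule K (LaurentSeries K)} (h : NormalizableSub A π W)
    (hle : V ≤ W) : NormalizableSub A π V := fun y hy => h y (hle hy)

/-- The set of reductions of the integral elements of `V`, as a `k`-subspace. -/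
def redSub (hπ : Function.Surjective π) (V : Submodule K (LaurentSeries K)) :
    Submodule k (LaurentSeries k) where
  carrier := {x | ∃ y ∈ V, Red A π y x}
  zero_mem' := ⟨0, V.zero_mem, red_zero⟩
  add_mem' := fun {a b} ⟨y, hy, hya⟩ ⟨z, hz, hzb⟩ => ⟨y + z, V.add_mem hy hz, hya.add hzb⟩
  smul_mem' := fun c x ⟨y, hy, hyx⟩ => by
    obtain ⟨a, rfl⟩ := hπ c
    exact ⟨(a : K) • y, V.smul_mem _ hy, hyx.smul a⟩

theorem mem_redSub {hπ : Function.Surjective π} {V : Submodule K (LaurentSeries K)}
    {x : LaurentSeries k} : x ∈ redSub hπ V ↔ ∃ y ∈ V, Red A π y x := Iff.rfl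

theorem redSub_mono (hπ : Function.Surjective π) {V W : Submodule K (LaurentSeries K)}
    (h : V ≤ W) : redSub hπ V ≤ redSub hπ W :=
  fun _ ⟨y, hy, hx⟩ => ⟨y, h hy, hx⟩

/-- Normalisation of an element inside a submodule. -/
theorem NormalizableSub.exists_red {V : Submodule K (LaurentSeries K)}
    (h : NormalizableSub A π V) {y : LaurentSeries K} (hy : y ∈ V) (hy0 : y ≠ 0) :
    ∃ c : K, c ≠ 0 ∧ ∃ x : LaurentSeries k, x ≠ 0 ∧ c • y ∈ V ∧ Red A π (c • y) x := by
  obtain ⟨c, hc, x, hx, hred⟩ := h y hy hy0
  exact ⟨c, hc, x, hx, V.smul_mem c hy, hred⟩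

theorem exists_max_valuation {ι : Type*} [Fintype ι] [Nonempty ι] (c : ι → K) :
    ∃ i, ∀ j, A.valuation (c j) ≤ A.valuation (c i) :=
  Finite.exists_max fun i => A.valuation (c i)

/-- A family with linearly independent reductions is linearly independent. -/
theorem linearIndependent_of_red (_hπ : Function.Surjective π) {ι : Type*} [Finite ι]
    {y : ι → LaurentSeries K} {x : ι → LaurentSeries k} (hr : ∀ i, Red A π (y i) (x i))
    (hli : LinearIndependent k x) : LinearIndependent K y := by
  classical
  cases nonempty_fintype ι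
  rw [Fintype.linearIndependent_iff]
  intro g hg j
  by_contra hj
  have : Nonempty ι := ⟨j⟩
  obtain ⟨i, hi⟩ := exists_max_valuation (A := A) g
  have hgi : g i ≠ 0 := by
    intro h0
    have := hi j
    rw [h0, map_zero] at this
    exact hj ((map_eq_zero A.valuation).mp (le_antisymm this zero_le))
  have hmem : ∀ l, g l / g i ∈ A := fun l => by
    rw [← ValuationSubring.valuation_le_one_iff, map_div₀]
    exact (div_le_one₀ (zero_lt_iff.mpr ((A.valuation.ne_zero_iff).mpr hgi))).mpr (hi l)
  have hsum : Red A π (∑ l, ((⟨_, hmem l⟩ : A) : K) • y l)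
      (∑ l, π ⟨_, hmem l⟩ • x l) :=
    Red.sum Finset.univ fun l _ => (hr l).smul _
  have h0 : (∑ l, ((⟨_, hmem l⟩ : A) : K) • y l) = 0 := by
    have : (g i)⁻¹ • ∑ l, g l • y l = 0 := by rw [hg, smul_zero]
    rw [Finset.smul_sum] at this
    refine Eq.trans (Finset.sum_congr rfl fun l _ => ?_) this
    rw [smul_smul]
    exact congrArg (· • y l) (div_eq_inv_mul _ _)
  rw [h0] at hsum
  have hx0 := hsum.unique red_zero
  have h1 := (Fintype.linearIndependent_iff.mp hli) _ hx0 i
  have hii : (⟨g i / g i, hmem i⟩ : A) = 1 := Subtype.ext (div_self hgi)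
  rw [hii, map_one] at h1
  exact one_ne_zero h1

theorem finiteDimensional_redSub (hπ : Function.Surjective π)
    (V : Submodule K (LaurentSeries K)) [FiniteDimensional K V] :
    FiniteDimensional k (redSub hπ V) ∧
      Module.finrank k (redSub hπ V) ≤ Module.finrank K V := by
  have key : ∀ (s : Finset (redSub hπ V)), LinearIndependent k (fun i : s => (i : redSub hπ V)) →
      s.card ≤ Module.finrank K V := by
    intro s hs
    have hs' : LinearIndependent k (fun i : s => ((i : redSub hπ V) : LaurentSeries k)) :=
      hs.map' (redSub hπ V).subtype (Submodule.ker_subtype _)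
    choose y hy hyx using fun i : s => (i : redSub hπ V).2
    have hli : LinearIndependent K y := linearIndependent_of_red hπ hyx hs'
    have hli' : LinearIndependent K (fun i : s => (⟨y i, hy i⟩ : V)) :=
      LinearIndependent.of_comp V.subtype hli
    simpa using hli'.fintype_card_le_finrank
  have hrank : Module.rank k (redSub hπ V) ≤ (Module.finrank K V : Cardinal) :=
    rank_le key
  have hfin : FiniteDimensional k (redSub hπ V) :=
    Module.rank_lt_aleph0_iff.mp (hrank.trans_lt (Cardinal.natCast_lt_aleph0))
  refine ⟨hfin, ?_⟩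
  have := hfin
  rw [← Module.finrank_eq_rank] at hrank
  exact_mod_cast hrank

/-- The kernel of a coefficient functional on `V`. -/
def coeffKer (V : Submodule K (LaurentSeries K)) (i : ℤ) : Submodule K (LaurentSeries K) where
  carrier := {y | y ∈ V ∧ y.coeff i = 0}
  zero_mem' := ⟨V.zero_mem, rfl⟩
  add_mem' := fun {a b} ha hb => ⟨V.add_mem ha.1 hb.1, by
    rw [HahnSeries.coeff_add, ha.2, hb.2, add_zero]⟩
  smul_mem' := fun c y hy => ⟨V.smul_mem c hy.1, by rw [coeff_smulC, hy.2, mul_zero]⟩

theorem mem_coeffKer {V : Submodule K (LaurentSeries K)} {i : ℤ} {y : LaurentSeries K} :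
    y ∈ coeffKer V i ↔ y ∈ V ∧ y.coeff i = 0 := Iff.rfl

theorem coeffKer_le (V : Submodule K (LaurentSeries K)) (i : ℤ) : coeffKer V i ≤ V :=
  fun _ h => h.1

theorem sub_smul_mem_coeffKer {V : Submodule K (LaurentSeries K)} {i : ℤ}
    {v y : LaurentSeries K} (hv : v ∈ V) (hvi : v.coeff i ≠ 0) (hy : y ∈ V) :
    y - (y.coeff i / v.coeff i) • v ∈ coeffKer V i := by
  refine ⟨V.sub_mem hy (V.smul_mem _ hv), ?_⟩
  rw [HahnSeries.coeff_sub, coeff_smulC, div_mul_cancel₀ _ hvi, sub_self]

theorem finrank_coeffKer_lt {V : Submodule K (LaurentSeries K)} [FiniteDimensional K V] {i : ℤ}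
    {v : LaurentSeries K} (hv : v ∈ V) (hvi : v.coeff i ≠ 0) :
    Module.finrank K (coeffKer V i) + 1 = Module.finrank K V := by
  let f : V →ₗ[K] K :=
    { toFun := fun y => (y : LaurentSeries K).coeff i
      map_add' := fun a b => by simp
      map_smul' := fun c a => by simp }
  have hker : Module.finrank K (LinearMap.ker f) = Module.finrank K (coeffKer V i) := by
    have : (LinearMap.ker f).map V.subtype = coeffKer V i := by
      ext y
      simp [f, mem_coeffKer, and_comm]
    rw [← this, Submodule.finrank_map_subtype_eq]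
  have hsurj : LinearMap.range f = ⊤ := by
    refine LinearMap.range_eq_top.mpr fun c => ?_
    refine ⟨(c / v.coeff i) • ⟨v, hv⟩, ?_⟩
    simp [f, div_mul_cancel₀ _ hvi]
  have := f.finrank_range_add_finrank_ker
  rw [hsurj, finrank_top, Module.finrank_self, hker] at this
  omega

/-- **Reduction preserves dimension.** -/
theorem finrank_redSub (hπ : Function.Surjective π) (V : Submodule K (LaurentSeries K))
    [FiniteDimensional K V] (hV : NormalizableSub A π V) :
    Module.finrank k (redSub hπ V) = Module.finrank K V := by
  refine le_antisymm (finiteDimensional_redSub hπ V).2 ?_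
  induction hd : Module.finrank K V using Nat.strong_induction_on generalizing V with
  | _ d ih =>
    rcases eq_or_ne V ⊥ with hbot | hne
    · have hd0 : d = 0 := by rw [← hd, hbot, finrank_bot]
      omega
    · obtain ⟨y, hy, hy0⟩ := Submodule.exists_mem_ne_zero_of_ne_bot hne
      obtain ⟨c, _, x, hx0, hcy, hred⟩ := hV.exists_red hy hy0
      set v := c • y with hvdef
      obtain ⟨i, hi⟩ : ∃ i, x.coeff i ≠ 0 := by
        by_contra hall
        push Not at hall
        exact hx0 (HahnSeries.ext (funext hall))
      have hvi : v.coeff i ≠ 0 := by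
        intro h0
        have h1 := hred.coeff_valuation_eq_one hπ hi
        rw [h0, map_zero] at h1
        exact zero_ne_one h1
      have hlt := finrank_coeffKer_lt hcy hvi
      have : FiniteDimensional K (coeffKer V i) :=
        Submodule.finiteDimensional_of_le (coeffKer_le V i)
      have hih := ih _ (by omega) (coeffKer V i) (hV.mono (coeffKer_le V i)) rfl
      have := (finiteDimensional_redSub hπ V).1
      have hle : redSub hπ (coeffKer V i) < redSub hπ V := by
        refine lt_of_le_of_ne (redSub_mono hπ (coeffKer_le V i)) fun heq => ?_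
        have hxmem : x ∈ redSub hπ (coeffKer V i) := heq ▸ ⟨v, hcy, hred⟩
        obtain ⟨z, hz, hzx⟩ := hxmem
        obtain ⟨hzi, hπz⟩ := hzx i
        have : (⟨z.coeff i, hzi⟩ : A) = 0 := Subtype.ext hz.2
        rw [this, map_zero] at hπz
        exact hi hπz.symm
      have := Submodule.finrank_lt_finrank_of_lt hle
      omega

/-- **Coefficient bound**: if the coefficients in the set `s` separate `V`, they bound all
coefficients, uniformly on `V`. -/
theorem exists_valuation_bound (s : Set ℤ) (V : Submodule K (LaurentSeries K))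
    [FiniteDimensional K V] (hV : NormalizableSub A π V)
    (hsep : ∀ y ∈ V, (∀ i ∈ s, y.coeff i = 0) → y = 0) :
    ∃ B : A.ValueGroup, B ≠ 0 ∧ ∀ y ∈ V, ∀ r : A.ValueGroup,
      (∀ i ∈ s, A.valuation (y.coeff i) ≤ r) → ∀ j, A.valuation (y.coeff j) ≤ B * r := by
  induction hd : Module.finrank K V using Nat.strong_induction_on generalizing V with
  | _ d ih =>
    rcases eq_or_ne V ⊥ with hbot | hne
    · refine ⟨1, one_ne_zero, fun y hy r _ j => ?_⟩
      rw [hbot, Submodule.mem_bot] at hy
      simp [hy]
    · obtain ⟨v, hv, hv0⟩ := Submodule.exists_mem_ne_zero_of_ne_bot hne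
      obtain ⟨i, his, hvi⟩ : ∃ i ∈ s, v.coeff i ≠ 0 := by
        by_contra hall
        push Not at hall
        exact hv0 (hsep v hv hall)
      have hlt := finrank_coeffKer_lt hv hvi
      have : FiniteDimensional K (coeffKer V i) :=
        Submodule.finiteDimensional_of_le (coeffKer_le V i)
      obtain ⟨B', hB'0, hB'⟩ := ih _ (by omega) (coeffKer V i) (hV.mono (coeffKer_le V i))
        (fun y hy h => hsep y hy.1 h) rfl
      obtain ⟨c, hc, x, _, hred⟩ := hV v hv hv0
      -- all coefficients of `v` are bounded by `M`
      set M : A.ValueGroup := (A.valuation c)⁻¹ with hM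
      have hM0 : M ≠ 0 := inv_ne_zero ((A.valuation.ne_zero_iff).mpr hc)
      have hvM : ∀ j, A.valuation (v.coeff j) ≤ M := fun j => by
        have h1 := (ValuationSubring.valuation_le_one_iff _ _).mpr (hred.coeff_mem j)
        rw [coeff_smulC, map_mul] at h1
        rw [hM, ← one_div, le_div_iff₀ (zero_lt_iff.mpr ((A.valuation.ne_zero_iff).mpr hc)),
          mul_comm]
        exact h1
      have hvi0 : A.valuation (v.coeff i) ≠ 0 := (A.valuation.ne_zero_iff).mpr hvi
      set Q : A.ValueGroup := M / A.valuation (v.coeff i) with hQ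
      refine ⟨max (B' * max 1 Q) Q, fun h0 => ?_, fun y hy r hr j => ?_⟩
      · rcases max_choice (B' * max 1 Q) Q with h | h <;> rw [h] at h0
        · rcases mul_eq_zero.mp h0 with h' | h'
          · exact hB'0 h'
          · exact absurd (h' ▸ le_max_left (1 : A.ValueGroup) Q) (not_le.mpr zero_lt_one)
        · exact div_ne_zero hM0 hvi0 h0
      · set a : K := y.coeff i / v.coeff i with ha
        have hav : ∀ l, A.valuation ((a • v).coeff l) ≤ Q * r := fun l => by
          rw [coeff_smulC, map_mul, ha, map_div₀, hQ]
          calc A.valuation (y.coeff i) / A.valuation (v.coeff i) * A.valuation (v.coeff l)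
              ≤ r / A.valuation (v.coeff i) * M := by
                refine mul_le_mul' ?_ (hvM l)
                exact div_le_div_of_nonneg_right (hr i his) zero_le
            _ = M / A.valuation (v.coeff i) * r := by rw [div_mul_eq_mul_div, mul_comm r M,
                mul_div_right_comm]
        have hy' := sub_smul_mem_coeffKer hv hvi hy
        have hr' : ∀ l ∈ s, A.valuation ((y - a • v).coeff l) ≤ max 1 Q * r := fun l hl => by
          rw [HahnSeries.coeff_sub]
          refine (A.valuation.map_sub _ _).trans (max_le ?_ ?_)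
          · exact (hr l hl).trans (le_mul_of_one_le_left zero_le (le_max_left _ _))
          · exact (hav l).trans (mul_le_mul' (le_max_right _ _) le_rfl)
        have h1 := hB' _ hy' (max 1 Q * r) hr' j
        have heq : y.coeff j = (y - a • v).coeff j + (a • v).coeff j := by
          rw [HahnSeries.coeff_sub, sub_add_cancel]
        rw [heq]
        refine (A.valuation.map_add _ _).trans (max_le ?_ ?_)
        · rw [← mul_assoc] at h1
          exact h1.trans (mul_le_mul' (le_max_left _ _) le_rfl)
        · exact (hav j).trans (mul_le_mul' (le_max_right _ _) le_rfl)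

end Fermat.Agent.Reduction
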