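import Fermat.Agent.Reduction.Transport

/-!
# Mutually inverse symmetries act as inverse maps on reduced classes

`Symm.picMap_picMap` and `Symm.picMap_eq_self`: the action `picMap` of symmetries on reduced
classes respects inverse pairs and sends a trivial symmetry to the identity.
-/

set_option autoImplicit false

noncomputable section

namespace Fermat.Agent.Reduction.CurveRed

variable {K k : Type*} [Field K] [Field k] {A : ValuationSubring K} {π : A →+* k}
variable {S : CurveRed A π}

theorem Symm.mapMod_mapMod (Φ Ψ : S.Symm) (h : ∀ x, Φ.toRingHom (Ψ.toRingHom x) = x)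
    (I : Submodule S.Cbar (LaurentSeries k)) : Φ.mapMod (Ψ.mapMod I) = I := by
  refine le_antisymm (Submodule.span_le.mpr ?_) fun x hx => ?_
  · rintro _ ⟨y, hy, rfl⟩
    refine Submodule.span_induction (p := fun y _ => Φ.toRingHom y ∈ I) ?_ ?_ ?_ ?_ hy
    · rintro _ ⟨x, hx, rfl⟩
      rwa [h]
    · rw [map_zero]
      exact I.zero_mem
    · intro a b _ _ ha hb
      rw [map_add]
      exact I.add_mem ha hb
    · intro c a _ ha
      rw [Algebra.smul_def, map_mul]
      have h1 := I.smul_mem (⟨_, Φ.map_Cbar _ c.2⟩ : S.Cbar) ha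
      rwa [Algebra.smul_def] at h1
  · rw [← h x]
    exact Φ.mem_mapMod (Ψ.mem_mapMod hx)

/-- Inverse symmetries are inverse on classes. -/
theorem Symm.picMap_picMap (Φ Ψ : S.Symm) (h : ∀ x, Φ.toRingHom (Ψ.toRingHom x) = x)
    (s : Additive S.PicBar) : Φ.picMap (Ψ.picMap s) = s := by
  obtain ⟨a, rfl⟩ := Additive.ofMul.surjective s
  induction a using QuotientGroup.induction_on with
  | H a =>
  refine congrArg S.picClass (Units.ext ?_)
  exact Φ.mapMod_mapMod Ψ h _

/-- A trivial symmetry is trivial on classes. -/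
theorem Symm.picMap_eq_self (Φ : S.Symm) (h : ∀ x, Φ.toRingHom x = x)
    (s : Additive S.PicBar) : Φ.picMap s = s := by
  obtain ⟨a, rfl⟩ := Additive.ofMul.surjective s
  induction a using QuotientGroup.induction_on with
  | H a =>
  refine congrArg S.picClass (Units.ext ?_)
  refine le_antisymm (Submodule.span_le.mpr ?_) fun x hx => h x ▸ Φ.mem_mapMod hx
  rintro _ ⟨x, hx, rfl⟩
  rw [h]
  exact hx

end Fermat.Agent.Reduction.CurveRed
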