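import Fermat.Agent.Reduction.Ideals
import Fermat.Agent.Reduction.Level.Normal
import Fermat.Prelude.Def_ModularCurve_ReductionModL

/-!
# Reduction modulo `ℓ` is injective on torsion of order prime to `ℓ`

For any place reduction `r` compatible with the divisors of integral functions, a torsion class
killed by `r` is zero.
-/

set_option autoImplicit false

noncomputable section

open ModularCurve AlgebraicCurve Fermat.Agent.Igusa

namespace Fermat.Agent.Reduction

variable {K k : Type*} [Field K] [Field k] {A : ValuationSubring K} {π : A →+* k}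

namespace CurveRed

variable {S : CurveRed A π} {n₀ : ℕ}

/-- A torsion divisor whose image under a compatible place reduction is principal is principal. -/
theorem GapBound.isPrincipal_of_mapDomain [IsAlgClosed K] [IsAlgClosed k]
    [FF.IsFunctionField k S.Fbar] (hgap : S.GapBound n₀)
    (r : Place K S.F → Place k S.Fbar)
    (hr : ∀ (u : S.F) (x : LaurentSeries k) (hx : x ∈ S.Fbar),
      Red A π (u : LaurentSeries K) x → x ≠ 0 → ∀ D : Divisor K S.F, (∀ P, D P = P.ord u) →
        ∀ Q, Finsupp.mapDomain r D Q = Q.ord (⟨x, hx⟩ : S.Fbar))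
    {m : ℕ} (hm : (m : k) ≠ 0) {D : Divisor K S.F} (hD : Divisor.degree D = 0)
    (hmD : (m : ℤ) • D ∈ Divisor.principal (K := K) (F := S.F))
    (hrD : Finsupp.mapDomain r D ∈ Divisor.principal (K := k) (F := S.Fbar)) :
    D ∈ Divisor.principal (K := K) (F := S.F) := by
  classical
  have hm0 : 0 < m := Nat.pos_of_ne_zero fun h0 => hm (by simp [h0])
  obtain ⟨f, hf, hDf⟩ := hmD
  obtain ⟨g, hg, hgD⟩ := hrD
  obtain ⟨b, P, Q, M, hb, hP, hQ, hDPQ, hdiv⟩ := exists_eff_equiv (S := S) D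
  have hscale : ∀ u : S.F, u ≠ 0 → (∀ v, v ≠ S.pt → 0 ≤ v.ord u) →
      ∃ (u' : S.F) (x : S.Fbar), u' ≠ 0 ∧ x ≠ 0 ∧ (∀ v : Place K S.F, v.ord u' = v.ord u) ∧
        Red A π (u' : LaurentSeries K) (x : LaurentSeries k) := by
    intro u hu hreg
    obtain ⟨c, hc, t, ht, hct⟩ := S.normalizable u hreg hu
    have hc0 : algebraMap K S.F c ≠ 0 := (map_ne_zero _).mpr hc
    have hred : Red A π ((algebraMap K S.F c * u : S.F) : LaurentSeries K) t := by
      push_cast
      rw [← smul_eq_algebraMap_mul]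
      exact hct
    refine ⟨algebraMap K S.F c * u, ⟨t, S.red_mem _ (fun v hv => ?_) t hred⟩, mul_ne_zero hc0 hu,
      fun h => ht (congrArg Subtype.val h), fun v => ?_, hred⟩
    · rw [v.ord_mul hc0 hu, FF.ord_algebraMap, zero_add]
      exact hreg v hv
    · rw [v.ord_mul hc0 hu, FF.ord_algebraMap, zero_add]
  have hrdiv : ∀ (u : S.F) (x : S.Fbar), x ≠ 0 →
      Red A π (u : LaurentSeries K) (x : LaurentSeries k) → ∀ D : Divisor K S.F,
      (∀ P, D P = P.ord u) → ∀ Q, Finsupp.mapDomain r D Q = Q.ord x :=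
    fun u x hx hux D hD Q => hr u x x.2 hux (fun h => hx (Subtype.ext h)) D hD Q
  set h₀ : S.F := f * b ^ m with hh₀
  have hdiv₀ : ∀ v, v.ord h₀ = ((m : ℤ) • (P - S.atPt M)) v := fun v => by
    rw [hh₀, v.ord_mul hf (pow_ne_zero m hb), FF.ord_pow, ← hDf v, hdiv v, Finsupp.smul_apply,
      Finsupp.smul_apply, hDPQ, Finsupp.sub_apply, Finsupp.sub_apply]
    simp only [smul_eq_mul]
    ring
  obtain ⟨h₁, x₁, hh₁0, hx₁0, hh₁, hred₁⟩ := hscale h₀ (mul_ne_zero hf (pow_ne_zero m hb))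
    fun v hv => by
      rw [hdiv₀ v, Finsupp.smul_apply, Finsupp.sub_apply, S.atPt_of_ne _ hv, sub_zero]
      exact smul_nonneg (Int.natCast_nonneg m) (hP v)
  obtain ⟨b₁, bx, hb₁0, hbx0, hb₁, hredb⟩ := hscale b hb fun v hv => by
    rw [hdiv v, S.atPt_of_ne _ hv, sub_zero]
    exact hQ v
  have e1 := hrdiv h₁ x₁ hx₁0 hred₁ ((m : ℤ) • (P - S.atPt M))
    fun v => by rw [hh₁, hdiv₀]
  have e2 := hrdiv b₁ bx hbx0 hredb (Q - S.atPt M)
    fun v => by rw [hb₁, hdiv, Finsupp.sub_apply]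
  have hgb : g * bx ≠ 0 := mul_ne_zero hg hbx0
  have hord : ∀ v : Place k S.Fbar, v.ord (x₁ / (g * bx) ^ m) = 0 := by
    intro v
    have hPM : Finsupp.mapDomain r (P - S.atPt M) v = v.ord (g * bx) := by
      rw [show P - S.atPt M = D + (Q - S.atPt M) by rw [hDPQ]; abel, Finsupp.mapDomain_add,
        Finsupp.add_apply, hgD v, e2 v, v.ord_mul hg hbx0]
    rw [FF.ord_div v hx₁0 (pow_ne_zero m hgb), FF.ord_pow, ← e1 v, ← hPM,
      Finsupp.mapDomain_smul, Finsupp.smul_apply, smul_eq_mul, sub_self]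
  obtain ⟨a, ha⟩ : ∃ a : k, algebraMap k S.Fbar a = x₁ / (g * bx) ^ m :=
    ⟨_, (minpoly.mem_range_of_degree_eq_one k _ (IsAlgClosed.degree_eq_one_of_irreducible k
      (minpoly.irreducible (FF.forall_ord_eq_zero_iff.1 hord).isIntegral))).choose_spec⟩
  obtain ⟨a', ha'⟩ := IsAlgClosed.exists_pow_nat_eq a hm0
  set x : S.Fbar := algebraMap k S.Fbar a' * (g * bx) with hx
  have hxm : x ^ m = x₁ := by
    rw [hx, mul_pow, ← map_pow, ha', ha, div_mul_cancel₀ _ (pow_ne_zero m hgb)]
  have hx0 : x ≠ 0 := fun h => hx₁0 (by rw [← hxm, h, zero_pow hm0.ne'])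
  have hdegP : Divisor.degree P = M := by
    obtain ⟨Eb, hEb, hEbdeg⟩ := S.exists_div hb
    have hQd : Eb = Q - S.atPt M := Finsupp.ext fun v => by
      rw [hEb v, hdiv v, Finsupp.sub_apply]
    rw [hQd, map_sub, S.degree_atPt] at hEbdeg
    rw [hDPQ, map_sub] at hD
    omega
  obtain ⟨u, hu, hudiv⟩ := hgap.isPrincipal_of_nsmul hm (D := S.atPt M - P)
    (by rw [map_sub, S.degree_atPt, hdegP, sub_self])
    (fun v hv => by
      rw [Finsupp.sub_apply, S.atPt_of_ne _ hv]
      have := hP v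
      omega)
    hh₁0 (fun v => by
      rw [hh₁, hdiv₀ v, Finsupp.smul_apply, Finsupp.sub_apply, Finsupp.sub_apply]
      simp only [smul_eq_mul]
      ring)
    x.2 (fun h => hx0 (Subtype.ext h))
    (by rw [← SubmonoidClass.coe_pow, hxm]; exact hred₁)
  refine ⟨(u * b)⁻¹, inv_ne_zero (mul_ne_zero hu hb), fun v => ?_⟩
  rw [v.ord_inv, v.ord_mul hu hb, ← hudiv v, hdiv v, hDPQ, Finsupp.sub_apply, Finsupp.sub_apply]
  ring

end CurveRed

section Level

open Level

variable {N : ℕ} [NeZero N] [IsAlgClosed K] [IsAlgClosed k]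

/-- The same with the source field given up to equality. -/
theorem levelCurve_isPrincipal (hπs : Function.Surjective π) (hN : (N : k) ≠ 0)
    (harch : ∀ a : A, π a = 0 → ∀ b : K, b ≠ 0 →
      ∃ n : ℕ, A.valuation (a : K) ^ n ≤ A.valuation b)
    {n₀ : ℕ} (hgap : (levelCurve π hπs hN harch).GapBound n₀)
    {F : IntermediateField K (LaurentSeries K)} (hF : F = modularFunctionFieldFullC K N)
    (r : Place K F → Place k (modularFunctionFieldFullC k N))
    (hr : ∀ (u : F) (x : LaurentSeries k) (hx : x ∈ modularFunctionFieldFullC k N),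
      Red A π (u : LaurentSeries K) x → x ≠ 0 → ∀ D : Divisor K F, (∀ P, D P = P.ord u) →
        ∀ Q, Finsupp.mapDomain r D Q = Q.ord (⟨x, hx⟩ : modularFunctionFieldFullC k N))
    {m : ℕ} (hm : (m : k) ≠ 0) {D : Divisor K F} (hD : Divisor.degree D = 0)
    (hmD : (m : ℤ) • D ∈ Divisor.principal (K := K) (F := F))
    (hrD : Finsupp.mapDomain r D ∈
      Divisor.principal (K := k) (F := modularFunctionFieldFullC k N)) :
    D ∈ Divisor.principal (K := K) (F := F) := by
  subst hF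
  have : FF.IsFunctionField k (levelCurve π hπs hN harch).Fbar :=
    isFunctionField_level (k := k) hN
  exact hgap.isPrincipal_of_mapDomain r hr hm hD hmD hrD

end Level

/-- `red` is injective on `m`-torsion of `J₀(N)` for `ℓ ∤ m N`. -/
theorem reductionModL_injective (N : ℕ) [NeZero N] {ℓ : ℕ} [Fact ℓ.Prime] (hℓN : ¬ ℓ ∣ N)
    (A : ValuationSubring (AlgebraicClosure ℚ)) (hA : A.LiesOverPrime ℓ)
    (h : ReductionInputsModL A N) (m : ℕ) (hm : ¬ ℓ ∣ m) (z : JZero N) (hmz : m • z = 0)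
    (hz : reductionModL A N z = 0) : z = 0 := by
  have := Gal.isAlgClosed_residueField A
  obtain ⟨n₀, hgap⟩ := Level.exists_gapBound_qbar A hA N hℓN
  obtain ⟨⟨D, hD⟩, rfl⟩ := Pic0.mk_surjective z
  rw [reductionModL_mk h] at hz
  have hrD := AddSubgroup.mem_addSubgroupOf.mp ((QuotientAddGroup.eq_zero_iff _).mp hz)
  rw [coe_reductionDegZeroAlong] at hrD
  have hmD : (m : ℤ) • D ∈ Divisor.principal := by
    have h1 := AddSubgroup.mem_addSubgroupOf.mp ((QuotientAddGroup.eq_zero_iff _).mp hmz)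
    rw [AddSubgroupClass.coe_nsmul] at h1
    rwa [natCast_zsmul]
  refine (QuotientAddGroup.eq_zero_iff _).mpr (AddSubgroup.mem_addSubgroupOf.mpr ?_)
  refine levelCurve_isPrincipal IsLocalRing.residue_surjective
    (Level.natCast_residueField_ne_zero A hA hℓN) (Level.arch_qbar A hA) hgap
    (Level.modularFunctionFieldBar_eq_fullC N) (placeReductionModL h) ?_
    (Level.natCast_residueField_ne_zero A hA hm) (Divisor.mem_degZero.mp hD) hmD hrD
  intro u x hx hred hx0 E hE Q
  obtain ⟨y, hy, hyx⟩ := red_iff_exists.mp hred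
  subst hyx
  have hyu : coeffMap A.subtype y ∈ modularFunctionFieldBar N := hy ▸ u.2
  refine (isPlaceReductionModL_placeReductionModL h).2 y hyu hx hx0 E (fun P => ?_) Q
  rw [hE P]
  exact congrArg P.ord (Subtype.ext hy.symm)

end Fermat.Agent.Reduction
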