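import Fermat.Agent.Reduction.Ideals

/-!
# Functoriality of the reduced class

Ring endomorphisms `Φ` of `LaurentSeries k` preserving `Cbar` and `Fbar` act on reduced classes.
A divisor map which lifts to regular functions with reduction `x ↦ Φ x * Ψ x ^ l` is intertwined
with `Φ + l Ψ`.
-/

set_option autoImplicit false
attribute [-instance] IsScalarTower.of_algHom

noncomputable section

namespace Fermat.Agent.Reduction

open HahnSeries AlgebraicCurve

variable {K k : Type*} [Field K] [Field k] {A : ValuationSubring K} {π : A →+* k}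

namespace CurveRed

variable {S : CurveRed A π} {n₀ : ℕ}

variable (S) in
/-- A ring endomorphism of series preserving the reduced curve. -/
structure Symm where
  /-- the underlying ring map -/
  toRingHom : LaurentSeries k →+* LaurentSeries k
  map_Cbar : ∀ x ∈ S.Cbar, toRingHom x ∈ S.Cbar
  map_Fbar : ∀ x ∈ S.Fbar, toRingHom x ∈ S.Fbar

/-- The module generated by the image of a module. -/
def Symm.mapMod (Φ : S.Symm) :
    Submodule S.Cbar (LaurentSeries k) →* Submodule S.Cbar (LaurentSeries k) where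
  toFun I := Submodule.span S.Cbar (Φ.toRingHom '' (I : Set (LaurentSeries k)))
  map_one' := by
    refine le_antisymm (Submodule.span_le.mpr ?_) ?_
    · rintro _ ⟨x, hx, rfl⟩
      obtain ⟨c, rfl⟩ := Submodule.mem_one.mp hx
      exact Submodule.mem_one.mpr ⟨⟨_, Φ.map_Cbar _ c.2⟩, rfl⟩
    · exact Submodule.one_le.mpr
        (Submodule.subset_span ⟨1, Submodule.one_le.mp le_rfl, map_one _⟩)
  map_mul' I J := by
    refine le_antisymm (Submodule.span_le.mpr ?_) ?_
    · rintro _ ⟨x, hx, rfl⟩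
      refine Submodule.mul_induction_on hx (fun a ha b hb => ?_) (fun a b ha hb => ?_)
      · rw [map_mul]
        exact Submodule.mul_mem_mul (Submodule.subset_span ⟨a, ha, rfl⟩)
          (Submodule.subset_span ⟨b, hb, rfl⟩)
      · rw [map_add]
        exact add_mem ha hb
    · rw [Submodule.span_mul_span, Submodule.span_le]
      rintro _ ⟨_, ⟨a, ha, rfl⟩, _, ⟨b, hb, rfl⟩, rfl⟩
      exact Submodule.subset_span ⟨a * b, Submodule.mul_mem_mul ha hb, map_mul _ _ _⟩

theorem Symm.mem_mapMod (Φ : S.Symm) {I : Submodule S.Cbar (LaurentSeries k)}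
    {x : LaurentSeries k} (hx : x ∈ I) : Φ.toRingHom x ∈ Φ.mapMod I :=
  Submodule.subset_span ⟨x, hx, rfl⟩

theorem Symm.mapMod_span_singleton (Φ : S.Symm) (x : LaurentSeries k) :
    Φ.mapMod (Submodule.span S.Cbar {x}) = Submodule.span S.Cbar {Φ.toRingHom x} := by
  refine le_antisymm (Submodule.span_le.mpr ?_)
    ((Submodule.span_singleton_le_iff_mem _ _).mpr
      (Φ.mem_mapMod (Submodule.mem_span_singleton_self x)))
  rintro _ ⟨y, hy, rfl⟩
  obtain ⟨c, rfl⟩ := Submodule.mem_span_singleton.mp hy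
  refine Submodule.mem_span_singleton.mpr ⟨⟨_, Φ.map_Cbar _ c.2⟩, ?_⟩
  rw [Algebra.smul_def, Algebra.smul_def]
  exact (map_mul Φ.toRingHom _ _).symm

theorem Symm.principal_le (Φ : S.Symm) :
    (principalUnit S).range ≤ (principalUnit S).range.comap (Units.map Φ.mapMod) := by
  rintro _ ⟨u, rfl⟩
  let f : S.Fbar →* S.Fbar :=
    { toFun := fun x => ⟨Φ.toRingHom x, Φ.map_Fbar _ x.2⟩
      map_one' := Subtype.ext (map_one Φ.toRingHom)
      map_mul' := fun a b => Subtype.ext (map_mul Φ.toRingHom _ _) }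
  refine Subgroup.mem_comap.mpr ⟨Units.map f u, Units.ext ?_⟩
  exact (Φ.mapMod_span_singleton _).symm

/-- The action on reduced classes. -/
def Symm.picMap (Φ : S.Symm) : Additive S.PicBar →+ Additive S.PicBar where
  toFun x := Additive.ofMul <|
    Quotient.liftOn' (Additive.toMul x)
      (fun u => (QuotientGroup.mk (Units.map Φ.mapMod u) : S.PicBar))
      (fun a b hab => by
        rw [QuotientGroup.eq, ← map_inv, ← map_mul]
        exact Φ.principal_le (QuotientGroup.leftRel_apply.mp hab))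
  map_zero' := by
    show Additive.ofMul (QuotientGroup.mk (Units.map Φ.mapMod 1) : S.PicBar) = 0
    rw [map_one]; rfl
  map_add' x y := by
    obtain ⟨a, rfl⟩ := Additive.ofMul.surjective x
    obtain ⟨b, rfl⟩ := Additive.ofMul.surjective y
    induction a using QuotientGroup.induction_on with
    | H a =>
    induction b using QuotientGroup.induction_on with
    | H b =>
    show Additive.ofMul (QuotientGroup.mk (Units.map Φ.mapMod (a * b)) : S.PicBar) = _
    rw [map_mul]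
    rfl

theorem Symm.picMap_picClass (Φ : S.Symm) (u : (Submodule S.Cbar (LaurentSeries k))ˣ) :
    Φ.picMap (S.picClass u) = S.picClass (Units.map Φ.mapMod u) := rfl

variable (S) in
/-- A divisor map `T` lifted to regular functions, whose reduction is `x ↦ Φ x * Ψ x ^ l`. -/
structure FrobLift (Φ Ψ : S.Symm) (l : ℕ) (T : Divisor K S.F →+ Divisor K S.F) (d : ℤ) : Prop where
  eff : ∀ E : Divisor K S.F, S.IsEff E → S.IsEff (T E)
  pt : T (Finsupp.single S.pt 1) = S.atPt d
  lift : ∀ u : S.F, (∀ v, v ≠ S.pt → 0 ≤ v.ord u) → u ≠ 0 →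
    ∀ E : Divisor K S.F, (∀ v, E v = v.ord u) → ∀ x : LaurentSeries k,
      Red A π (u : LaurentSeries K) x →
      ∃ u' : S.F, u' ≠ 0 ∧ (∀ v, (T E) v = v.ord u') ∧
        Red A π (u' : LaurentSeries K) (Φ.toRingHom x * Ψ.toRingHom x ^ l)

theorem FrobLift.map_atPt {Φ Ψ : S.Symm} {l : ℕ} {T : Divisor K S.F →+ Divisor K S.F} {d : ℤ}
    (hT : S.FrobLift Φ Ψ l T d) (n : ℤ) : T (S.atPt n) = S.atPt (d * n) := by
  have h1 : S.atPt n = n • Finsupp.single S.pt (1 : ℤ) := by simp [atPt]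
  rw [h1, map_zsmul, hT.pt, atPt, atPt, Finsupp.smul_single, smul_eq_mul, mul_comm]

theorem FrobLift.mem_effIdeal {Φ Ψ : S.Symm} {l : ℕ} {T : Divisor K S.F →+ Divisor K S.F} {d : ℤ}
    (hT : S.FrobLift Φ Ψ l T d) (_hl : 0 < l) {E : Divisor K S.F} (hE : S.IsEff E)
    {x : LaurentSeries k} (hx : x ∈ S.effIdeal E) :
    Φ.toRingHom x * Ψ.toRingHom x ^ l ∈ S.effIdeal (T E) := by
  obtain ⟨n, y, hy, hyx⟩ := CurveRed.mem_effIdeal.mp hx
  obtain ⟨u, rfl, hu⟩ := S.exists_of_mem_space hy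
  rcases eq_or_ne u 0 with rfl | hu0
  · rw [hyx.unique red_zero, map_zero, zero_mul]
    exact Submodule.zero_mem _
  have hreg : ∀ v, v ≠ S.pt → 0 ≤ v.ord u := fun v hv => by
    have h1 := (hu v).resolve_left hu0
    rw [Finsupp.sub_apply, S.atPt_of_ne _ hv] at h1
    have := hE v
    omega
  obtain ⟨Eu, hEu, -⟩ := S.exists_div hu0
  obtain ⟨u', hu'0, hu', hred⟩ := hT.lift u hreg hu0 Eu hEu x hyx
  refine ⟨(d * n).toNat, u', S.coe_mem_space.mpr fun v => Or.inr ?_, hred⟩
  have heff : S.IsEff (Eu + S.atPt (n : ℤ) - E) := fun w => by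
    have h1 := (hu w).resolve_left hu0
    rw [Finsupp.sub_apply] at h1
    rw [Finsupp.sub_apply, Finsupp.add_apply, hEu w]
    omega
  have h2 := hT.eff _ heff v
  rw [map_sub, map_add, hT.map_atPt, Finsupp.sub_apply, Finsupp.add_apply, hu' v] at h2
  rw [Finsupp.sub_apply]
  have h3 : S.atPt (d * n) v ≤ S.atPt ((d * n).toNat : ℤ) v := by
    rcases eq_or_ne v S.pt with rfl | hv
    · simp only [atPt_self]; omega
    · simp [atPt_of_ne, hv]
  omega

/-- **Congruence relation**: `T = Φ + l Ψ` on reduced classes. -/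
theorem GapBound.classHom_congruence (hgap : S.GapBound n₀) {Φ Ψ : S.Symm} {l : ℕ}
    {T : Divisor K S.F →+ Divisor K S.F} {d : ℤ} (hT : S.FrobLift Φ Ψ l T d) (hl : 0 < l)
    (hΦ : Function.Injective Φ.toRingHom) (hΨ : Function.Injective Ψ.toRingHom)
    (D : Divisor K S.F) :
    hgap.classHom (T D) = Φ.picMap (hgap.classHom D) + l • Ψ.picMap (hgap.classHom D) := by
  suffices hsingle : ∀ (E : Divisor K S.F), S.IsEff E →
      hgap.classHom (T E) = Φ.picMap (hgap.classHom E) + l • Ψ.picMap (hgap.classHom E) by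
    obtain ⟨b, P, Q, M, -, hP, hQ, hDPQ, -⟩ := exists_eff_equiv (S := S) D
    rw [hDPQ, map_sub, map_sub, hsingle P hP, hsingle Q hQ, map_sub, map_sub, map_sub, smul_sub]
    abel
  intro E hE
  obtain ⟨u, hu⟩ := hgap.exists_effUnit hE
  rw [hgap.classHom_eff hE u hu, Φ.picMap_picClass, Ψ.picMap_picClass]
  obtain ⟨uT, huT⟩ := hgap.exists_effUnit (hT.eff E hE)
  rw [hgap.classHom_eff (hT.eff E hE) uT huT]
  show S.picClass uT = Additive.ofMul (QuotientGroup.mk (Units.map Φ.mapMod u *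
    Units.map Ψ.mapMod u ^ l) : S.PicBar)
  refine congrArg S.picClass (Units.ext ?_)
  rw [huT, Units.val_mul, Units.val_pow_eq_pow_val, Units.coe_map, Units.coe_map, hu]
  -- a cofactor: the image of `E + R` is principal
  obtain ⟨R, M, h, t, hR, hh, ht, hht, -, hdiv⟩ := exists_cofactor hE
  have hw : S.effIdeal (T E) * S.effIdeal (T R) =
      Submodule.span S.Cbar {Φ.toRingHom t * Ψ.toRingHom t ^ l} := by
    have hreg : ∀ v, v ≠ S.pt → 0 ≤ v.ord h := fun v hv => by
      rw [hdiv v, S.atPt_of_ne _ hv, sub_zero]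
      exact hE.add hR v
    obtain ⟨h', hh'0, hh', hred⟩ := hT.lift h hreg hh (E + R - S.atPt (M : ℤ))
      (fun v => by rw [hdiv v, Finsupp.sub_apply]) t hht
    rw [← hgap.effIdeal_add (hT.eff E hE) (hT.eff R hR), ← map_add T]
    refine effIdeal_eq_span (hT.eff _ (hE.add hR)) (M := d * M) hh'0 (fun v => ?_)
      (mul_ne_zero ((map_ne_zero_iff _ hΦ).mpr ht) (pow_ne_zero _ ((map_ne_zero_iff _ hΨ).mpr ht)))
      hred
    rw [← hh' v, map_sub, hT.map_atPt, Finsupp.sub_apply]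
  have hPP : Φ.mapMod (S.effIdeal E) * Ψ.mapMod (S.effIdeal E) ^ l *
      (Φ.mapMod (S.effIdeal R) * Ψ.mapMod (S.effIdeal R) ^ l) =
      Submodule.span S.Cbar {Φ.toRingHom t * Ψ.toRingHom t ^ l} := by
    rw [mul_mul_mul_comm, ← mul_pow, ← map_mul, ← map_mul,
      hgap.effIdeal_mul_cofactor hE hR hh hdiv ht hht, Symm.mapMod_span_singleton,
      Symm.mapMod_span_singleton, Submodule.span_pow, Set.singleton_pow, Submodule.span_mul_span,
      Set.singleton_mul_singleton]
  have hle : ∀ {E : Divisor K S.F}, S.IsEff E →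
      Φ.mapMod (S.effIdeal E) * Ψ.mapMod (S.effIdeal E) ^ l ≤ S.effIdeal (T E) := by
    intro E hE
    obtain ⟨v₀, hv₀⟩ := hgap.exists_effUnit hE
    set Einv : Submodule S.Cbar (LaurentSeries k) :=
      ((v₀⁻¹ : (Submodule S.Cbar (LaurentSeries k))ˣ) : Submodule S.Cbar (LaurentSeries k))
      with hEinv
    have hmul : S.effIdeal E * Einv = 1 := by rw [← hv₀, hEinv, Units.mul_inv]
    set P := Φ.mapMod (S.effIdeal E) * Ψ.mapMod (S.effIdeal E) ^ l with hP
    set P' := Φ.mapMod Einv * Ψ.mapMod Einv ^ l with hP'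
    have hPinv : P * P' = 1 := by
      rw [hP, hP', mul_mul_mul_comm, ← mul_pow, ← map_mul, ← map_mul, hmul, map_one, map_one,
        one_pow, mul_one]
    set Mx : Submodule S.Cbar (LaurentSeries k) := Submodule.span S.Cbar
      ((fun x => Φ.toRingHom x * Ψ.toRingHom x ^ l) '' (S.effIdeal E : Set (LaurentSeries k)))
      with hMx
    have hMT : Mx ≤ S.effIdeal (T E) := Submodule.span_le.mpr (by
      rintro _ ⟨x, hx, rfl⟩
      exact hT.mem_effIdeal hl hE hx)
    set Q : Ideal S.Cbar := (Mx * P').comap (Algebra.linearMap S.Cbar (LaurentSeries k)) with hQ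
    have hQtop : Q = ⊤ := by
      by_contra hne
      obtain ⟨𝔭, hmax, hQp⟩ := Ideal.exists_le_maximal Q hne
      have hC : ∀ (Θ : S.Symm) {x v : LaurentSeries k}, x ∈ S.effIdeal E →
          v ∈ Θ.mapMod Einv → Θ.toRingHom x * v ∈ S.Cbar := by
        intro Θ x v hx hv
        have hm := Submodule.mul_mem_mul (Θ.mem_mapMod hx) hv
        rw [← map_mul, hmul, map_one] at hm
        obtain ⟨c, hc⟩ := Submodule.mem_one.mp hm
        rw [← hc]
        exact c.2
      have key : ∀ (Θ : S.Symm), ∃ x₀ ∈ S.effIdeal E, ∃ v ∈ Θ.mapMod Einv,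
          ∀ c : S.Cbar, (c : LaurentSeries k) = Θ.toRingHom x₀ * v → c ∉ 𝔭 := by
        intro Θ
        by_contra hall
        push Not at hall
        apply hmax.ne_top
        rw [Ideal.eq_top_iff_one]
        have hsub : ∀ y ∈ Θ.mapMod (S.effIdeal E) * Θ.mapMod Einv,
            ∃ c ∈ 𝔭, (c : LaurentSeries k) = y := by
          intro y hy
          refine Submodule.mul_induction_on hy (fun a ha b hb => ?_) ?_
          · refine Submodule.span_induction (p := fun a _ => ∃ c ∈ 𝔭, (c : LaurentSeries k) = a * b)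
              ?_ ?_ ?_ ?_ ha
            · rintro _ ⟨x, hx, rfl⟩
              obtain ⟨c, hc, hcp⟩ := hall x hx b hb
              exact ⟨c, hcp, hc⟩
            · exact ⟨0, 𝔭.zero_mem, by simp⟩
            · rintro u v - - ⟨c, hc, hcu⟩ ⟨d, hd, hdv⟩
              exact ⟨c + d, 𝔭.add_mem hc hd, by rw [AddMemClass.coe_add, hcu, hdv, add_mul]⟩
            · rintro r u - ⟨c, hc, hcu⟩
              exact ⟨r * c, 𝔭.mul_mem_left r hc, by
                rw [MulMemClass.coe_mul, hcu, Algebra.smul_def, mul_assoc]; rfl⟩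
          · rintro u v ⟨c, hc, hcu⟩ ⟨d, hd, hdv⟩
            exact ⟨c + d, 𝔭.add_mem hc hd, by rw [AddMemClass.coe_add, hcu, hdv]⟩
        obtain ⟨c, hc, hc1⟩ := hsub 1 (by
          rw [← map_mul, hmul, map_one]; exact Submodule.one_le.mp le_rfl)
        rwa [show c = 1 from Subtype.ext hc1] at hc
      obtain ⟨x₁, hx₁, v₁, hv₁, hn₁⟩ := key Φ
      obtain ⟨x₂, hx₂, v₂, hv₂, hn₂⟩ := key Ψ
      obtain ⟨x, hx, hxΦ, hxΨ⟩ : ∃ x, ∃ hx : x ∈ S.effIdeal E,
          (⟨_, hC Φ hx hv₁⟩ : S.Cbar) ∉ 𝔭 ∧ (⟨_, hC Ψ hx hv₂⟩ : S.Cbar) ∉ 𝔭 := by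
        by_cases h₁ : (⟨_, hC Ψ hx₁ hv₂⟩ : S.Cbar) ∈ 𝔭
        · by_cases h₂ : (⟨_, hC Φ hx₂ hv₁⟩ : S.Cbar) ∈ 𝔭
          · refine ⟨x₁ + x₂, add_mem hx₁ hx₂, fun hc => ?_, fun hc => ?_⟩
            · refine hn₁ ⟨_, hC Φ hx₁ hv₁⟩ rfl ?_
              convert 𝔭.sub_mem hc h₂ using 1
              exact Subtype.ext (by rw [AddSubgroupClass.coe_sub]; simp only [map_add]; ring)
            · refine hn₂ ⟨_, hC Ψ hx₂ hv₂⟩ rfl ?_
              convert 𝔭.sub_mem hc h₁ using 1
              exact Subtype.ext (by rw [AddSubgroupClass.coe_sub]; simp only [map_add]; ring)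
          · exact ⟨x₂, hx₂, h₂, hn₂ _ rfl⟩
        · exact ⟨x₁, hx₁, hn₁ _ rfl, h₁⟩
      have hmemM : Φ.toRingHom x * Ψ.toRingHom x ^ l * (v₁ * v₂ ^ l) ∈ Mx * P' :=
        Submodule.mul_mem_mul (Submodule.subset_span ⟨x, hx, rfl⟩)
          (Submodule.mul_mem_mul hv₁ (Submodule.pow_mem_pow _ hv₂ l))
      set e₁ : S.Cbar := ⟨_, hC Φ hx hv₁⟩ with he₁
      set e₂ : S.Cbar := ⟨_, hC Ψ hx hv₂⟩ with he₂
      have hmemQ : e₁ * e₂ ^ l ∈ Q := by
        rw [hQ, Submodule.mem_comap, Algebra.linearMap_apply]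
        show ((e₁ * e₂ ^ l : S.Cbar) : LaurentSeries k) ∈ Mx * P'
        rw [MulMemClass.coe_mul, SubmonoidClass.coe_pow]
        convert hmemM using 1
        show Φ.toRingHom x * v₁ * (Ψ.toRingHom x * v₂) ^ l = _
        rw [mul_pow]; ring
      rcases hmax.isPrime.mem_or_mem (hQp hmemQ) with h₃ | h₃
      · exact hxΦ h₃
      · exact hxΨ (hmax.isPrime.mem_of_pow_mem l h₃)
    have hone : (1 : LaurentSeries k) ∈ Mx * P' := by
      have : (1 : S.Cbar) ∈ Q := hQtop ▸ Submodule.mem_top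
      rw [hQ, Submodule.mem_comap, Algebra.linearMap_apply, map_one] at this
      exact this
    calc P ≤ (Mx * P') * P := le_mul_of_one_le_left' (Submodule.one_le.mpr hone)
      _ = Mx := by rw [mul_assoc, mul_comm P', hPinv, mul_one]
      _ ≤ S.effIdeal (T E) := hMT
  -- both factors are invertible, so the containments are equalities
  refine le_antisymm ?_ (hle hE)
  obtain ⟨wR, hwR⟩ := hgap.exists_effUnit hR
  set Q' := Φ.mapMod (S.effIdeal R) * Ψ.mapMod (S.effIdeal R) ^ l with hQ'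
  have hQu : IsUnit Q' := by
    rw [hQ', ← hwR]
    exact (wR.isUnit.map Φ.mapMod).mul ((wR.isUnit.map Ψ.mapMod).pow l)
  obtain ⟨Qi, hQi⟩ := hQu.exists_right_inv
  calc S.effIdeal (T E) = S.effIdeal (T E) * (Q' * Qi) := by rw [hQi, mul_one]
    _ = S.effIdeal (T E) * Q' * Qi := (mul_assoc _ _ _).symm
    _ ≤ S.effIdeal (T E) * S.effIdeal (T R) * Qi := mul_le_mul' (mul_le_mul' le_rfl (hle hR)) le_rfl
    _ = _ := by rw [hw, ← hPP, mul_assoc, hQi, mul_one]

end CurveRed

end Fermat.Agent.Reduction
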